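import Mathlib

/-!
# Cohomology of level-constant cochains in degrees 0, 1, 2

`Lvl G` is a directed family of normal subgroups of finite index in an abstract group `G`.
For a representation `ρ : Representation k G V` we consider inhomogeneous cochains which are
constant on the cosets of some level, and define `H0`, `H1`, `H2`.
-/

set_option autoImplicit false

namespace Fermat.Agent.CFT.LC

/-- A directed family of normal subgroups of finite index. -/
structure Lvl (G : Type*) [Group G] where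
  /-- the set of levels -/
  levels : Set (Subgroup G)
  nonempty : levels.Nonempty
  directed : ∀ U ∈ levels, ∀ V ∈ levels, ∃ W ∈ levels, W ≤ U ∧ W ≤ V
  normal : ∀ U ∈ levels, U.Normal
  finiteIndex : ∀ U ∈ levels, U.FiniteIndex

namespace Lvl

variable {G H K : Type*} [Group G] [Group H] [Group K]

/-- A subgroup is open if it contains a level. -/
def IsOpen (L : Lvl G) (U : Subgroup G) : Prop := ∃ N ∈ L.levels, N ≤ U

theorem IsOpen.of_mem {L : Lvl G} {N : Subgroup G} (h : N ∈ L.levels) : L.IsOpen N := ⟨N, h, le_rfl⟩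

theorem IsOpen.mono {L : Lvl G} {U V : Subgroup G} (h : L.IsOpen U) (hUV : U ≤ V) : L.IsOpen V := by
  obtain ⟨N, hN, h⟩ := h
  exact ⟨N, hN, h.trans hUV⟩

theorem IsOpen.inf {L : Lvl G} {U V : Subgroup G} (hU : L.IsOpen U) (hV : L.IsOpen V) :
    L.IsOpen (U ⊓ V) := by
  obtain ⟨N, hN, h⟩ := hU
  obtain ⟨N', hN', h'⟩ := hV
  obtain ⟨W, hW, h1, h2⟩ := L.directed N hN N' hN'
  exact ⟨W, hW, le_inf (h1.trans h) (h2.trans h')⟩

theorem isOpen_top (L : Lvl G) : L.IsOpen ⊤ := by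
  obtain ⟨N, hN⟩ := L.nonempty
  exact ⟨N, hN, le_top⟩

theorem IsOpen.finiteIndex {L : Lvl G} {U : Subgroup G} (h : L.IsOpen U) : U.FiniteIndex := by
  obtain ⟨N, hN, h⟩ := h
  have := L.finiteIndex N hN
  exact Subgroup.finiteIndex_of_le h

theorem exists_level_le_finset (L : Lvl G) {ι : Type*} (s : Finset ι) (N : ι → Subgroup G)
    (h : ∀ i ∈ s, N i ∈ L.levels) : ∃ W ∈ L.levels, ∀ i ∈ s, W ≤ N i := by
  classical
  induction s using Finset.induction_on with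
  | empty =>
    obtain ⟨W, hW⟩ := L.nonempty
    exact ⟨W, hW, by simp⟩
  | insert a s ha ih =>
    obtain ⟨W, hW, h1⟩ := ih fun i hi => h i (Finset.mem_insert_of_mem hi)
    obtain ⟨W', hW', h2, h3⟩ := L.directed W hW (N a) (h a (Finset.mem_insert_self _ _))
    refine ⟨W', hW', fun i hi => ?_⟩
    rcases Finset.mem_insert.mp hi with rfl | hi
    · exact h3
    · exact h2.trans (h1 i hi)

theorem exists_level_le_finite (L : Lvl G) {ι : Type*} [Finite ι] (N : ι → Subgroup G)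
    (h : ∀ i, N i ∈ L.levels) : ∃ W ∈ L.levels, ∀ i, W ≤ N i := by
  have := Fintype.ofFinite ι
  obtain ⟨W, hW, h1⟩ := L.exists_level_le_finset Finset.univ N fun i _ => h i
  exact ⟨W, hW, fun i => h1 i (Finset.mem_univ i)⟩

/-- Pull back of a level structure along a group homomorphism. -/
def comap (L : Lvl G) (f : H →* G) : Lvl H where
  levels := {V | ∃ U ∈ L.levels, V = U.comap f}
  nonempty := by
    obtain ⟨U, hU⟩ := L.nonempty
    exact ⟨_, U, hU, rfl⟩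
  directed := by
    rintro _ ⟨U, hU, rfl⟩ _ ⟨V, hV, rfl⟩
    obtain ⟨W, hW, h1, h2⟩ := L.directed U hU V hV
    exact ⟨_, ⟨W, hW, rfl⟩, Subgroup.comap_mono h1, Subgroup.comap_mono h2⟩
  normal := by
    rintro _ ⟨U, hU, rfl⟩
    exact (L.normal U hU).comap f
  finiteIndex := by
    rintro _ ⟨U, hU, rfl⟩
    have := L.finiteIndex U hU
    have := L.normal U hU
    have h := Subgroup.finiteIndex_ker ((QuotientGroup.mk' U).comp f)
    rwa [← MonoidHom.comap_ker, QuotientGroup.ker_mk'] at h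

theorem mem_comap_levels {L : Lvl G} {f : H →* G} {V : Subgroup H} :
    V ∈ (L.comap f).levels ↔ ∃ U ∈ L.levels, V = U.comap f := Iff.rfl

theorem comap_mem_levels {L : Lvl G} (f : H →* G) {U : Subgroup G} (hU : U ∈ L.levels) :
    U.comap f ∈ (L.comap f).levels := ⟨U, hU, rfl⟩

/-- Restriction of a level structure to a subgroup. -/
abbrev restrict (L : Lvl G) (U : Subgroup G) : Lvl U := L.comap U.subtype

/-- `f : H →* G` is continuous for the given level structures. -/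
def Cont (LH : Lvl H) (LG : Lvl G) (f : H →* G) : Prop :=
  ∀ N ∈ LG.levels, ∃ N' ∈ LH.levels, N' ≤ N.comap f

theorem cont_id (L : Lvl G) : Cont L L (MonoidHom.id G) := fun _ hN => ⟨_, hN, le_rfl⟩

theorem cont_comap (L : Lvl G) (f : H →* G) : Cont (L.comap f) L f :=
  fun _ hN => ⟨_, comap_mem_levels f hN, le_rfl⟩

theorem Cont.comp {LG : Lvl G} {LH : Lvl H} {LK : Lvl K} {f : H →* G} {f' : K →* H}
    (hf : Cont LH LG f) (hf' : Cont LK LH f') : Cont LK LG (f.comp f') := by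
  intro N hN
  obtain ⟨N', hN', h⟩ := hf N hN
  obtain ⟨N'', hN'', h'⟩ := hf' N' hN'
  exact ⟨N'', hN'', h'.trans (Subgroup.comap_mono h)⟩

end Lvl

section Cochains

variable {k : Type*} [CommRing k] {G H : Type*} [Group G] [Group H]

/-- Level-constant functions of one variable. -/
def IsLC₁ (L : Lvl G) {X : Type*} (f : G → X) : Prop :=
  ∃ N ∈ L.levels, ∀ g, ∀ s ∈ N, f (g * s) = f g

/-- Level-constant functions of two variables. -/
def IsLC₂ (L : Lvl G) {X : Type*} (f : G × G → X) : Prop :=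
  ∃ N ∈ L.levels, ∀ g g', ∀ s ∈ N, ∀ s' ∈ N, f (g * s, g' * s') = f (g, g')

variable {L : Lvl G}

theorem IsLC₁.comp {X Y : Type*} {f : G → X} (hf : IsLC₁ L f) (φ : X → Y) : IsLC₁ L (φ ∘ f) := by
  obtain ⟨N, hN, h⟩ := hf
  exact ⟨N, hN, fun g s hs => congrArg φ (h g s hs)⟩

theorem IsLC₂.comp {X Y : Type*} {f : G × G → X} (hf : IsLC₂ L f) (φ : X → Y) :
    IsLC₂ L (φ ∘ f) := by
  obtain ⟨N, hN, h⟩ := hf
  exact ⟨N, hN, fun g g' s hs s' hs' => congrArg φ (h g g' s hs s' hs')⟩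

theorem IsLC₁.prod {X Y : Type*} {f : G → X} {f' : G → Y} (hf : IsLC₁ L f) (hf' : IsLC₁ L f') :
    IsLC₁ L (fun g => (f g, f' g)) := by
  obtain ⟨N, hN, h⟩ := hf
  obtain ⟨N', hN', h'⟩ := hf'
  obtain ⟨W, hW, h1, h2⟩ := L.directed N hN N' hN'
  exact ⟨W, hW, fun g s hs => Prod.ext (h g s (h1 hs)) (h' g s (h2 hs))⟩

theorem IsLC₂.prod {X Y : Type*} {f : G × G → X} {f' : G × G → Y} (hf : IsLC₂ L f)
    (hf' : IsLC₂ L f') : IsLC₂ L (fun g => (f g, f' g)) := by
  obtain ⟨N, hN, h⟩ := hf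
  obtain ⟨N', hN', h'⟩ := hf'
  obtain ⟨W, hW, h1, h2⟩ := L.directed N hN N' hN'
  exact ⟨W, hW, fun g g' s hs s' hs' =>
    Prod.ext (h g g' s (h1 hs) s' (h1 hs')) (h' g g' s (h2 hs) s' (h2 hs'))⟩

theorem isLC₁_const {X : Type*} (x : X) : IsLC₁ L (fun _ => x) := by
  obtain ⟨N, hN⟩ := L.nonempty
  exact ⟨N, hN, fun _ _ _ => rfl⟩

theorem isLC₂_const {X : Type*} (x : X) : IsLC₂ L (fun _ => x) := by
  obtain ⟨N, hN⟩ := L.nonempty
  exact ⟨N, hN, fun _ _ _ _ _ _ => rfl⟩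

theorem IsLC₁.add {X : Type*} [Add X] {f f' : G → X} (hf : IsLC₁ L f) (hf' : IsLC₁ L f') :
    IsLC₁ L (f + f') := (hf.prod hf').comp fun p => p.1 + p.2

theorem IsLC₂.add {X : Type*} [Add X] {f f' : G × G → X} (hf : IsLC₂ L f) (hf' : IsLC₂ L f') :
    IsLC₂ L (f + f') := (hf.prod hf').comp fun p => p.1 + p.2

theorem IsLC₁.sub {X : Type*} [Sub X] {f f' : G → X} (hf : IsLC₁ L f) (hf' : IsLC₁ L f') :
    IsLC₁ L (f - f') := (hf.prod hf').comp fun p => p.1 - p.2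

theorem IsLC₂.sub {X : Type*} [Sub X] {f f' : G × G → X} (hf : IsLC₂ L f) (hf' : IsLC₂ L f') :
    IsLC₂ L (f - f') := (hf.prod hf').comp fun p => p.1 - p.2

theorem IsLC₁.fst {X : Type*} {f : G → X} (hf : IsLC₁ L f) :
    IsLC₂ L (fun p : G × G => f p.1) := by
  obtain ⟨N, hN, h⟩ := hf
  exact ⟨N, hN, fun g g' s hs s' hs' => h g s hs⟩

theorem IsLC₁.snd {X : Type*} {f : G → X} (hf : IsLC₁ L f) :
    IsLC₂ L (fun p : G × G => f p.2) := by
  obtain ⟨N, hN, h⟩ := hf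
  exact ⟨N, hN, fun g g' s hs s' hs' => h g' s' hs'⟩

theorem IsLC₁.mul {X : Type*} {f : G → X} (hf : IsLC₁ L f) :
    IsLC₂ L (fun p : G × G => f (p.1 * p.2)) := by
  obtain ⟨N, hN, h⟩ := hf
  have := L.normal N hN
  refine ⟨N, hN, fun g g' s hs s' hs' => ?_⟩
  show f (g * s * (g' * s')) = f (g * g')
  have h1 : g * s * (g' * s') = g * g' * ((g'⁻¹ * s * g') * s') := by group
  rw [h1]
  apply h
  refine N.mul_mem ?_ hs'
  have := this.conj_mem s hs g'⁻¹
  simpa using this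

theorem IsLC₁.finite_range {X : Type*} {f : G → X} (hf : IsLC₁ L f) : (Set.range f).Finite := by
  obtain ⟨N, hN, h⟩ := hf
  have := L.finiteIndex N hN
  have hfin : Finite (G ⧸ N) := inferInstance
  have h2 : Set.range f ⊆ Set.range (fun x : G ⧸ N => f x.out) := by
    rintro _ ⟨g, rfl⟩
    refine ⟨(g : G ⧸ N), ?_⟩
    obtain ⟨s, hs⟩ := QuotientGroup.mk_out_eq_mul N g
    simp only [hs]
    exact h g s s.2
  exact (Set.finite_range _).subset h2

theorem IsLC₂.finite_range {X : Type*} {f : G × G → X} (hf : IsLC₂ L f) :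
    (Set.range f).Finite := by
  obtain ⟨N, hN, h⟩ := hf
  have := L.finiteIndex N hN
  have hfin : Finite (G ⧸ N) := inferInstance
  have h2 : Set.range f ⊆ Set.range (fun x : (G ⧸ N) × (G ⧸ N) => f (x.1.out, x.2.out)) := by
    rintro _ ⟨⟨g, g'⟩, rfl⟩
    refine ⟨((g : G ⧸ N), (g' : G ⧸ N)), ?_⟩
    obtain ⟨s, hs⟩ := QuotientGroup.mk_out_eq_mul N g
    obtain ⟨s', hs'⟩ := QuotientGroup.mk_out_eq_mul N g'
    simp only [hs, hs']
    exact h g g' s s.2 s' s'.2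
  exact (Set.finite_range _).subset h2

theorem IsLC₁.pullback {LH : Lvl H} {f : H →* G} (hf : LH.Cont L f) {X : Type*} {x : G → X}
    (hx : IsLC₁ L x) : IsLC₁ LH (x ∘ f) := by
  obtain ⟨N, hN, h⟩ := hx
  obtain ⟨N', hN', h'⟩ := hf N hN
  refine ⟨N', hN', fun g s hs => ?_⟩
  simp only [Function.comp_apply, map_mul]
  exact h _ _ (h' hs)

theorem IsLC₂.pullback {LH : Lvl H} {f : H →* G} (hf : LH.Cont L f) {X : Type*} {x : G × G → X}
    (hx : IsLC₂ L x) : IsLC₂ LH (x ∘ Prod.map f f) := by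
  obtain ⟨N, hN, h⟩ := hx
  obtain ⟨N', hN', h'⟩ := hf N hN
  refine ⟨N', hN', fun g g' s hs s' hs' => ?_⟩
  simp only [Function.comp_apply, Prod.map_apply, map_mul]
  exact h _ _ _ (h' hs) _ (h' hs')

end Cochains

section Smooth

variable {k : Type*} [CommRing k] {G H : Type*} [Group G] [Group H]
variable {V : Type*} [AddCommGroup V] [Module k V]

/-- A representation is smooth if every vector is fixed by some level. -/
def Smooth (L : Lvl G) (ρ : Representation k G V) : Prop :=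
  ∀ v : V, ∃ N ∈ L.levels, ∀ s ∈ N, ρ s v = v

variable {L : Lvl G} {ρ : Representation k G V}

theorem Smooth.comp (h : Smooth L ρ) {LH : Lvl H} {f : H →* G} (hf : LH.Cont L f) :
    Smooth LH (ρ.comp f) := by
  intro v
  obtain ⟨N, hN, h1⟩ := h v
  obtain ⟨N', hN', h'⟩ := hf N hN
  exact ⟨N', hN', fun s hs => h1 _ (h' hs)⟩

theorem Smooth.exists_level_of_finite (h : Smooth L ρ) {s : Set V} (hs : s.Finite) :
    ∃ N ∈ L.levels, ∀ g ∈ N, ∀ v ∈ s, ρ g v = v := by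
  have : Finite s := hs
  choose N hN h1 using h
  obtain ⟨W, hW, h2⟩ := L.exists_level_le_finite (fun v : s => N v.1) fun v => hN v.1
  exact ⟨W, hW, fun g hg v hv => h1 v g (h2 ⟨v, hv⟩ hg)⟩

theorem Smooth.isLC₁_apply (h : Smooth L ρ) (v : V) : IsLC₁ L (fun g => ρ g v) := by
  obtain ⟨N, hN, h1⟩ := h v
  refine ⟨N, hN, fun g s hs => ?_⟩
  simp only [map_mul, Module.End.mul_apply, h1 s hs]

theorem Smooth.isLC₂_apply (h : Smooth L ρ) {f : G → V} (hf : IsLC₁ L f) :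
    IsLC₂ L (fun p : G × G => ρ p.1 (f p.2)) := by
  obtain ⟨N, hN, h1⟩ := h.exists_level_of_finite hf.finite_range
  obtain ⟨N', hN', h2⟩ := hf
  obtain ⟨W, hW, h3, h4⟩ := L.directed N hN N' hN'
  refine ⟨W, hW, fun g g' s hs s' hs' => ?_⟩
  simp only [map_mul, Module.End.mul_apply, h2 g' s' (h4 hs')]
  rw [h1 s (h3 hs) _ ⟨g', rfl⟩]

end Smooth

section Complex

variable {k : Type*} [CommRing k] {G H : Type*} [Group G] [Group H]
variable {V : Type*} [AddCommGroup V] [Module k V]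

/-- Level-constant 1-cochains. -/
def C1 (k : Type*) [CommRing k] (L : Lvl G) (V : Type*) [AddCommGroup V] [Module k V] :
    Submodule k (G → V) where
  carrier := {f | IsLC₁ L f}
  add_mem' hf hf' := hf.add hf'
  zero_mem' := isLC₁_const 0
  smul_mem' c _ hf := hf.comp (c • ·)

/-- Level-constant 2-cochains. -/
def C2 (k : Type*) [CommRing k] (L : Lvl G) (V : Type*) [AddCommGroup V] [Module k V] :
    Submodule k (G × G → V) where
  carrier := {f | IsLC₂ L f}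
  add_mem' hf hf' := hf.add hf'
  zero_mem' := isLC₂_const 0
  smul_mem' c _ hf := hf.comp (c • ·)

theorem mem_C1 {L : Lvl G} {f : G → V} : f ∈ C1 k L V ↔ IsLC₁ L f := Iff.rfl

theorem mem_C2 {L : Lvl G} {f : G × G → V} : f ∈ C2 k L V ↔ IsLC₂ L f := Iff.rfl

variable (ρ : Representation k G V)

/-- the differential `v ↦ (g ↦ g v - v)` -/
def d0 : V →ₗ[k] (G → V) where
  toFun v g := ρ g v - v
  map_add' v w := by ext g; simp only [map_add, Pi.add_apply]; abel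
  map_smul' c v := by ext g; simp [smul_sub]

/-- the differential `f ↦ ((g, h) ↦ g f(h) - f(gh) + f(g))` -/
def d1 : (G → V) →ₗ[k] (G × G → V) where
  toFun f p := ρ p.1 (f p.2) - f (p.1 * p.2) + f p.1
  map_add' v w := by ext g; simp only [map_add, Pi.add_apply]; abel
  map_smul' c v := by ext g; simp [smul_sub, smul_add]

/-- the differential in degree 2 -/
def d2 : (G × G → V) →ₗ[k] (G × G × G → V) where
  toFun f p := ρ p.1 (f (p.2.1, p.2.2)) - f (p.1 * p.2.1, p.2.2) + f (p.1, p.2.1 * p.2.2)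
    - f (p.1, p.2.1)
  map_add' v w := by ext g; simp only [map_add, Pi.add_apply]; abel
  map_smul' c v := by ext g; simp [smul_sub, smul_add]

@[simp] theorem d0_apply (v : V) (g : G) : d0 ρ v g = ρ g v - v := rfl

@[simp] theorem d1_apply (f : G → V) (p : G × G) :
    d1 ρ f p = ρ p.1 (f p.2) - f (p.1 * p.2) + f p.1 := rfl

@[simp] theorem d2_apply (f : G × G → V) (p : G × G × G) :
    d2 ρ f p = ρ p.1 (f (p.2.1, p.2.2)) - f (p.1 * p.2.1, p.2.2) + f (p.1, p.2.1 * p.2.2)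
    - f (p.1, p.2.1) := rfl

theorem d1_d0 (v : V) : d1 ρ (d0 ρ v) = 0 := by
  ext ⟨g, h⟩
  simp

theorem d2_d1 (f : G → V) : d2 ρ (d1 ρ f) = 0 := by
  ext ⟨g, h, j⟩
  simp only [d2_apply, d1_apply, map_add, map_sub, map_mul, Module.End.mul_apply, mul_assoc,
    Pi.zero_apply]
  abel

variable (L : Lvl G)

/-- `H⁰`: the invariants. -/
def H0 : Submodule k V := LinearMap.ker (d0 ρ)

theorem mem_H0 {v : V} : v ∈ H0 ρ ↔ ∀ g, ρ g v = v := by
  rw [H0, LinearMap.mem_ker, funext_iff]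
  simp [sub_eq_zero]

/-- Level-constant 1-cocycles. -/
def Z1 : Submodule k (G → V) := LinearMap.ker (d1 ρ) ⊓ C1 k L V

/-- 1-coboundaries. -/
def B1 : Submodule k (G → V) := LinearMap.range (d0 ρ)

/-- Level-constant 2-cocycles. -/
def Z2 : Submodule k (G × G → V) := LinearMap.ker (d2 ρ) ⊓ C2 k L V

/-- Coboundaries of level-constant 1-cochains. -/
def B2 : Submodule k (G × G → V) := (C1 k L V).map (d1 ρ)

theorem mem_Z1 {f : G → V} :
    f ∈ Z1 ρ L ↔ (∀ g h, f (g * h) = ρ g (f h) + f g) ∧ IsLC₁ L f := by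
  rw [Z1, Submodule.mem_inf, LinearMap.mem_ker, funext_iff, mem_C1]
  refine and_congr_left fun _ => ⟨fun h g h' => ?_, fun h p => ?_⟩
  · have := h (g, h')
    simp only [d1_apply, Pi.zero_apply] at this
    rw [← sub_eq_zero, ← neg_eq_zero, ← this]
    abel
  · simp only [d1_apply, Pi.zero_apply, h p.1 p.2]
    abel

theorem mem_B1 {f : G → V} : f ∈ B1 ρ ↔ ∃ v, ∀ g, f g = ρ g v - v := by
  rw [B1, LinearMap.mem_range]
  refine exists_congr fun v => ?_
  rw [funext_iff]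
  exact forall_congr' fun g => eq_comm

theorem mem_Z2 {f : G × G → V} :
    f ∈ Z2 ρ L ↔ (∀ g h j, f (g * h, j) + f (g, h) = ρ g (f (h, j)) + f (g, h * j)) ∧
      IsLC₂ L f := by
  rw [Z2, Submodule.mem_inf, LinearMap.mem_ker, funext_iff, mem_C2]
  refine and_congr_left fun _ => ⟨fun h g h' j => ?_, fun h p => ?_⟩
  · have := h (g, h', j)
    simp only [d2_apply, Pi.zero_apply] at this
    rw [← sub_eq_zero, ← neg_eq_zero, ← this]
    abel
  · have := h p.1 p.2.1 p.2.2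
    simp only [d2_apply, Pi.zero_apply]
    rw [← sub_eq_zero, ← neg_eq_zero] at this
    rw [← this]
    abel

theorem mem_B2 {f : G × G → V} : f ∈ B2 ρ L ↔ ∃ x : G → V, IsLC₁ L x ∧ d1 ρ x = f := by
  rw [B2, Submodule.mem_map]
  rfl

variable {ρ L}

theorem Z1.map_one {f : G → V} (hf : f ∈ Z1 ρ L) : f 1 = 0 := by
  have := ((mem_Z1 ρ L).mp hf).1 1 1
  simpa using this

theorem d0_mem_Z1 (hρ : Smooth L ρ) (v : V) : d0 ρ v ∈ Z1 ρ L := by
  refine ⟨?_, ?_⟩
  · exact LinearMap.mem_ker.mpr (d1_d0 ρ v)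
  · exact (hρ.isLC₁_apply v).sub (isLC₁_const v)

theorem d1_mem_C2 (hρ : Smooth L ρ) {f : G → V} (hf : IsLC₁ L f) : IsLC₂ L (d1 ρ f) :=
  ((hρ.isLC₂_apply hf).sub hf.mul).add hf.fst

theorem d1_mem_Z2 (hρ : Smooth L ρ) {f : G → V} (hf : IsLC₁ L f) : d1 ρ f ∈ Z2 ρ L :=
  ⟨LinearMap.mem_ker.mpr (d2_d1 ρ f), d1_mem_C2 hρ hf⟩

theorem B1_le_Z1 (hρ : Smooth L ρ) : B1 ρ ≤ Z1 ρ L := by
  rintro _ ⟨v, rfl⟩
  exact d0_mem_Z1 hρ v

theorem B2_le_Z2 (hρ : Smooth L ρ) : B2 ρ L ≤ Z2 ρ L := by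
  rintro _ ⟨f, hf, rfl⟩
  exact d1_mem_Z2 hρ hf

variable (ρ L)

/-- First cohomology of level-constant cochains. -/
abbrev H1 : Type _ := ↥(Z1 ρ L) ⧸ (B1 ρ).comap (Z1 ρ L).subtype

/-- Second cohomology of level-constant cochains. -/
abbrev H2 : Type _ := ↥(Z2 ρ L) ⧸ (B2 ρ L).comap (Z2 ρ L).subtype

/-- The class of a 1-cocycle. -/
def H1.mk : ↥(Z1 ρ L) →ₗ[k] H1 ρ L := Submodule.mkQ _

/-- The class of a 2-cocycle. -/
def H2.mk : ↥(Z2 ρ L) →ₗ[k] H2 ρ L := Submodule.mkQ _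

variable {ρ L}

theorem H1.mk_surjective : Function.Surjective (H1.mk ρ L) := Submodule.mkQ_surjective _

theorem H2.mk_surjective : Function.Surjective (H2.mk ρ L) := Submodule.mkQ_surjective _

theorem H1.mk_eq_zero_iff {c : Z1 ρ L} : H1.mk ρ L c = 0 ↔ ∃ v, ∀ g, c.1 g = ρ g v - v := by
  rw [H1.mk, Submodule.mkQ_apply, Submodule.Quotient.mk_eq_zero, Submodule.mem_comap]
  exact mem_B1 ρ

theorem H2.mk_eq_zero_iff {c : Z2 ρ L} :
    H2.mk ρ L c = 0 ↔ ∃ x : G → V, IsLC₁ L x ∧ d1 ρ x = c.1 := by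
  rw [H2.mk, Submodule.mkQ_apply, Submodule.Quotient.mk_eq_zero, Submodule.mem_comap]
  exact mem_B2 ρ L

theorem H1.ker_mk : LinearMap.ker (H1.mk ρ L) = (B1 ρ).comap (Z1 ρ L).subtype :=
  Submodule.ker_mkQ _

theorem H2.ker_mk : LinearMap.ker (H2.mk ρ L) = (B2 ρ L).comap (Z2 ρ L).subtype :=
  Submodule.ker_mkQ _

end Complex

end Fermat.Agent.CFT.LC
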