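import Fermat.Agent.CFT.LC.Tools
import Fermat.Agent.QbarInst
import Fermat.Agent.TWP.Place
import Fermat.Prelude.Def_GroupCohomology_ContinuousUnramified

/-!
# Level structures on Galois groups
-/

set_option autoImplicit false

open Pointwise

namespace Fermat.Agent.CFT.LC

section Krull

variable (K Ω : Type*) [Field K] [Field Ω] [Algebra K Ω]

theorem normal_fixingSubgroup {K Ω : Type*} [Field K] [Field Ω] [Algebra K Ω]
    (F : IntermediateField K Ω) [Normal K F] :
    F.fixingSubgroup.Normal := by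
  rw [← IntermediateField.restrictNormalHom_ker]
  exact MonoidHom.normal_ker _

theorem finiteIndex_fixingSubgroup {K Ω : Type*} [Field K] [Field Ω] [Algebra K Ω]
    (F : IntermediateField K Ω) [Normal K F] [FiniteDimensional K F] :
    F.fixingSubgroup.FiniteIndex := by
  rw [← IntermediateField.restrictNormalHom_ker]
  exact Subgroup.finiteIndex_ker _

/-- finite intermediate fields (for the structure as intermediate field) -/
def IsFin {K Ω : Type*} [Field K] [Field Ω] [Algebra K Ω] (F : IntermediateField K Ω) : Prop :=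
  FiniteDimensional K F

/-- normal intermediate fields (for the structure as intermediate field) -/
def IsNorm {K Ω : Type*} [Field K] [Field Ω] [Algebra K Ω] (F : IntermediateField K Ω) : Prop :=
  Normal K F

section

variable {K Ω : Type*} [Field K] [Field Ω] [Algebra K Ω] {F E : IntermediateField K Ω}

theorem isNorm_bot : IsNorm (⊥ : IntermediateField K Ω) :=
  inferInstanceAs (Normal K (⊥ : IntermediateField K Ω))

theorem isFin_bot : IsFin (⊥ : IntermediateField K Ω) :=
  inferInstanceAs (FiniteDimensional K (⊥ : IntermediateField K Ω))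

theorem IsNorm.sup (hF : IsNorm F) (hE : IsNorm E) : IsNorm (F ⊔ E) := by
  have : Normal K F := hF
  have : Normal K E := hE
  exact inferInstanceAs (Normal K ↥(F ⊔ E))

theorem IsFin.sup (hF : IsFin F) (hE : IsFin E) : IsFin (F ⊔ E) := by
  have : FiniteDimensional K F := hF
  have : FiniteDimensional K E := hE
  exact inferInstanceAs (FiniteDimensional K ↥(F ⊔ E))

theorem IsNorm.normal_fixingSubgroup (hF : IsNorm F) : F.fixingSubgroup.Normal := by
  have : Normal K F := hF
  exact LC.normal_fixingSubgroup F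

theorem IsNorm.finiteIndex (hF : IsNorm F) (hF' : IsFin F) : F.fixingSubgroup.FiniteIndex := by
  have : Normal K F := hF
  have : FiniteDimensional K F := hF'
  exact finiteIndex_fixingSubgroup F

/-- normal closure inside `Ω` -/
noncomputable def ncl (F : IntermediateField K Ω) : IntermediateField K Ω :=
  IntermediateField.normalClosure K F Ω

theorem isNorm_ncl [Normal K Ω] (F : IntermediateField K Ω) : IsNorm (ncl F) :=
  inferInstanceAs (Normal K (IntermediateField.normalClosure K F Ω))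

theorem IsFin.ncl [Normal K Ω] (hF : IsFin F) : IsFin (ncl F) := by
  have : FiniteDimensional K F := hF
  exact inferInstanceAs (FiniteDimensional K (IntermediateField.normalClosure K F Ω))

theorem le_ncl (F : IntermediateField K Ω) : F ≤ ncl F := F.le_normalClosure

theorem ncl_eq_iSup [Normal K Ω] (F : IntermediateField K Ω) :
    ncl F = ⨆ f : Ω ≃ₐ[K] Ω, F.map (f : Ω →ₐ[K] Ω) :=
  F.normalClosure_def''

end

/-- the Krull level structure -/
def krull : Lvl (Ω ≃ₐ[K] Ω) where
  levels := {N | ∃ F : IntermediateField K Ω, IsFin F ∧ IsNorm F ∧ N = F.fixingSubgroup}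
  nonempty := ⟨_, ⊥, isFin_bot, isNorm_bot, rfl⟩
  directed := by
    rintro _ ⟨F, hF, hF', rfl⟩ _ ⟨E, hE, hE', rfl⟩
    refine ⟨_, ⟨F ⊔ E, hF.sup hE, hF'.sup hE', rfl⟩,
      IntermediateField.fixingSubgroup_antitone le_sup_left,
      IntermediateField.fixingSubgroup_antitone le_sup_right⟩
  normal := by
    rintro _ ⟨F, hF, hF', rfl⟩
    exact hF'.normal_fixingSubgroup
  finiteIndex := by
    rintro _ ⟨F, hF, hF', rfl⟩
    exact hF'.finiteIndex hF

variable {K Ω}

theorem exists_normal_ge [Normal K Ω] {F : IntermediateField K Ω} (hF : IsFin F) :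
    ∃ F' : IntermediateField K Ω, F ≤ F' ∧ IsFin F' ∧ IsNorm F' :=
  ⟨ncl F, le_ncl F, hF.ncl, isNorm_ncl F⟩

theorem isOpen_krull_iff [Normal K Ω] {U : Subgroup (Ω ≃ₐ[K] Ω)} :
    (krull K Ω).IsOpen U ↔ ∃ F : IntermediateField K Ω, IsFin F ∧ F.fixingSubgroup ≤ U := by
  constructor
  · rintro ⟨_, ⟨F, hF, hF', rfl⟩, h⟩
    exact ⟨F, hF, h⟩
  · rintro ⟨F, hF, h⟩
    obtain ⟨F', h1, h2, h3⟩ := exists_normal_ge hF
    exact ⟨_, ⟨F', h2, h3, rfl⟩, (IntermediateField.fixingSubgroup_antitone h1).trans h⟩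

end Krull

section Unram

local notation "ℚbar" => AlgebraicClosure ℚ
local notation "ΓQ" => (AlgebraicClosure ℚ ≃ₐ[ℚ] AlgebraicClosure ℚ)

theorem isUnramifiedOutside_ncl {S : Finset Nat.Primes} {F : IntermediateField ℚ ℚbar}
    (hF : F.IsUnramifiedOutside S) :
    (ncl F).IsUnramifiedOutside S := by
  refine ⟨IsFin.ncl (F := F) hF.1, fun q hq A hA g hg => ?_⟩
  have key : ncl F ≤
      IntermediateField.fixedField (A.inertiaSubgroupIn ℚ) := by
    rw [ncl_eq_iSup]
    refine iSup_le fun f => ?_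
    rintro _ ⟨x, hx, rfl⟩
    rw [IntermediateField.mem_fixedField_iff]
    intro i hi
    have h1 := Fermat.Agent.TWP.Place.mem_inertia_conj f⁻¹ hi
    have hA' : (f⁻¹ • A).LiesOverPrime (q : ℕ) := by
      have h3 := (Fermat.Agent.TWP.Place.apply_mem_nonunits_smul A f⁻¹ (x := ((q : ℕ) : ℚbar))).mpr hA
      rwa [map_natCast] at h3
    have h2 := hF.2 q hq _ hA' h1
    rw [IntermediateField.mem_fixingSubgroup_iff] at h2
    have h3 := h2 x hx
    rw [inv_inv, AlgEquiv.mul_apply, AlgEquiv.mul_apply] at h3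
    have h4 := congrArg f h3
    have h5 : ∀ y, f (f⁻¹ y) = y := fun y => f.apply_symm_apply y
    rw [h5] at h4
    exact h4
  exact (IntermediateField.le_iff_le _ _).mp key hg

/-- the level structure of finite extensions unramified outside `S` -/
def unram (S : Finset Nat.Primes) : Lvl ΓQ where
  levels := {N | ∃ F : IntermediateField ℚ ℚbar, F.IsUnramifiedOutside S ∧ IsNorm F ∧
    N = F.fixingSubgroup}
  nonempty := ⟨_, ⊥, IntermediateField.isUnramifiedOutside_bot S, isNorm_bot, rfl⟩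
  directed := by
    rintro _ ⟨F, hF, hF', rfl⟩ _ ⟨E, hE, hE', rfl⟩
    refine ⟨_, ⟨F ⊔ E, hF.sup hE, hF'.sup hE', rfl⟩,
      IntermediateField.fixingSubgroup_antitone le_sup_left,
      IntermediateField.fixingSubgroup_antitone le_sup_right⟩
  normal := by
    rintro _ ⟨F, hF, hF', rfl⟩
    exact hF'.normal_fixingSubgroup
  finiteIndex := by
    rintro _ ⟨F, hF, hF', rfl⟩
    exact hF'.finiteIndex hF.1

theorem isOpen_unram_iff {S : Finset Nat.Primes} {U : Subgroup ΓQ} :
    (unram S).IsOpen U ↔ ∃ F : IntermediateField ℚ ℚbar, F.IsUnramifiedOutside S ∧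
      F.fixingSubgroup ≤ U := by
  constructor
  · rintro ⟨_, ⟨F, hF, hF', rfl⟩, h⟩
    exact ⟨F, hF, h⟩
  · rintro ⟨F, hF, h⟩
    exact ⟨_, ⟨_, isUnramifiedOutside_ncl hF, isNorm_ncl F, rfl⟩,
      (IntermediateField.fixingSubgroup_antitone (le_ncl F)).trans h⟩

theorem cont_krull_unram (S : Finset Nat.Primes) :
    (krull ℚ ℚbar).Cont (unram S) (MonoidHom.id ΓQ) := by
  rintro _ ⟨F, hF, hF', rfl⟩
  exact ⟨_, ⟨F, hF.1, hF', rfl⟩, le_rfl⟩

theorem isLevelConstantS₁_iff {S : Finset Nat.Primes} {X : Type*} {f : ΓQ → X} :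
    groupCohomology.IsLevelConstantS₁ S f ↔ IsLC₁ (unram S) f := by
  constructor
  · rintro ⟨F, hF, h⟩
    refine ⟨_, ⟨_, isUnramifiedOutside_ncl hF, isNorm_ncl F, rfl⟩, fun g s hs => ?_⟩
    exact h g s (IntermediateField.fixingSubgroup_antitone (le_ncl F) hs)
  · rintro ⟨_, ⟨F, hF, hF', rfl⟩, h⟩
    exact ⟨F, hF, h⟩

theorem isLevelConstantS₂_iff {S : Finset Nat.Primes} {X : Type*} {f : ΓQ × ΓQ → X} :
    groupCohomology.IsLevelConstantS₂ S f ↔ IsLC₂ (unram S) f := by
  constructor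
  · rintro ⟨F, hF, h⟩
    refine ⟨_, ⟨_, isUnramifiedOutside_ncl hF, isNorm_ncl F, rfl⟩,
      fun g g' s hs s' hs' => ?_⟩
    exact h g g' s s' (IntermediateField.fixingSubgroup_antitone (le_ncl F) hs)
      (IntermediateField.fixingSubgroup_antitone (le_ncl F) hs')
  · rintro ⟨_, ⟨F, hF, hF', rfl⟩, h⟩
    exact ⟨F, hF, fun g g' s s' hs hs' => h g g' s hs s' hs'⟩

/-- the level structure of the frozen statements on a group over `Γ_ℚ` -/
noncomputable abbrev lvlOver {G : Type*} [Group G] (r : G →* ΓQ) : Lvl G := (krull ℚ ℚbar).comap r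

theorem isLevelConstant₁_iff {G : Type} [Group G] {r : G →* ΓQ} {X : Type*} {f : G → X} :
    groupCohomology.IsLevelConstant₁ r f ↔ IsLC₁ (lvlOver r) f := by
  constructor
  · rintro ⟨F, hF, h⟩
    obtain ⟨F', h1, h2, h3⟩ := exists_normal_ge (F := F) hF
    refine ⟨_, ⟨_, ⟨F', h2, h3, rfl⟩, rfl⟩, fun g s hs => ?_⟩
    exact h g s (IntermediateField.fixingSubgroup_antitone h1 hs)
  · rintro ⟨_, ⟨_, ⟨F, hF, hF', rfl⟩, rfl⟩, h⟩
    exact ⟨F, hF, h⟩

theorem isLevelConstant₂_iff {G : Type} [Group G] {r : G →* ΓQ} {X : Type*} {f : G × G → X} :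
    groupCohomology.IsLevelConstant₂ r f ↔ IsLC₂ (lvlOver r) f := by
  constructor
  · rintro ⟨F, hF, h⟩
    obtain ⟨F', h1, h2, h3⟩ := exists_normal_ge (F := F) hF
    refine ⟨_, ⟨_, ⟨F', h2, h3, rfl⟩, rfl⟩, fun g g' s hs s' hs' => ?_⟩
    exact h g g' s s' (IntermediateField.fixingSubgroup_antitone h1 hs)
      (IntermediateField.fixingSubgroup_antitone h1 hs')
  · rintro ⟨_, ⟨_, ⟨F, hF, hF', rfl⟩, rfl⟩, h⟩
    exact ⟨F, hF, fun g g' s s' hs hs' => h g g' s hs s' hs'⟩

/-- any homomorphism over `Γ_ℚ` is continuous for the `S`-levels -/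
theorem cont_lvlOver_unram (S : Finset Nat.Primes) {G : Type*} [Group G] (r : G →* ΓQ) :
    (lvlOver r).Cont (unram S) r := by
  rintro _ ⟨F, hF, hF', rfl⟩
  exact ⟨_, ⟨_, ⟨F, hF.1, hF', rfl⟩, rfl⟩, le_rfl⟩

end Unram

end Fermat.Agent.CFT.LC
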