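import Fermat.Agent.CFT.LC.Mackey

/-!
# Tools: change of level structure, products, restriction to subgroups of invertible index,
dimension formulas
-/

set_option autoImplicit false

namespace Fermat.Agent.CFT.LC

open Module

variable {k : Type*} [CommRing k] {G H : Type*} [Group G] [Group H]
variable {V W : Type*} [AddCommGroup V] [Module k V] [AddCommGroup W] [Module k W]

section ChangeLevels

variable (ρ : Representation k G V) {L L' : Lvl G}

/-- change of level structure (`L'` finer than `L`) -/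
def Mor.chg (h : L'.Cont L (MonoidHom.id G)) : Mor ρ L ρ L' where
  f := MonoidHom.id G
  φ := LinearMap.id
  cont := h
  comm _ _ := rfl

@[simp] theorem Mor.chg_f (h : L'.Cont L (MonoidHom.id G)) :
    (Mor.chg ρ h).f = MonoidHom.id G := rfl

@[simp] theorem Mor.chg_φ (h : L'.Cont L (MonoidHom.id G)) :
    (Mor.chg ρ h).φ = LinearMap.id := rfl

/-- finer level structures: the criterion in terms of open subgroups -/
theorem Lvl.cont_id_of_isOpen (h : ∀ U, L.IsOpen U → L'.IsOpen U) :
    L'.Cont L (MonoidHom.id G) := by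
  intro N hN
  obtain ⟨N', hN', h'⟩ := h N (Lvl.IsOpen.of_mem hN)
  exact ⟨N', hN', h'⟩

/-- `H¹` only depends on the open subgroups -/
def Mor.chgH1Equiv (h : L'.Cont L (MonoidHom.id G)) (h' : L.Cont L' (MonoidHom.id G)) :
    LC.H1 ρ L ≃ₗ[k] LC.H1 ρ L' :=
  Mor.H1Equiv (Mor.chg ρ h) (Mor.chg ρ h')
    (fun x => by
      rw [← Mor.H1_comp]
      exact Mor.H1_id x)
    (fun x => by
      rw [← Mor.H1_comp]
      exact Mor.H1_id x)

/-- `H²` only depends on the open subgroups -/
def Mor.chgH2Equiv (h : L'.Cont L (MonoidHom.id G)) (h' : L.Cont L' (MonoidHom.id G)) :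
    LC.H2 ρ L ≃ₗ[k] LC.H2 ρ L' :=
  Mor.H2Equiv (Mor.chg ρ h) (Mor.chg ρ h')
    (fun x => by
      rw [← Mor.H2_comp]
      exact Mor.H2_id x)
    (fun x => by
      rw [← Mor.H2_comp]
      exact Mor.H2_id x)

/-- `H¹` injects when the level structure is refined. -/
theorem Mor.chg_H1_injective (h : L'.Cont L (MonoidHom.id G)) :
    Function.Injective (Mor.chg ρ h).H1 := by
  rw [injective_iff_map_eq_zero]
  intro x hx
  obtain ⟨x, rfl⟩ := H1.mk_surjective x
  rw [Mor.H1_mk, H1.mk_eq_zero_iff] at hx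
  rw [H1.mk_eq_zero_iff]
  exact hx

end ChangeLevels

section Iso

/-- Isomorphisms of pairs. -/
structure MorIso (ρ : Representation k G V) (L : Lvl G) (σ : Representation k H W) (LH : Lvl H)
    where
  /-- the morphism -/
  m : Mor ρ L σ LH
  /-- the inverse -/
  n : Mor σ LH ρ L
  f_comp : m.f.comp n.f = MonoidHom.id G
  f_comp' : n.f.comp m.f = MonoidHom.id H
  φ_comp : n.φ ∘ₗ m.φ = LinearMap.id
  φ_comp' : m.φ ∘ₗ n.φ = LinearMap.id

namespace MorIso

variable {ρ : Representation k G V} {L : Lvl G} {σ : Representation k H W} {LH : Lvl H}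
  (e : MorIso ρ L σ LH)

theorem n_comp_m : e.n.comp e.m = Mor.id ρ L := by
  ext1
  · exact e.f_comp
  · exact e.φ_comp

theorem m_comp_n : e.m.comp e.n = Mor.id σ LH := by
  ext1
  · exact e.f_comp'
  · exact e.φ_comp'

/-- induced equivalence on `H⁰` -/
def H0 : LC.H0 ρ ≃ₗ[k] LC.H0 σ :=
  Mor.H0Equiv e.m e.n (fun x => by rw [← Mor.H0_comp, n_comp_m, Mor.H0_id])
    (fun x => by rw [← Mor.H0_comp, m_comp_n, Mor.H0_id])

/-- induced equivalence on `H¹` -/
def H1 : LC.H1 ρ L ≃ₗ[k] LC.H1 σ LH :=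
  Mor.H1Equiv e.m e.n (fun x => by rw [← Mor.H1_comp, n_comp_m, Mor.H1_id])
    (fun x => by rw [← Mor.H1_comp, m_comp_n, Mor.H1_id])

/-- induced equivalence on `H²` -/
def H2 : LC.H2 ρ L ≃ₗ[k] LC.H2 σ LH :=
  Mor.H2Equiv e.m e.n (fun x => by rw [← Mor.H2_comp, n_comp_m, Mor.H2_id])
    (fun x => by rw [← Mor.H2_comp, m_comp_n, Mor.H2_id])

@[simp] theorem H0_apply (x : LC.H0 ρ) : e.H0 x = e.m.H0 x := rfl

@[simp] theorem H1_apply (x : LC.H1 ρ L) : e.H1 x = e.m.H1 x := rfl

@[simp] theorem H2_apply (x : LC.H2 ρ L) : e.H2 x = e.m.H2 x := rfl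

/-- the isomorphism induced by an equivariant linear equivalence -/
def coeff {ρ : Representation k G V} {ρ' : Representation k G W} (L : Lvl G) (e : V ≃ₗ[k] W)
    (he : ∀ g v, e (ρ g v) = ρ' g (e v)) : MorIso ρ L ρ' L where
  m := Mor.coeff L e.toLinearMap he
  n := Mor.coeff L e.symm.toLinearMap fun g v => by
    apply e.injective
    rw [LinearEquiv.coe_coe, he, LinearEquiv.apply_symm_apply, LinearEquiv.apply_symm_apply]
  f_comp := rfl
  f_comp' := rfl
  φ_comp := by ext x; simp
  φ_comp' := by ext x; simp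

end MorIso

end Iso

section Prod

/-- product of two representations -/
def prodRep (ρ : Representation k G V) (σ : Representation k G W) :
    Representation k G (V × W) where
  toFun g := (ρ g).prodMap (σ g)
  map_one' := by
    refine LinearMap.ext fun x => ?_
    simp
  map_mul' g h := by
    refine LinearMap.ext fun x => ?_
    simp

variable {ρ : Representation k G V} {σ : Representation k G W} {L : Lvl G}

@[simp] theorem prodRep_apply (g : G) (x : V × W) : prodRep ρ σ g x = (ρ g x.1, σ g x.2) := rfl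

theorem smooth_prodRep (hρ : Smooth L ρ) (hσ : Smooth L σ) : Smooth L (prodRep ρ σ) := by
  rintro ⟨v, w⟩
  obtain ⟨N, hN, h⟩ := hρ v
  obtain ⟨N', hN', h'⟩ := hσ w
  obtain ⟨Z, hZ, h1, h2⟩ := L.directed N hN N' hN'
  exact ⟨Z, hZ, fun g hg => Prod.ext (h g (h1 hg)) (h' g (h2 hg))⟩

/-- first projection -/
def fstMor (ρ : Representation k G V) (σ : Representation k G W) (L : Lvl G) :
    Mor (prodRep ρ σ) L ρ L := Mor.coeff L (LinearMap.fst k V W) fun _ _ => rfl

/-- second projection -/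
def sndMor (ρ : Representation k G V) (σ : Representation k G W) (L : Lvl G) :
    Mor (prodRep ρ σ) L σ L := Mor.coeff L (LinearMap.snd k V W) fun _ _ => rfl

/-- first inclusion -/
def inlMor (ρ : Representation k G V) (σ : Representation k G W) (L : Lvl G) :
    Mor ρ L (prodRep ρ σ) L := Mor.coeff L (LinearMap.inl k V W) fun g v => by simp

/-- second inclusion -/
def inrMor (ρ : Representation k G V) (σ : Representation k G W) (L : Lvl G) :
    Mor σ L (prodRep ρ σ) L := Mor.coeff L (LinearMap.inr k V W) fun g v => by simp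

/-- `H⁰` of a product -/
def prodH0 (ρ : Representation k G V) (σ : Representation k G W) (L : Lvl G) :
    H0 (prodRep ρ σ) ≃ₗ[k] H0 ρ × H0 σ :=
  { (fstMor ρ σ L).H0.prod (sndMor ρ σ L).H0 with
    invFun := fun p => ⟨(p.1.1, p.2.1), by
      rw [mem_H0]
      intro g
      rw [prodRep_apply, (mem_H0 ρ).mp p.1.2 g, (mem_H0 σ).mp p.2.2 g]⟩
    left_inv := fun x => rfl
    right_inv := fun x => rfl }

/-- `H¹` of a product -/
noncomputable def prodH1 (ρ : Representation k G V) (σ : Representation k G W) (L : Lvl G) :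
    H1 (prodRep ρ σ) L ≃ₗ[k] H1 ρ L × H1 σ L :=
  { (fstMor ρ σ L).H1.prod (sndMor ρ σ L).H1 with
    invFun := fun p => (inlMor ρ σ L).H1 p.1 + (inrMor ρ σ L).H1 p.2
    left_inv := fun x => by
      show (inlMor ρ σ L).H1 ((fstMor ρ σ L).H1 x) + (inrMor ρ σ L).H1 ((sndMor ρ σ L).H1 x) = x
      have h := Mor.H1_add_of (m₁ := (inlMor ρ σ L).comp (fstMor ρ σ L))
        (m₂ := (inrMor ρ σ L).comp (sndMor ρ σ L)) (m₃ := Mor.id (prodRep ρ σ) L) rfl rfl
        (LinearMap.ext fun y => by
          show (y.1, (0 : W)) + ((0 : V), y.2) = y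
          simp) x
      rw [← Mor.H1_comp, ← Mor.H1_comp, h, Mor.H1_id]
    right_inv := fun p => by
      refine Prod.ext ?_ ?_
      · show (fstMor ρ σ L).H1 ((inlMor ρ σ L).H1 p.1 + (inrMor ρ σ L).H1 p.2) = p.1
        rw [map_add, ← Mor.H1_comp, ← Mor.H1_comp,
          Mor.H1_zero_of ((fstMor ρ σ L).comp (inrMor ρ σ L)), add_zero]
        · exact Mor.H1_id p.1
        · ext; rfl
      · show (sndMor ρ σ L).H1 ((inlMor ρ σ L).H1 p.1 + (inrMor ρ σ L).H1 p.2) = p.2
        rw [map_add, ← Mor.H1_comp, ← Mor.H1_comp,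
          Mor.H1_zero_of ((sndMor ρ σ L).comp (inlMor ρ σ L)), zero_add]
        · exact Mor.H1_id p.2
        · ext; rfl }

/-- `H²` of a product -/
noncomputable def prodH2 (ρ : Representation k G V) (σ : Representation k G W) (L : Lvl G) :
    H2 (prodRep ρ σ) L ≃ₗ[k] H2 ρ L × H2 σ L :=
  { (fstMor ρ σ L).H2.prod (sndMor ρ σ L).H2 with
    invFun := fun p => (inlMor ρ σ L).H2 p.1 + (inrMor ρ σ L).H2 p.2
    left_inv := fun x => by
      show (inlMor ρ σ L).H2 ((fstMor ρ σ L).H2 x) + (inrMor ρ σ L).H2 ((sndMor ρ σ L).H2 x) = x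
      have h := Mor.H2_add_of (m₁ := (inlMor ρ σ L).comp (fstMor ρ σ L))
        (m₂ := (inrMor ρ σ L).comp (sndMor ρ σ L)) (m₃ := Mor.id (prodRep ρ σ) L) rfl rfl
        (LinearMap.ext fun y => by
          show (y.1, (0 : W)) + ((0 : V), y.2) = y
          simp) x
      rw [← Mor.H2_comp, ← Mor.H2_comp, h, Mor.H2_id]
    right_inv := fun p => by
      refine Prod.ext ?_ ?_
      · show (fstMor ρ σ L).H2 ((inlMor ρ σ L).H2 p.1 + (inrMor ρ σ L).H2 p.2) = p.1
        rw [map_add, ← Mor.H2_comp, ← Mor.H2_comp,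
          Mor.H2_zero_of ((fstMor ρ σ L).comp (inrMor ρ σ L)), add_zero]
        · exact Mor.H2_id p.1
        · ext; rfl
      · show (sndMor ρ σ L).H2 ((inlMor ρ σ L).H2 p.1 + (inrMor ρ σ L).H2 p.2) = p.2
        rw [map_add, ← Mor.H2_comp, ← Mor.H2_comp,
          Mor.H2_zero_of ((sndMor ρ σ L).comp (inlMor ρ σ L)), zero_add]
        · exact Mor.H2_id p.2
        · ext; rfl }

@[simp] theorem prodH1_apply (x : H1 (prodRep ρ σ) L) :
    prodH1 ρ σ L x = ((fstMor ρ σ L).H1 x, (sndMor ρ σ L).H1 x) := rfl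

@[simp] theorem prodH2_apply (x : H2 (prodRep ρ σ) L) :
    prodH2 ρ σ L x = ((fstMor ρ σ L).H2 x, (sndMor ρ σ L).H2 x) := rfl

end Prod

section Quot

/-- the action of `G` on `G ⧸ U` -/
def quotPerm (U : Subgroup G) : G →* Equiv.Perm (G ⧸ U) := MulAction.toPermHom G (G ⧸ U)

@[simp] theorem quotPerm_apply (U : Subgroup G) (g : G) (x : G ⧸ U) : quotPerm U g x = g • x := rfl

theorem stab_quotPerm (U : Subgroup G) : stab (quotPerm U) ((1 : G) : G ⧸ U) = U := by
  ext g
  rw [mem_stab, quotPerm_apply, MulAction.Quotient.smul_coe, smul_eq_mul, mul_one,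
    QuotientGroup.eq, mul_one, inv_mem_iff]

theorem quotPerm_trans (U : Subgroup G) (x : G ⧸ U) :
    ∃ g, quotPerm U g ((1 : G) : G ⧸ U) = x := by
  obtain ⟨g, rfl⟩ := QuotientGroup.mk_surjective x
  refine ⟨g, ?_⟩
  rw [quotPerm_apply, MulAction.Quotient.smul_coe, smul_eq_mul, mul_one]

theorem isOpen_ker_quotPerm {L : Lvl G} {U : Subgroup G} (hU : L.IsOpen U) :
    L.IsOpen (quotPerm U).ker := by
  obtain ⟨N, hN, h⟩ := hU
  have := L.normal N hN
  refine ⟨N, hN, fun g hg => ?_⟩
  rw [MonoidHom.mem_ker]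
  ext x
  obtain ⟨y, rfl⟩ := QuotientGroup.mk_surjective x
  rw [quotPerm_apply, MulAction.Quotient.smul_coe, smul_eq_mul, Equiv.Perm.one_apply,
    QuotientGroup.eq]
  apply h
  have h2 := this.conj_mem g⁻¹ (N.inv_mem hg) y⁻¹
  have h3 : (g * y)⁻¹ * y = y⁻¹ * g⁻¹ * y⁻¹⁻¹ := by group
  rw [h3]
  exact h2

theorem finite_quot {L : Lvl G} {U : Subgroup G} (hU : L.IsOpen U) : Finite (G ⧸ U) := by
  have := hU.finiteIndex
  infer_instance

variable (ρ : Representation k G V) {L : Lvl G} {U : Subgroup G}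

/-- Shapiro for `G ⧸ U` in degree 0 -/
noncomputable def shapiroQ0 (L : Lvl G) (U : Subgroup G) :
    H0 (funRep (quotPerm U) ρ) ≃ₗ[k] H0 (ρ.comp U.subtype) :=
  (shapiro0 ρ L (quotPerm_trans U)).trans
    (LinearEquiv.ofBijective _ (Mor.incl_bijective_H0 (ρ := ρ) (L := L) (stab_quotPerm U).symm))

/-- Shapiro for `G ⧸ U` in degree 1 -/
noncomputable def shapiroQ1 (hU : L.IsOpen U) :
    H1 (funRep (quotPerm U) ρ) L ≃ₗ[k] H1 (ρ.comp U.subtype) (L.restrict U) :=
  haveI := finite_quot hU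
  (shapiro1 ρ (isOpen_ker_quotPerm hU) (quotPerm_trans U)).trans
    (LinearEquiv.ofBijective _ (Mor.incl_bijective_H1 (ρ := ρ) (L := L) (stab_quotPerm U).symm))

/-- Shapiro for `G ⧸ U` in degree 2 -/
noncomputable def shapiroQ2 (hU : L.IsOpen U) :
    H2 (funRep (quotPerm U) ρ) L ≃ₗ[k] H2 (ρ.comp U.subtype) (L.restrict U) :=
  haveI := finite_quot hU
  (shapiro2 ρ (isOpen_ker_quotPerm hU) (quotPerm_trans U)).trans
    (LinearEquiv.ofBijective _ (Mor.incl_bijective_H2 (ρ := ρ) (L := L) (stab_quotPerm U).symm))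

/-- the morphism underlying `shapiroQ` -/
def shQ (ρ : Representation k G V) (L : Lvl G) (U : Subgroup G) :
    Mor (funRep (quotPerm U) ρ) L (ρ.comp U.subtype) (L.restrict U) :=
  (Mor.incl ρ L (stab_quotPerm U).symm.le).comp (shMor (quotPerm U) ρ L ((1 : G) : G ⧸ U))

@[simp] theorem shapiroQ0_apply (x : H0 (funRep (quotPerm U) ρ)) :
    shapiroQ0 ρ L U x = (shQ ρ L U).H0 x := rfl

@[simp] theorem shapiroQ1_apply (hU : L.IsOpen U) (x : H1 (funRep (quotPerm U) ρ) L) :
    shapiroQ1 ρ hU x = (shQ ρ L U).H1 x := by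
  rw [shQ, Mor.H1_comp]
  rfl

@[simp] theorem shapiroQ2_apply (hU : L.IsOpen U) (x : H2 (funRep (quotPerm U) ρ) L) :
    shapiroQ2 ρ hU x = (shQ ρ L U).H2 x := by
  rw [shQ, Mor.H2_comp]
  rfl

theorem shQ_comp_const : (shQ ρ L U).comp (constMor (quotPerm U) ρ L) = Mor.resSub ρ L U := by
  ext1 <;> rfl

/-- Restriction to an open subgroup whose index is invertible in `k` is injective. -/
theorem res_injective_H1 (hU : L.IsOpen U) (hidx : IsUnit (U.index : k)) :
    Function.Injective (Mor.resSub ρ L U).H1 := by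
  classical
  have hfin := finite_quot hU
  have := Fintype.ofFinite (G ⧸ U)
  have hcard : (Fintype.card (G ⧸ U) : k) = (U.index : k) := by
    rw [Subgroup.index, Nat.card_eq_fintype_card]
  rw [injective_iff_map_eq_zero]
  intro x hx
  have h1 := cor1_res (ρ := ρ) (isOpen_ker_quotPerm hU) (quotPerm_trans U) x
  rw [hcard] at h1
  have h2 : (Mor.resSub ρ L (stab (quotPerm U) ((1 : G) : G ⧸ U))).H1 x = 0 := by
    rw [← Mor.incl_comp_resSub (stab_quotPerm U).le, Mor.H1_comp, hx, map_zero]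
  rw [h2, map_zero] at h1
  obtain ⟨u, hu⟩ := hidx
  rw [← hu] at h1
  have h3 : (↑u⁻¹ : k) • ((↑u : k) • x) = x := by
    rw [smul_smul, Units.inv_mul, one_smul]
  rw [← h3, ← h1, smul_zero]

/-- Restriction to an open subgroup whose index is invertible in `k` is injective. -/
theorem res_injective_H2 (hU : L.IsOpen U) (hidx : IsUnit (U.index : k)) :
    Function.Injective (Mor.resSub ρ L U).H2 := by
  classical
  have hfin := finite_quot hU
  have := Fintype.ofFinite (G ⧸ U)
  have hcard : (Fintype.card (G ⧸ U) : k) = (U.index : k) := by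
    rw [Subgroup.index, Nat.card_eq_fintype_card]
  rw [injective_iff_map_eq_zero]
  intro x hx
  have h1 := cor2_res (ρ := ρ) (isOpen_ker_quotPerm hU) (quotPerm_trans U) x
  rw [hcard] at h1
  have h2 : (Mor.resSub ρ L (stab (quotPerm U) ((1 : G) : G ⧸ U))).H2 x = 0 := by
    rw [← Mor.incl_comp_resSub (stab_quotPerm U).le, Mor.H2_comp, hx, map_zero]
  rw [h2, map_zero] at h1
  obtain ⟨u, hu⟩ := hidx
  rw [← hu] at h1
  have h3 : (↑u⁻¹ : k) • ((↑u : k) • x) = x := by
    rw [smul_smul, Units.inv_mul, one_smul]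
  rw [← h3, ← h1, smul_zero]

end Quot

end Fermat.Agent.CFT.LC

namespace Fermat.Agent.CFT.LC

section Finrank

open Module

variable {k : Type*} [Field k] {G H : Type*} [Group G] [Group H]
variable {V : Type*} [AddCommGroup V] [Module k V]
variable {X Ω : Type*} {π : G →* Equiv.Perm X} (O : Orbits π Ω) [Fintype Ω] [Finite X] {L : Lvl G}
  (ρ : Representation k G V)

include L in
omit [Finite X] in
theorem Orbits.finrank_H0 [∀ ω, Module.Finite k (H0 (ρ.comp (stab π (O.rep ω)).subtype))] :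
    finrank k (H0 (funRep π ρ)) = ∑ ω, finrank k (H0 (ρ.comp (stab π (O.rep ω)).subtype)) := by
  rw [(O.mackey0 ρ L).finrank_eq, Module.finrank_pi_fintype]

theorem Orbits.finrank_H1 (hπ : L.IsOpen π.ker)
    [∀ ω, Module.Finite k (H1 (ρ.comp (stab π (O.rep ω)).subtype) (L.restrict (stab π (O.rep ω))))] :
    finrank k (H1 (funRep π ρ) L) = ∑ ω, finrank k (H1 (ρ.comp (stab π (O.rep ω)).subtype)
      (L.restrict (stab π (O.rep ω)))) := by
  have hfree : ∀ ω, Module.Free k (H1 (ρ.comp (stab π (O.rep ω)).subtype)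
      (L.restrict (stab π (O.rep ω)))) := fun ω => Module.Free.of_divisionRing _ _
  rw [(O.mackey1 ρ hπ).finrank_eq, Module.finrank_pi_fintype]

theorem Orbits.finrank_H2 (hπ : L.IsOpen π.ker)
    [∀ ω, Module.Finite k (H2 (ρ.comp (stab π (O.rep ω)).subtype) (L.restrict (stab π (O.rep ω))))] :
    finrank k (H2 (funRep π ρ) L) = ∑ ω, finrank k (H2 (ρ.comp (stab π (O.rep ω)).subtype)
      (L.restrict (stab π (O.rep ω)))) := by
  have hfree : ∀ ω, Module.Free k (H2 (ρ.comp (stab π (O.rep ω)).subtype)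
      (L.restrict (stab π (O.rep ω)))) := fun ω => Module.Free.of_divisionRing _ _
  rw [(O.mackey2 ρ hπ).finrank_eq, Module.finrank_pi_fintype]

end Finrank

section ExactDim

open Module

variable {k : Type*} [Field k] {A B C : Type*} [AddCommGroup A] [Module k A] [AddCommGroup B]
  [Module k B] [AddCommGroup C] [Module k C] {f : A →ₗ[k] B} {g : B →ₗ[k] C}

theorem finite_of_exact (h : Function.Exact f g) [Module.Finite k A] [Module.Finite k C] :
    Module.Finite k B := by
  have h1 : LinearMap.ker g = LinearMap.range f := h.linearMap_ker_eq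
  have h2 : (LinearMap.ker g).FG := by
    rw [h1, LinearMap.range_eq_map]
    exact (Module.Finite.fg_top).map f
  have h3 : Module.Finite k (LinearMap.ker g) := Module.Finite.iff_fg.mpr h2
  have h4 : Module.Finite k (B ⧸ LinearMap.ker g) := Module.Finite.equiv g.quotKerEquivRange.symm
  exact Module.Finite.of_submodule_quotient (LinearMap.ker g)

theorem finrank_le_of_exact (h : Function.Exact f g) [Module.Finite k A] [Module.Finite k C] :
    finrank k B ≤ finrank k A + finrank k C := by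
  have := finite_of_exact h
  have h1 : LinearMap.ker g = LinearMap.range f := h.linearMap_ker_eq
  have h2 := g.finrank_range_add_finrank_ker
  rw [h1] at h2
  have h3 := f.finrank_range_le
  have h4 := (LinearMap.range g).finrank_le
  omega

/-- rank of `f` plus rank of `g` is the dimension of the middle term -/
theorem finrank_eq_of_exact (h : Function.Exact f g) [Module.Finite k B] :
    finrank k B = finrank k (LinearMap.range f) + finrank k (LinearMap.range g) := by
  have h1 : LinearMap.ker g = LinearMap.range f := h.linearMap_ker_eq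
  have h2 := g.finrank_range_add_finrank_ker
  rw [h1] at h2
  omega

end ExactDim

end Fermat.Agent.CFT.LC
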