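import Fermat.Agent.CFT.LC.Levels

/-!
# Comparison with the frozen definitions of `sha₁` and `sha₂`
-/

set_option autoImplicit false

open CategoryTheory groupCohomology ExtCitation

namespace Fermat.Agent.CFT.LC

section Averaging

variable {k : Type*} [CommRing k] {G : Type*} [Group G] [Finite G] {V : Type*} [AddCommGroup V]
  [Module k V] {ρ : Representation k G V} {L : Lvl G}

/-- `H¹` of a finite group of invertible order vanishes. -/
theorem H1_eq_zero_of_isUnit_card (h : IsUnit (Nat.card G : k)) (x : LC.H1 ρ L) : x = 0 := by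
  have := Fintype.ofFinite G
  obtain ⟨c, rfl⟩ := H1.mk_surjective x
  obtain ⟨u, hu⟩ := h
  rw [Nat.card_eq_fintype_card] at hu
  rw [H1.mk_eq_zero_iff]
  have hc := ((mem_Z1 ρ L).mp c.2).1
  refine ⟨-((↑u⁻¹ : k) • ∑ h, c.1 h), fun g => ?_⟩
  have h1 : ∑ h, c.1 h = ρ g (∑ h, c.1 h) + (Fintype.card G : k) • c.1 g := by
    calc ∑ h, c.1 h = ∑ h, c.1 (g * h) := (Equiv.sum_comp (Equiv.mulLeft g) c.1).symm
      _ = _ := by
        simp only [hc, Finset.sum_add_distrib, Finset.sum_const, map_sum, Finset.card_univ,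
          Nat.cast_smul_eq_nsmul]
  have h2 : (Fintype.card G : k) • c.1 g = ∑ h, c.1 h - ρ g (∑ h, c.1 h) := by
    rw [eq_sub_iff_add_eq, add_comm, ← h1]
  rw [map_neg, map_smul, sub_neg_eq_add, ← sub_eq_neg_add, ← smul_sub, ← h2, ← hu, smul_smul,
    Units.inv_mul, one_smul]

/-- `H²` of a finite group of invertible order vanishes. -/
theorem H2_eq_zero_of_isUnit_card (h : IsUnit (Nat.card G : k)) (x : LC.H2 ρ L) : x = 0 := by
  have := Fintype.ofFinite G
  obtain ⟨c, rfl⟩ := H2.mk_surjective x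
  obtain ⟨u, hu⟩ := h
  rw [Nat.card_eq_fintype_card] at hu
  rw [H2.mk_eq_zero_iff]
  have hc := ((mem_Z2 ρ L).mp c.2).1
  have hlc := ((mem_Z2 ρ L).mp c.2).2
  refine ⟨fun g => (↑u⁻¹ : k) • ∑ j, c.1 (g, j), ?_, ?_⟩
  · obtain ⟨N, hN, h⟩ := hlc
    refine ⟨N, hN, fun g s hs => ?_⟩
    show (↑u⁻¹ : k) • ∑ j, c.1 (g * s, j) = (↑u⁻¹ : k) • ∑ j, c.1 (g, j)
    congr 1
    refine Finset.sum_congr rfl fun j _ => ?_
    have := h g j s hs 1 N.one_mem
    rwa [mul_one] at this
  · ext ⟨g, h⟩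
    have h1 : (Fintype.card G : k) • c.1 (g, h) =
        ρ g (∑ j, c.1 (h, j)) - ∑ j, c.1 (g * h, j) + ∑ j, c.1 (g, j) := by
      have h2 : ∑ j, c.1 (g, j) = ∑ j, c.1 (g, h * j) :=
        (Equiv.sum_comp (Equiv.mulLeft h) fun j => c.1 (g, j)).symm
      have h3 : ∑ j, (c.1 (g * h, j) + c.1 (g, h)) =
          ∑ j, (ρ g (c.1 (h, j)) + c.1 (g, h * j)) :=
        Finset.sum_congr rfl fun j _ => hc g h j
      rw [Finset.sum_add_distrib, Finset.sum_add_distrib, Finset.sum_const, Finset.card_univ,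
        ← Nat.cast_smul_eq_nsmul k, ← map_sum, ← h2] at h3
      rw [← sub_eq_zero] at h3 ⊢
      rw [← h3]
      abel
    simp only [d1_apply, map_smul]
    rw [← smul_sub, ← smul_add, ← h1, ← hu, smul_smul, Units.inv_mul, one_smul]

end Averaging

section H1Bridge

variable {k : Type} [CommRing k] {G H : Type} [Group G] [Group H] (A : Rep k G) (L : Lvl G)

/-- level-constant cocycles as cocycles -/
def toCoc : ↥(Z1 A.ρ L) →ₗ[k] ↥(cocycles₁ A) where
  toFun c := ⟨c.1, (mem_cocycles₁_iff c.1).mpr ((mem_Z1 A.ρ L).mp c.2).1⟩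
  map_add' _ _ := rfl
  map_smul' _ _ := rfl

@[simp] theorem coe_toCoc (c : Z1 A.ρ L) : (toCoc A L c : G → A) = c.1 := rfl

/-- the comparison map from level-constant cohomology to abstract cohomology -/
noncomputable def toH1 : LC.H1 A.ρ L →ₗ[k] groupCohomology.H1 A :=
  Submodule.liftQ _ ((H1π A).hom ∘ₗ toCoc A L) fun c hc => by
    rw [LinearMap.mem_ker, LinearMap.comp_apply]
    refine (H1π_eq_zero_iff _).mpr ?_
    obtain ⟨v, hv⟩ := (mem_B1 A.ρ).mp hc
    exact ⟨v, funext fun g => (hv g).symm⟩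

theorem toH1_mk (c : Z1 A.ρ L) : toH1 A L (H1.mk A.ρ L c) = (H1π A).hom (toCoc A L c) := rfl

theorem toH1_injective : Function.Injective (toH1 A L) := by
  rw [injective_iff_map_eq_zero]
  intro x hx
  obtain ⟨c, rfl⟩ := H1.mk_surjective x
  rw [toH1_mk] at hx
  have h1 := (H1π_eq_zero_iff _).mp hx
  rw [H1.mk_eq_zero_iff]
  obtain ⟨v, hv⟩ := h1
  exact ⟨v, fun g => (congrFun hv g).symm⟩

theorem toH1_natural {L : Lvl G} {LH : Lvl H} (f : H →* G) (hf : LH.Cont L f)
    (x : LC.H1 A.ρ L) :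
    (groupCohomology.map f (𝟙 (Rep.res f A)) 1).hom (toH1 A L x) =
      toH1 (Rep.res f A) LH ((Mor.res A.ρ f hf).H1 x) := by
  obtain ⟨c, rfl⟩ := H1.mk_surjective x
  rw [Mor.H1_mk, toH1_mk]
  erw [H1π_comp_map_apply, toH1_mk]
  rfl

end H1Bridge

section Sha

/-- The Tate–Shafarevich group in degree 1 for a family of "local" groups. -/
def Sha1 {k : Type*} [CommRing k] {G : Type*} [Group G] {ι : Type*} {Γ : ι → Type*}
    [∀ v, Group (Γ v)] {L : Lvl G} {LΓ : ∀ v, Lvl (Γ v)} {r : ∀ v, Γ v →* G}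
    (hr : ∀ v, (LΓ v).Cont L (r v)) {V : Type*} [AddCommGroup V] [Module k V]
    (ρ : Representation k G V) : Submodule k (LC.H1 ρ L) :=
  LinearMap.ker (LinearMap.pi fun v => (Mor.res ρ (r v) (hr v)).H1)

/-- The Tate–Shafarevich group in degree 2 for a family of "local" groups. -/
def Sha2 {k : Type*} [CommRing k] {G : Type*} [Group G] {ι : Type*} {Γ : ι → Type*}
    [∀ v, Group (Γ v)] {L : Lvl G} {LΓ : ∀ v, Lvl (Γ v)} {r : ∀ v, Γ v →* G}
    (hr : ∀ v, (LΓ v).Cont L (r v)) {V : Type*} [AddCommGroup V] [Module k V]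
    (ρ : Representation k G V) : Submodule k (LC.H2 ρ L) :=
  LinearMap.ker (LinearMap.pi fun v => (Mor.res ρ (r v) (hr v)).H2)

section

variable {k : Type*} [CommRing k] {G : Type*} [Group G] {ι : Type*} {Γ : ι → Type*}
    [∀ v, Group (Γ v)] {L : Lvl G} {LΓ : ∀ v, Lvl (Γ v)} {r : ∀ v, Γ v →* G}
    {hr : ∀ v, (LΓ v).Cont L (r v)} {V : Type*} [AddCommGroup V] [Module k V]
    {ρ : Representation k G V}

theorem mem_Sha1 {x : LC.H1 ρ L} :
    x ∈ Sha1 hr ρ ↔ ∀ v, (Mor.res ρ (r v) (hr v)).H1 x = 0 := by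
  rw [Sha1, LinearMap.mem_ker, funext_iff]
  rfl

theorem mem_Sha2 {x : LC.H2 ρ L} :
    x ∈ Sha2 hr ρ ↔ ∀ v, (Mor.res ρ (r v) (hr v)).H2 x = 0 := by
  rw [Sha2, LinearMap.mem_ker, funext_iff]
  rfl

end

local notation "ΓQ" => (AlgebraicClosure ℚ ≃ₐ[ℚ] AlgebraicClosure ℚ)

variable (S : Finset Nat.Primes)

/-- the decomposition maps at the primes of `S` are continuous -/
theorem cont_locS (q : ↥S) :
    (lvlOver (primeLocalToGlobal q.1)).Cont (unram S) (primeLocalToGlobal q.1) :=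
  cont_lvlOver_unram S _

variable {k : Type} [Field k] (A : Rep k ΓQ)

theorem natCard_archimedean_dvd : Nat.card archimedeanDecomposition ∣ 2 := by
  rw [archimedeanDecomposition, Nat.card_zpowers]
  exact orderOf_dvd_of_pow_eq_one complexConjugation_sq

theorem finite_archimedean : Finite archimedeanDecomposition := by
  have h := natCard_archimedean_dvd
  refine Nat.finite_of_card_ne_zero fun h0 => ?_
  rw [h0] at h
  simp at h

theorem isUnit_card_archimedean (h2 : (2 : k) ≠ 0) :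
    IsUnit (Nat.card archimedeanDecomposition : k) := by
  obtain ⟨m, hm⟩ := natCard_archimedean_dvd
  have h : ((Nat.card archimedeanDecomposition : k)) * (m : k) = 2 := by
    rw [← Nat.cast_mul, ← hm]
    norm_num
  exact IsUnit.mk0 _ fun h0 => h2 (by rw [← h, h0, zero_mul])

theorem range_toH1 : LinearMap.range (toH1 A (unram S)) = continuousH1S S A := by
  ext x
  rw [mem_continuousH1S_iff]
  constructor
  · rintro ⟨y, rfl⟩
    obtain ⟨c, rfl⟩ := H1.mk_surjective y
    exact ⟨toCoc A _ c, isLevelConstantS₁_iff.mpr ((mem_Z1 _ _).mp c.2).2, rfl⟩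
  · rintro ⟨c, hc, rfl⟩
    exact ⟨H1.mk A.ρ _ ⟨c.1, (mem_Z1 _ _).mpr
      ⟨(mem_cocycles₁_iff c.1).mp c.2, isLevelConstantS₁_iff.mp hc⟩⟩, rfl⟩

theorem toH1_mem_ker_iff (h2 : (2 : k) ≠ 0) (x : LC.H1 A.ρ (unram S)) :
    toH1 A (unram S) x ∈ LinearMap.ker (locTotal (extArithLoc S) A) ↔
      x ∈ Sha1 (cont_locS S) A.ρ := by
  rw [LinearMap.mem_ker, mem_Sha1, funext_iff]
  constructor
  · intro h q
    have h1 := h (Sum.inr q)
    have h2 := toH1_natural A (primeLocalToGlobal q.1) (cont_locS S q) x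
    have h3 : toH1 (Rep.res (primeLocalToGlobal q.1) A) _
        ((Mor.res A.ρ (primeLocalToGlobal q.1) (cont_locS S q)).H1 x) = 0 := by
      rw [← h2]
      exact h1
    exact toH1_injective _ _ (h3.trans (map_zero _).symm)
  · rintro h (u | q)
    · have h2' := toH1_natural A (ExtCitation.archimedeanLoc)
        (cont_lvlOver_unram S ExtCitation.archimedeanLoc) x
      have := finite_archimedean
      rw [H1_eq_zero_of_isUnit_card (isUnit_card_archimedean h2)
        ((Mor.res A.ρ ExtCitation.archimedeanLoc (cont_lvlOver_unram S _)).H1 x), map_zero] at h2'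
      exact h2'
    · have h2' := toH1_natural A (primeLocalToGlobal q.1) (cont_locS S q) x
      rw [h q, map_zero] at h2'
      exact h2'

/-- The frozen `sha₁` in the language of level-constant cochains. -/
noncomputable def sha₁Equiv (h2 : (2 : k) ≠ 0) :
    ↥(sha₁ S A) ≃ₗ[k] ↥(Sha1 (cont_locS S) A.ρ) := by
  refine (LinearEquiv.ofBijective
    (((toH1 A (unram S)).domRestrict (Sha1 (cont_locS S) A.ρ)).codRestrict (sha₁ S A) ?_)
    ⟨?_, ?_⟩).symm
  · rintro ⟨x, hx⟩
    refine ⟨?_, (toH1_mem_ker_iff S A h2 x).mpr hx⟩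
    rw [← range_toH1]
    exact ⟨x, rfl⟩
  · intro x y hxy
    apply Subtype.ext
    exact toH1_injective _ _ (congrArg Subtype.val hxy)
  · rintro ⟨y, hy1, hy2⟩
    have hy1' : y ∈ LinearMap.range (toH1 A (unram S)) := by
      rw [range_toH1]
      exact hy1
    obtain ⟨x, rfl⟩ := hy1'
    exact ⟨⟨x, (toH1_mem_ker_iff S A h2 x).mp hy2⟩, rfl⟩

section H2Bridge

variable {k : Type} [CommRing k] (M : Rep k ΓQ)

theorem Z2_eq_levelCocyclesS₂ : levelCocyclesS₂ S M = Z2 M.ρ (unram S) := by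
  ext f
  rw [mem_levelCocyclesS₂_iff, mem_Z2, mem_cocycles₂_iff, isLevelConstantS₂_iff]

theorem B2_eq_levelCoboundariesS₂ : levelCoboundariesS₂ S M = B2 M.ρ (unram S) := by
  ext f
  rw [mem_levelCoboundariesS₂_iff, mem_B2]
  refine exists_congr fun x => ?_
  rw [isLevelConstantS₁_iff]
  rfl

theorem Z2_eq_levelCocycles₂ {G : Type} [Group G] (r : G →* ΓQ) (N : Rep k G) :
    levelCocycles₂ r N = Z2 N.ρ (lvlOver r) := by
  ext f
  rw [mem_levelCocycles₂_iff, mem_Z2, mem_cocycles₂_iff, isLevelConstant₂_iff]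

theorem B2_eq_levelCoboundaries₂ {G : Type} [Group G] (r : G →* ΓQ) (N : Rep k G) :
    levelCoboundaries₂ r N = B2 N.ρ (lvlOver r) := by
  ext f
  rw [mem_levelCoboundaries₂_iff, mem_B2]
  refine exists_congr fun x => ?_
  rw [isLevelConstant₁_iff]
  rfl

/-- comparison of the global `H²` -/
noncomputable def eH2S : continuousH2S S M ≃ₗ[k] LC.H2 M.ρ (unram S) :=
  Submodule.Quotient.equiv _ _ (LinearEquiv.ofEq _ _ (Z2_eq_levelCocyclesS₂ S M)) (by
    ext x
    rw [Submodule.mem_map]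
    simp only [Submodule.mem_comap, B2_eq_levelCoboundariesS₂]
    constructor
    · rintro ⟨y, hy, rfl⟩
      exact hy
    · intro hx
      exact ⟨(LinearEquiv.ofEq _ _ (Z2_eq_levelCocyclesS₂ S M)).symm x, hx, rfl⟩)

theorem eH2S_mk (c : ↥(levelCocyclesS₂ S M)) :
    eH2S S M (continuousH2Sπ S M c) =
      H2.mk M.ρ (unram S) ⟨c.1, (Z2_eq_levelCocyclesS₂ S M) ▸ c.2⟩ := rfl

/-- comparison of the local `H²` -/
noncomputable def eH2 {G : Type} [Group G] (r : G →* ΓQ) (N : Rep k G) :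
    continuousH2 r N ≃ₗ[k] LC.H2 N.ρ (lvlOver r) :=
  Submodule.Quotient.equiv _ _ (LinearEquiv.ofEq _ _ (Z2_eq_levelCocycles₂ r N)) (by
    ext x
    rw [Submodule.mem_map]
    simp only [Submodule.mem_comap, B2_eq_levelCoboundaries₂]
    constructor
    · rintro ⟨y, hy, rfl⟩
      exact hy
    · intro hx
      exact ⟨(LinearEquiv.ofEq _ _ (Z2_eq_levelCocycles₂ r N)).symm x, hx, rfl⟩)

theorem eH2_mk {G : Type} [Group G] (r : G →* ΓQ) (N : Rep k G) (c : ↥(levelCocycles₂ r N)) :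
    eH2 r N (continuousH2π r N c) =
      H2.mk N.ρ (lvlOver r) ⟨c.1, (Z2_eq_levelCocycles₂ r N) ▸ c.2⟩ := rfl

theorem eH2_locRes {G : Type} [Group G] (r : G →* ΓQ) (x : continuousH2S S M) :
    eH2 r (Rep.res r M) (locRes₂S S M r x) =
      (Mor.res M.ρ r (cont_lvlOver_unram S r)).H2 (eH2S S M x) := by
  obtain ⟨c, rfl⟩ := Submodule.mkQ_surjective _ x
  rfl

end H2Bridge

theorem eH2S_mem_iff (h2 : (2 : k) ≠ 0) (x : continuousH2S S A) :
    x ∈ sha₂ S A ↔ eH2S S A x ∈ Sha2 (cont_locS S) A.ρ := by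
  rw [sha₂, LinearMap.mem_ker, mem_Sha2, funext_iff]
  constructor
  · intro h q
    have h1 := h (Sum.inr q)
    have h3 := eH2_locRes S A (primeLocalToGlobal q.1) x
    rw [← h3]
    have h4 : locRes₂S S A (primeLocalToGlobal q.1) x = 0 := h1
    rw [h4, map_zero]
  · rintro h (u | q)
    · have := finite_archimedean
      have h3 := eH2_locRes S A ExtCitation.archimedeanLoc x
      rw [H2_eq_zero_of_isUnit_card (isUnit_card_archimedean h2)
        ((Mor.res A.ρ ExtCitation.archimedeanLoc (cont_lvlOver_unram S _)).H2 _)] at h3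
      exact (eH2 ExtCitation.archimedeanLoc (Rep.res ExtCitation.archimedeanLoc A)).injective
        (h3.trans (map_zero _).symm)
    · have h3 := eH2_locRes S A (primeLocalToGlobal q.1) x
      rw [h q] at h3
      exact (eH2 (primeLocalToGlobal q.1) (Rep.res (primeLocalToGlobal q.1) A)).injective
        (h3.trans (map_zero _).symm)

/-- The frozen `sha₂` in the language of level-constant cochains. -/
noncomputable def sha₂Equiv (h2 : (2 : k) ≠ 0) :
    ↥(sha₂ S A) ≃ₗ[k] ↥(Sha2 (cont_locS S) A.ρ) :=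
  (eH2S S A).submoduleMap (sha₂ S A) |>.trans (LinearEquiv.ofEq _ _ (by
    ext y
    rw [Submodule.mem_map]
    constructor
    · rintro ⟨x, hx, rfl⟩
      exact (eH2S_mem_iff S A h2 x).mp hx
    · intro hy
      refine ⟨(eH2S S A).symm y, (eH2S_mem_iff S A h2 _).mpr ?_, ?_⟩
      · rwa [LinearEquiv.apply_symm_apply]
      · exact LinearEquiv.apply_symm_apply _ _))

end Sha

end Fermat.Agent.CFT.LC
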