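import Fermat.Agent.CFT.LC.FunRep

/-!
# Finite direct sums and Mackey's formula

* `Mor.H1_sum_of`, `Mor.H2_sum_of`: additivity of the induced maps;
* `Mor.incl`: restriction between subgroups;
* `mackey0/1/2`: for a finite `G`-set `X` (given by `π : G →* Perm X`) with orbit invariants
  `cl : X → Ω` and representatives `rep : Ω → X`, the maps `(shMor π ρ L (rep ω)).Hi` induce
  `Hi(G, Fun(X, V)) ≃ Π ω, Hi(stab (rep ω), V)`.
-/

set_option autoImplicit false

namespace Fermat.Agent.CFT.LC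

universe u

variable {k : Type*} [CommRing k] {G H : Type*} [Group G] [Group H]
variable {V W : Type*} [AddCommGroup V] [Module k V] [AddCommGroup W] [Module k W]

namespace Mor

variable {ρ : Representation k G V} {L : Lvl G} {σ : Representation k H W} {LH : Lvl H}

theorem H0_sum_of {ι : Type*} (s : Finset ι) (m : ι → Mor ρ L σ LH) (m' : Mor ρ L σ LH)
    (h : ∑ i ∈ s, (m i).φ = m'.φ) (x : LC.H0 ρ) :
    ∑ i ∈ s, (m i).H0 x = m'.H0 x := by
  apply Subtype.ext
  rw [coe_H0, ← h, AddSubmonoidClass.coe_finsetSum, LinearMap.sum_apply]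
  rfl

theorem H1_sum_of {ι : Type*} (s : Finset ι) (m : ι → Mor ρ L σ LH) (m' : Mor ρ L σ LH)
    (hf : ∀ i ∈ s, (m i).f = m'.f) (h : ∑ i ∈ s, (m i).φ = m'.φ) (x : LC.H1 ρ L) :
    ∑ i ∈ s, (m i).H1 x = m'.H1 x := by
  obtain ⟨x, rfl⟩ := H1.mk_surjective x
  simp only [H1_mk, ← map_sum]
  congr 1
  ext g
  rw [coe_z1, c1_apply, ← h, LinearMap.sum_apply, AddSubmonoidClass.coe_finsetSum,
    Finset.sum_apply]
  refine Finset.sum_congr rfl fun i hi => ?_
  rw [coe_z1, c1_apply, hf i hi]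

theorem H2_sum_of {ι : Type*} (s : Finset ι) (m : ι → Mor ρ L σ LH) (m' : Mor ρ L σ LH)
    (hf : ∀ i ∈ s, (m i).f = m'.f) (h : ∑ i ∈ s, (m i).φ = m'.φ) (x : LC.H2 ρ L) :
    ∑ i ∈ s, (m i).H2 x = m'.H2 x := by
  obtain ⟨x, rfl⟩ := H2.mk_surjective x
  simp only [H2_mk, ← map_sum]
  congr 1
  ext g
  rw [coe_z2, c2_apply, ← h, LinearMap.sum_apply, AddSubmonoidClass.coe_finsetSum,
    Finset.sum_apply]
  refine Finset.sum_congr rfl fun i hi => ?_
  rw [coe_z2, c2_apply, hf i hi]

/-- restriction from a subgroup to a smaller one -/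
def incl (ρ : Representation k G V) (L : Lvl G) {U U' : Subgroup G} (h : U' ≤ U) :
    Mor (ρ.comp U.subtype) (L.restrict U) (ρ.comp U'.subtype) (L.restrict U') where
  f := Subgroup.inclusion h
  φ := LinearMap.id
  cont := by
    rintro _ ⟨N, hN, rfl⟩
    exact ⟨_, Lvl.comap_mem_levels _ hN, fun x hx => hx⟩
  comm _ _ := rfl

theorem incl_comp_resSub {U U' : Subgroup G} (h : U' ≤ U) :
    (incl ρ L h).comp (resSub ρ L U) = resSub ρ L U' := by
  ext1 <;> rfl

theorem incl_bijective_H0 {U U' : Subgroup G} (h : U' = U) :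
    Function.Bijective (incl ρ L h.le).H0 := by
  subst h
  have : (incl ρ L (le_refl U')) = id _ _ := by ext1 <;> rfl
  rw [this]
  exact Function.bijective_id

theorem incl_bijective_H1 {U U' : Subgroup G} (h : U' = U) :
    Function.Bijective (incl ρ L h.le).H1 := by
  subst h
  have : (incl ρ L (le_refl U')) = id _ _ := by ext1 <;> rfl
  rw [this]
  have h2 : ⇑((id (ρ.comp U'.subtype) (L.restrict U')).H1) = _root_.id := funext H1_id
  rw [h2]
  exact Function.bijective_id

theorem incl_bijective_H2 {U U' : Subgroup G} (h : U' = U) :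
    Function.Bijective (incl ρ L h.le).H2 := by
  subst h
  have : (incl ρ L (le_refl U')) = id _ _ := by ext1 <;> rfl
  rw [this]
  have h2 : ⇑((id (ρ.comp U'.subtype) (L.restrict U')).H2) = _root_.id := funext H2_id
  rw [h2]
  exact Function.bijective_id

end Mor

section DirectSum

variable {ι : Type*} [Fintype ι] {T : ι → Type*} [∀ i, AddCommGroup (T i)] [∀ i, Module k (T i)]
  {ρ : Representation k G V} {L : Lvl G} {τ : ∀ i, Representation k G (T i)}

/-- A decomposition of `ρ` as a finite direct sum of the `τ i`. -/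
structure Decomp (L : Lvl G) (ρ : Representation k G V) (τ : ∀ i, Representation k G (T i)) where
  /-- projections -/
  r : ∀ i, Mor ρ L (τ i) L
  /-- inclusions -/
  e : ∀ i, Mor (τ i) L ρ L
  rf : ∀ i, (r i).f = MonoidHom.id G
  ef : ∀ i, (e i).f = MonoidHom.id G
  r_e : ∀ i, (r i).φ ∘ₗ (e i).φ = LinearMap.id
  r_e_ne : ∀ i j, i ≠ j → (r i).φ ∘ₗ (e j).φ = 0
  sum_e_r : ∑ i, (e i).φ ∘ₗ (r i).φ = LinearMap.id

variable (D : Decomp L ρ τ)

theorem Decomp.bijective_H0 : Function.Bijective fun (x : H0 ρ) i => (D.r i).H0 x := by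
  classical
  have key : ∀ x, ∑ i, (D.e i).H0 ((D.r i).H0 x) = x := fun x => by
    have := Mor.H0_sum_of Finset.univ (fun i => (D.e i).comp (D.r i)) (Mor.id ρ L) D.sum_e_r x
    simpa only [Mor.H0_comp, Mor.H0_id] using this
  constructor
  · intro x y hxy
    have h1 : ∀ i, (D.r i).H0 x = (D.r i).H0 y := fun i => congrFun hxy i
    rw [← key x, ← key y]
    simp only [h1]
  · intro y
    refine ⟨∑ i, (D.e i).H0 (y i), ?_⟩
    ext1 i
    simp only [map_sum, ← Mor.H0_comp]
    rw [Finset.sum_eq_single i]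
    · have h1 : (D.r i).comp (D.e i) = Mor.id _ _ := by
        ext1
        · simp [D.rf, D.ef]
        · simp [D.r_e]
      rw [h1, Mor.H0_id]
    · intro j _ hj
      apply Subtype.ext
      exact LinearMap.congr_fun (D.r_e_ne i j (Ne.symm hj)) _
    · intro h
      exact absurd (Finset.mem_univ i) h

theorem Decomp.bijective_H1 : Function.Bijective fun (x : H1 ρ L) i => (D.r i).H1 x := by
  classical
  have key : ∀ x, ∑ i, (D.e i).H1 ((D.r i).H1 x) = x := fun x => by
    have := Mor.H1_sum_of Finset.univ (fun i => (D.e i).comp (D.r i)) (Mor.id ρ L)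
      (fun i _ => by simp [D.rf, D.ef]) D.sum_e_r x
    simpa only [Mor.H1_comp, Mor.H1_id] using this
  constructor
  · intro x y hxy
    have h1 : ∀ i, (D.r i).H1 x = (D.r i).H1 y := fun i => congrFun hxy i
    rw [← key x, ← key y]
    simp only [h1]
  · intro y
    refine ⟨∑ i, (D.e i).H1 (y i), ?_⟩
    ext1 i
    simp only [map_sum, ← Mor.H1_comp]
    rw [Finset.sum_eq_single i]
    · have h1 : (D.r i).comp (D.e i) = Mor.id _ _ := by
        ext1
        · simp [D.rf, D.ef]
        · simp [D.r_e]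
      rw [h1, Mor.H1_id]
    · intro j _ hj
      exact Mor.H1_zero_of _ (D.r_e_ne i j (Ne.symm hj)) _
    · intro h
      exact absurd (Finset.mem_univ i) h

theorem Decomp.bijective_H2 : Function.Bijective fun (x : H2 ρ L) i => (D.r i).H2 x := by
  classical
  have key : ∀ x, ∑ i, (D.e i).H2 ((D.r i).H2 x) = x := fun x => by
    have := Mor.H2_sum_of Finset.univ (fun i => (D.e i).comp (D.r i)) (Mor.id ρ L)
      (fun i _ => by simp [D.rf, D.ef]) D.sum_e_r x
    simpa only [Mor.H2_comp, Mor.H2_id] using this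
  constructor
  · intro x y hxy
    have h1 : ∀ i, (D.r i).H2 x = (D.r i).H2 y := fun i => congrFun hxy i
    rw [← key x, ← key y]
    simp only [h1]
  · intro y
    refine ⟨∑ i, (D.e i).H2 (y i), ?_⟩
    ext1 i
    simp only [map_sum, ← Mor.H2_comp]
    rw [Finset.sum_eq_single i]
    · have h1 : (D.r i).comp (D.e i) = Mor.id _ _ := by
        ext1
        · simp [D.rf, D.ef]
        · simp [D.r_e]
      rw [h1, Mor.H2_id]
    · intro j _ hj
      exact Mor.H2_zero_of _ (D.r_e_ne i j (Ne.symm hj)) _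
    · intro h
      exact absurd (Finset.mem_univ i) h

/-- `H⁰` of a direct sum. -/
noncomputable def Decomp.equivH0 : H0 ρ ≃ₗ[k] ∀ i, H0 (τ i) :=
  LinearEquiv.ofBijective (LinearMap.pi fun i => (D.r i).H0) D.bijective_H0

/-- `H¹` of a direct sum. -/
noncomputable def Decomp.equivH1 : H1 ρ L ≃ₗ[k] ∀ i, H1 (τ i) L :=
  LinearEquiv.ofBijective (LinearMap.pi fun i => (D.r i).H1) D.bijective_H1

/-- `H²` of a direct sum. -/
noncomputable def Decomp.equivH2 : H2 ρ L ≃ₗ[k] ∀ i, H2 (τ i) L :=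
  LinearEquiv.ofBijective (LinearMap.pi fun i => (D.r i).H2) D.bijective_H2

end DirectSum

section Pi

variable {ι : Type*} {T : ι → Type*} [∀ i, AddCommGroup (T i)] [∀ i, Module k (T i)]

/-- product representation -/
def piRep (τ : ∀ i, Representation k G (T i)) : Representation k G (∀ i, T i) where
  toFun g := LinearMap.pi fun i => τ i g ∘ₗ LinearMap.proj i
  map_one' := by
    refine LinearMap.ext fun x => funext fun i => ?_
    simp
  map_mul' g h := by
    refine LinearMap.ext fun x => funext fun i => ?_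
    simp

@[simp] theorem piRep_apply (τ : ∀ i, Representation k G (T i)) (g : G) (x : ∀ i, T i) (i : ι) :
    piRep τ g x i = τ i g (x i) := rfl

theorem smooth_piRep [Finite ι] {L : Lvl G} {τ : ∀ i, Representation k G (T i)}
    (h : ∀ i, Smooth L (τ i)) : Smooth L (piRep τ) := by
  intro x
  choose N hN h1 using fun i => h i (x i)
  obtain ⟨W, hW, h2⟩ := L.exists_level_le_finite N hN
  exact ⟨W, hW, fun g hg => funext fun i => h1 i g (h2 i hg)⟩

open Classical in
/-- the canonical decomposition of a finite product -/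
noncomputable def piDecomp [Fintype ι] (L : Lvl G) (τ : ∀ i, Representation k G (T i)) :
    Decomp L (piRep τ) τ where
  r i := Mor.coeff L (LinearMap.proj i) fun _ _ => rfl
  e i := Mor.coeff L (LinearMap.single k T i) fun g v => by
    ext j
    by_cases h : j = i
    · subst h
      simp
    · simp [Pi.single_eq_of_ne h]
  rf _ := rfl
  ef _ := rfl
  r_e i := LinearMap.ext fun x => Pi.single_eq_same (M := T) i x
  r_e_ne i j h := LinearMap.ext fun x => Pi.single_eq_of_ne (M := T) h x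
  sum_e_r := by
    refine LinearMap.ext fun x => ?_
    ext j
    simp only [Mor.coeff_φ, LinearMap.sum_apply, LinearMap.comp_apply,
      LinearMap.single_apply, Finset.sum_apply, LinearMap.id_apply]
    rw [Finset.sum_eq_single j]
    · exact Pi.single_eq_same (M := T) j _
    · intro i _ hi
      exact Pi.single_eq_of_ne (Ne.symm hi) _
    · intro h
      exact absurd (Finset.mem_univ j) h

end Pi

section Mackey

variable {X Ω : Type*}

/-- Orbit data for a permutation action: invariants classifying the orbits, and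
representatives. -/
structure Orbits (π : G →* Equiv.Perm X) (Ω : Type*) where
  /-- the class of a point -/
  cl : X → Ω
  /-- representatives of the orbits -/
  rep : Ω → X
  cl_perm : ∀ g x, cl (π g x) = cl x
  cl_rep : ∀ ω, cl (rep ω) = ω
  exists_perm : ∀ x, ∃ g, π g (rep (cl x)) = x

variable {π : G →* Equiv.Perm X} (O : Orbits π Ω)

/-- the action on an orbit -/
def Orbits.perm (ω : Ω) : G →* Equiv.Perm {x : X // O.cl x = ω} where
  toFun g := (π g).subtypePerm fun x => by rw [O.cl_perm]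
  map_one' := by
    ext x
    simp
  map_mul' g h := by
    ext x
    simp only [map_mul]
    rfl

@[simp] theorem Orbits.coe_perm_apply (ω : Ω) (g : G) (x : {x : X // O.cl x = ω}) :
    (O.perm ω g x : X) = π g x := rfl

theorem Orbits.coe_perm_inv_apply (ω : Ω) (g : G) (x : {x : X // O.cl x = ω}) :
    ((O.perm ω g)⁻¹ x : X) = (π g)⁻¹ x := by
  rw [← map_inv, coe_perm_apply, map_inv]

theorem Orbits.stab_eq (ω : Ω) (x : {x : X // O.cl x = ω}) : stab π x.1 = stab (O.perm ω) x := by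
  ext g
  rw [mem_stab, mem_stab, Subtype.ext_iff]
  rfl

theorem Orbits.trans (ω : Ω) (x : {x : X // O.cl x = ω}) :
    ∃ g, O.perm ω g ⟨O.rep ω, O.cl_rep ω⟩ = x := by
  obtain ⟨g, hg⟩ := O.exists_perm x.1
  refine ⟨g, Subtype.ext ?_⟩
  have h1 : O.rep ω = O.rep (O.cl x.1) := by rw [x.2]
  show π g (O.rep ω) = x.1
  rw [h1, hg]

theorem Orbits.isOpen_ker {L : Lvl G} (hπ : L.IsOpen π.ker) (ω : Ω) : L.IsOpen (O.perm ω).ker := by
  refine hπ.mono fun g hg => ?_
  rw [MonoidHom.mem_ker] at hg ⊢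
  ext x
  rw [O.coe_perm_apply, hg]
  rfl

/-- Every permutation action has orbit data. -/
theorem Orbits.exists {X : Type u} (π : G →* Equiv.Perm X) :
    ∃ Ω : Type u, Nonempty (Orbits π Ω) := by
  classical
  let _ : MulAction G X := MulAction.compHom X π
  refine ⟨MulAction.orbitRel.Quotient G X, ⟨⟨Quotient.mk'', fun ω => ω.out, ?_, ?_, ?_⟩⟩⟩
  · intro g x
    exact Quotient.sound ⟨g, rfl⟩
  · intro ω
    exact Quotient.out_eq ω
  · intro x
    have h1 : (MulAction.orbitRel G X) (Quotient.out (Quotient.mk'' x : MulAction.orbitRel.Quotient G X)) x :=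
      Quotient.exact (Quotient.out_eq _)
    obtain ⟨g, hg⟩ := (MulAction.orbitRel G X).symm h1
    exact ⟨g, hg⟩

open Classical in
/-- `Fun(X, V)` is the direct sum of the `Fun(X_ω, V)`. -/
noncomputable def Orbits.decomp [Fintype Ω] (L : Lvl G) (ρ : Representation k G V) :
    Decomp L (funRep π ρ) (fun ω => funRep (O.perm ω) ρ) where
  r ω := Mor.coeff L (LinearMap.funLeft k V Subtype.val) fun g f => by
    ext x
    rw [LinearMap.funLeft_apply, funRep_apply, funRep_apply, LinearMap.funLeft_apply,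
      O.coe_perm_inv_apply]
  e ω := Mor.coeff L
    { toFun := fun f x => if h : O.cl x = ω then f ⟨x, h⟩ else 0
      map_add' := fun f f' => by
        ext x
        by_cases h : O.cl x = ω <;> simp [h]
      map_smul' := fun c f => by
        ext x
        by_cases h : O.cl x = ω <;> simp [h] } fun g f => by
    ext x
    have h0 : O.cl ((π g)⁻¹ x) = O.cl x := by rw [← map_inv, O.cl_perm]
    simp only [LinearMap.coe_mk, AddHom.coe_mk, funRep_apply]
    by_cases h : O.cl x = ω
    · rw [dif_pos h, dif_pos (h0.trans h)]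
      congr 2
    · rw [dif_neg h, dif_neg (fun h' => h (h0.symm.trans h')), map_zero]
  rf _ := rfl
  ef _ := rfl
  r_e ω := by
    refine LinearMap.ext fun f => ?_
    ext x
    simp only [Mor.coeff_φ, LinearMap.comp_apply, LinearMap.funLeft_apply, LinearMap.coe_mk,
      AddHom.coe_mk, LinearMap.id_apply]
    rw [dif_pos x.2]
  r_e_ne ω ω' h := by
    refine LinearMap.ext fun f => ?_
    ext x
    simp only [Mor.coeff_φ, LinearMap.comp_apply, LinearMap.funLeft_apply, LinearMap.coe_mk,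
      AddHom.coe_mk, LinearMap.zero_apply, Pi.zero_apply]
    rw [dif_neg]
    rw [x.2]
    exact h
  sum_e_r := by
    refine LinearMap.ext fun f => ?_
    ext x
    simp only [Mor.coeff_φ, LinearMap.sum_apply, LinearMap.comp_apply, LinearMap.funLeft_apply,
      LinearMap.coe_mk, AddHom.coe_mk, LinearMap.id_apply, Finset.sum_apply]
    rw [Finset.sum_eq_single (O.cl x)]
    · rw [dif_pos rfl]
    · intro ω _ hω
      rw [dif_neg (Ne.symm hω)]
    · intro h
      exact absurd (Finset.mem_univ _) h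

variable {L : Lvl G} (ρ : Representation k G V)

theorem Orbits.comp_eq [Fintype Ω] (ω : Ω) :
    (Mor.incl ρ L (O.stab_eq ω ⟨O.rep ω, O.cl_rep ω⟩).le).comp
      ((shMor (O.perm ω) ρ L ⟨O.rep ω, O.cl_rep ω⟩).comp ((O.decomp L ρ).r ω)) =
    shMor π ρ L (O.rep ω) := by
  ext1
  · rfl
  · rfl

variable [Fintype Ω]

theorem Orbits.mackey0_bijective :
    Function.Bijective fun (x : H0 (funRep π ρ)) (ω : Ω) => (shMor π ρ L (O.rep ω)).H0 x := by
  have h1 : (fun (x : H0 (funRep π ρ)) (ω : Ω) => (shMor π ρ L (O.rep ω)).H0 x) =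
      (fun y ω => (Mor.incl ρ L (O.stab_eq ω ⟨O.rep ω, O.cl_rep ω⟩).le).H0
        ((shMor (O.perm ω) ρ L ⟨O.rep ω, O.cl_rep ω⟩).H0 (y ω))) ∘
      (fun (x : H0 (funRep π ρ)) (ω : Ω) => ((O.decomp L ρ).r ω).H0 x) := by
    funext x ω
    rw [← O.comp_eq ρ ω, Mor.H0_comp, Mor.H0_comp]
    rfl
  rw [h1]
  refine Function.Bijective.comp ?_ (O.decomp L ρ).bijective_H0
  have h2 : ∀ ω, Function.Bijective fun y : H0 (funRep (O.perm ω) ρ) =>
      (Mor.incl ρ L (O.stab_eq ω ⟨O.rep ω, O.cl_rep ω⟩).le).H0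
        ((shMor (O.perm ω) ρ L ⟨O.rep ω, O.cl_rep ω⟩).H0 y) := fun ω =>
    (Mor.incl_bijective_H0 (O.stab_eq ω ⟨O.rep ω, O.cl_rep ω⟩)).comp
      ⟨shapiro_H0_injective (O.trans ω), shapiro_H0_surjective (O.trans ω)⟩
  exact Function.Bijective.piMap h2

variable [Finite X] (hπ : L.IsOpen π.ker)

include hπ in
theorem Orbits.mackey1_bijective :
    Function.Bijective fun (x : H1 (funRep π ρ) L) (ω : Ω) => (shMor π ρ L (O.rep ω)).H1 x := by
  have h1 : (fun (x : H1 (funRep π ρ) L) (ω : Ω) => (shMor π ρ L (O.rep ω)).H1 x) =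
      (fun y ω => (Mor.incl ρ L (O.stab_eq ω ⟨O.rep ω, O.cl_rep ω⟩).le).H1
        ((shMor (O.perm ω) ρ L ⟨O.rep ω, O.cl_rep ω⟩).H1 (y ω))) ∘
      (fun (x : H1 (funRep π ρ) L) (ω : Ω) => ((O.decomp L ρ).r ω).H1 x) := by
    funext x ω
    rw [← O.comp_eq ρ ω, Mor.H1_comp, Mor.H1_comp]
    rfl
  rw [h1]
  refine Function.Bijective.comp ?_ (O.decomp L ρ).bijective_H1
  have h2 : ∀ ω, Function.Bijective fun y : H1 (funRep (O.perm ω) ρ) L =>
      (Mor.incl ρ L (O.stab_eq ω ⟨O.rep ω, O.cl_rep ω⟩).le).H1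
        ((shMor (O.perm ω) ρ L ⟨O.rep ω, O.cl_rep ω⟩).H1 y) := fun ω =>
    (Mor.incl_bijective_H1 (O.stab_eq ω ⟨O.rep ω, O.cl_rep ω⟩)).comp
      ⟨shapiro_H1_injective (O.trans ω),
        shapiro_H1_surjective (O.isOpen_ker hπ ω) (O.trans ω)⟩
  exact Function.Bijective.piMap h2

include hπ in
theorem Orbits.mackey2_bijective :
    Function.Bijective fun (x : H2 (funRep π ρ) L) (ω : Ω) => (shMor π ρ L (O.rep ω)).H2 x := by
  have h1 : (fun (x : H2 (funRep π ρ) L) (ω : Ω) => (shMor π ρ L (O.rep ω)).H2 x) =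
      (fun y ω => (Mor.incl ρ L (O.stab_eq ω ⟨O.rep ω, O.cl_rep ω⟩).le).H2
        ((shMor (O.perm ω) ρ L ⟨O.rep ω, O.cl_rep ω⟩).H2 (y ω))) ∘
      (fun (x : H2 (funRep π ρ) L) (ω : Ω) => ((O.decomp L ρ).r ω).H2 x) := by
    funext x ω
    rw [← O.comp_eq ρ ω, Mor.H2_comp, Mor.H2_comp]
    rfl
  rw [h1]
  refine Function.Bijective.comp ?_ (O.decomp L ρ).bijective_H2
  have h2 : ∀ ω, Function.Bijective fun y : H2 (funRep (O.perm ω) ρ) L =>
      (Mor.incl ρ L (O.stab_eq ω ⟨O.rep ω, O.cl_rep ω⟩).le).H2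
        ((shMor (O.perm ω) ρ L ⟨O.rep ω, O.cl_rep ω⟩).H2 y) := fun ω =>
    (Mor.incl_bijective_H2 (O.stab_eq ω ⟨O.rep ω, O.cl_rep ω⟩)).comp
      ⟨shapiro_H2_injective (O.isOpen_ker hπ ω) (O.trans ω),
        shapiro_H2_surjective (O.isOpen_ker hπ ω) (O.trans ω)⟩
  exact Function.Bijective.piMap h2

/-- Mackey's formula in degree 0. -/
noncomputable def Orbits.mackey0 (L : Lvl G) :
    H0 (funRep π ρ) ≃ₗ[k] ∀ ω : Ω, H0 (ρ.comp (stab π (O.rep ω)).subtype) :=
  LinearEquiv.ofBijective (LinearMap.pi fun ω => (shMor π ρ L (O.rep ω)).H0)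
    (O.mackey0_bijective ρ)

/-- Mackey's formula in degree 1. -/
noncomputable def Orbits.mackey1 (hπ : L.IsOpen π.ker) :
    H1 (funRep π ρ) L ≃ₗ[k] ∀ ω : Ω, H1 (ρ.comp (stab π (O.rep ω)).subtype)
      (L.restrict (stab π (O.rep ω))) :=
  LinearEquiv.ofBijective (LinearMap.pi fun ω => (shMor π ρ L (O.rep ω)).H1)
    (O.mackey1_bijective ρ hπ)

/-- Mackey's formula in degree 2. -/
noncomputable def Orbits.mackey2 (hπ : L.IsOpen π.ker) :
    H2 (funRep π ρ) L ≃ₗ[k] ∀ ω : Ω, H2 (ρ.comp (stab π (O.rep ω)).subtype)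
      (L.restrict (stab π (O.rep ω))) :=
  LinearEquiv.ofBijective (LinearMap.pi fun ω => (shMor π ρ L (O.rep ω)).H2)
    (O.mackey2_bijective ρ hπ)

end Mackey

end Fermat.Agent.CFT.LC
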