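import Fermat.Agent.CFT.LC.Basic

/-!
# Functoriality of the cohomology of level-constant cochains

A morphism `Mor ρ L σ LH` is a pair `(f : H →* G, φ : V →ₗ[k] W)` with `φ (ρ (f h) v) = σ h (φ v)`
and `f` continuous.  It induces maps `m.H0 : H0 ρ → H0 σ`, `m.H1 : H1 ρ L → H1 σ LH`,
`m.H2 : H2 ρ L → H2 σ LH`.
-/

set_option autoImplicit false

namespace Fermat.Agent.CFT.LC

variable {k : Type*} [CommRing k] {G H K : Type*} [Group G] [Group H] [Group K]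
variable {V W X : Type*} [AddCommGroup V] [Module k V] [AddCommGroup W] [Module k W]
  [AddCommGroup X] [Module k X]

/-- Morphisms `(G, V) → (H, W)` : a continuous group homomorphism `f : H →* G` and a compatible
linear map `φ : V → W`. -/
structure Mor (ρ : Representation k G V) (L : Lvl G) (σ : Representation k H W) (LH : Lvl H) where
  /-- the group homomorphism -/
  f : H →* G
  /-- the linear map -/
  φ : V →ₗ[k] W
  cont : LH.Cont L f
  comm : ∀ h v, φ (ρ (f h) v) = σ h (φ v)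

namespace Mor

variable {ρ : Representation k G V} {L : Lvl G} {σ : Representation k H W} {LH : Lvl H}
  {τ : Representation k K X} {LK : Lvl K}

/-- identity morphism -/
def id (ρ : Representation k G V) (L : Lvl G) : Mor ρ L ρ L where
  f := MonoidHom.id G
  φ := LinearMap.id
  cont := L.cont_id
  comm _ _ := rfl

/-- composition of morphisms: first `m`, then `n`. -/
def comp (n : Mor σ LH τ LK) (m : Mor ρ L σ LH) : Mor ρ L τ LK where
  f := m.f.comp n.f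
  φ := n.φ ∘ₗ m.φ
  cont := m.cont.comp n.cont
  comm h v := by
    simp only [LinearMap.comp_apply, MonoidHom.comp_apply]
    rw [m.comm, n.comm]

/-- change of coefficients over the same group -/
def coeff {ρ' : Representation k G W} (L : Lvl G) (φ : V →ₗ[k] W)
    (hφ : ∀ g v, φ (ρ g v) = ρ' g (φ v)) : Mor ρ L ρ' L where
  f := MonoidHom.id G
  φ := φ
  cont := L.cont_id
  comm := hφ

/-- restriction along a continuous homomorphism -/
def res (ρ : Representation k G V) {L : Lvl G} {LH : Lvl H} (f : H →* G) (hf : LH.Cont L f) :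
    Mor ρ L (ρ.comp f) LH where
  f := f
  φ := LinearMap.id
  cont := hf
  comm _ _ := rfl

/-- restriction along a homomorphism, with the induced level structure -/
def resComap (ρ : Representation k G V) (L : Lvl G) (f : H →* G) :
    Mor ρ L (ρ.comp f) (L.comap f) := res ρ f (L.cont_comap f)

/-- restriction to a subgroup -/
def resSub (ρ : Representation k G V) (L : Lvl G) (U : Subgroup G) :
    Mor ρ L (ρ.comp U.subtype) (L.restrict U) := resComap ρ L U.subtype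

@[simp] theorem comp_f (n : Mor σ LH τ LK) (m : Mor ρ L σ LH) : (n.comp m).f = m.f.comp n.f := rfl
@[simp] theorem comp_φ (n : Mor σ LH τ LK) (m : Mor ρ L σ LH) : (n.comp m).φ = n.φ ∘ₗ m.φ := rfl
@[simp] theorem id_f : (id ρ L).f = MonoidHom.id G := rfl
@[simp] theorem id_φ : (id ρ L).φ = LinearMap.id := rfl
@[simp] theorem coeff_f {ρ' : Representation k G W} (φ : V →ₗ[k] W)
    (hφ : ∀ g v, φ (ρ g v) = ρ' g (φ v)) : (coeff L φ hφ).f = MonoidHom.id G := rfl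
@[simp] theorem coeff_φ {ρ' : Representation k G W} (φ : V →ₗ[k] W)
    (hφ : ∀ g v, φ (ρ g v) = ρ' g (φ v)) : (coeff L φ hφ).φ = φ := rfl
@[simp] theorem res_f (f : H →* G) (hf : LH.Cont L f) : (res ρ f hf).f = f := rfl
@[simp] theorem res_φ (f : H →* G) (hf : LH.Cont L f) : (res ρ f hf).φ = LinearMap.id := rfl
@[simp] theorem resComap_f (f : H →* G) : (resComap ρ L f).f = f := rfl
@[simp] theorem resComap_φ (f : H →* G) : (resComap ρ L f).φ = LinearMap.id := rfl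
@[simp] theorem resSub_f (U : Subgroup G) : (resSub ρ L U).f = U.subtype := rfl
@[simp] theorem resSub_φ (U : Subgroup G) : (resSub ρ L U).φ = LinearMap.id := rfl

variable (m : Mor ρ L σ LH)

/-- the map on 1-cochains -/
def c1 : (G → V) →ₗ[k] (H → W) where
  toFun x h := m.φ (x (m.f h))
  map_add' x y := by ext h; simp
  map_smul' c x := by ext h; simp

/-- the map on 2-cochains -/
def c2 : (G × G → V) →ₗ[k] (H × H → W) where
  toFun x h := m.φ (x (m.f h.1, m.f h.2))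
  map_add' x y := by ext h; simp
  map_smul' c x := by ext h; simp

@[simp] theorem c1_apply (x : G → V) (h : H) : m.c1 x h = m.φ (x (m.f h)) := rfl

@[simp] theorem c2_apply (x : G × G → V) (h : H × H) :
    m.c2 x h = m.φ (x (m.f h.1, m.f h.2)) := rfl

theorem c1_d0 (v : V) : m.c1 (d0 ρ v) = d0 σ (m.φ v) := by
  ext h
  simp [m.comm]

theorem c2_d1 (x : G → V) : m.c2 (d1 ρ x) = d1 σ (m.c1 x) := by
  ext ⟨g, h⟩
  simp [m.comm]

theorem isLC₁_c1 {x : G → V} (hx : IsLC₁ L x) : IsLC₁ LH (m.c1 x) :=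
  (hx.pullback m.cont).comp m.φ

theorem isLC₂_c2 {x : G × G → V} (hx : IsLC₂ L x) : IsLC₂ LH (m.c2 x) :=
  (hx.pullback m.cont).comp m.φ

theorem c1_mem_Z1 {x : G → V} (hx : x ∈ Z1 ρ L) : m.c1 x ∈ Z1 σ LH := by
  rw [mem_Z1] at hx ⊢
  refine ⟨fun g h => ?_, m.isLC₁_c1 hx.2⟩
  simp only [c1_apply, map_mul, hx.1, map_add, m.comm]

theorem c2_mem_Z2 {x : G × G → V} (hx : x ∈ Z2 ρ L) : m.c2 x ∈ Z2 σ LH := by
  rw [mem_Z2] at hx ⊢
  refine ⟨fun g h j => ?_, m.isLC₂_c2 hx.2⟩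
  simp only [c2_apply, map_mul, ← map_add, hx.1, ← m.comm]

/-- the map on 1-cocycles -/
def z1 : ↥(Z1 ρ L) →ₗ[k] ↥(Z1 σ LH) := m.c1.restrict fun _ hx => m.c1_mem_Z1 hx

/-- the map on 2-cocycles -/
def z2 : ↥(Z2 ρ L) →ₗ[k] ↥(Z2 σ LH) := m.c2.restrict fun _ hx => m.c2_mem_Z2 hx

@[simp] theorem coe_z1 (x : Z1 ρ L) : (m.z1 x : H → W) = m.c1 x := rfl

@[simp] theorem coe_z2 (x : Z2 ρ L) : (m.z2 x : H × H → W) = m.c2 x := rfl

theorem φ_mem_H0 {v : V} (hv : v ∈ LC.H0 ρ) : m.φ v ∈ LC.H0 σ := by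
  rw [mem_H0] at hv ⊢
  intro g
  rw [← m.comm, hv]

/-- the map on `H⁰` -/
def H0 : LC.H0 ρ →ₗ[k] LC.H0 σ := m.φ.restrict fun _ hv => m.φ_mem_H0 hv

@[simp] theorem coe_H0 (x : LC.H0 ρ) : (m.H0 x : W) = m.φ x := rfl

/-- the map on `H¹` -/
def H1 : LC.H1 ρ L →ₗ[k] LC.H1 σ LH :=
  Submodule.mapQ _ _ m.z1 fun x hx => by
    rw [Submodule.mem_comap] at hx ⊢
    obtain ⟨v, hv⟩ := hx
    refine ⟨m.φ v, ?_⟩
    rw [← m.c1_d0, hv]
    rfl

/-- the map on `H²` -/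
def H2 : LC.H2 ρ L →ₗ[k] LC.H2 σ LH :=
  Submodule.mapQ _ _ m.z2 fun x hx => by
    rw [Submodule.mem_comap] at hx ⊢
    obtain ⟨v, hv, hv'⟩ := hx
    refine ⟨m.c1 v, m.isLC₁_c1 hv, ?_⟩
    rw [← m.c2_d1, hv']
    rfl

@[simp] theorem H1_mk (x : Z1 ρ L) : m.H1 (H1.mk ρ L x) = H1.mk σ LH (m.z1 x) := rfl

@[simp] theorem H2_mk (x : Z2 ρ L) : m.H2 (H2.mk ρ L x) = H2.mk σ LH (m.z2 x) := rfl

theorem H0_id (x : LC.H0 ρ) : (id ρ L).H0 x = x := rfl

theorem H1_id (x : LC.H1 ρ L) : (id ρ L).H1 x = x := by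
  obtain ⟨x, rfl⟩ := H1.mk_surjective x
  rfl

theorem H2_id (x : LC.H2 ρ L) : (id ρ L).H2 x = x := by
  obtain ⟨x, rfl⟩ := H2.mk_surjective x
  rfl

variable (n : Mor σ LH τ LK)

theorem H0_comp (x : LC.H0 ρ) : (n.comp m).H0 x = n.H0 (m.H0 x) := rfl

theorem H1_comp (x : LC.H1 ρ L) : (n.comp m).H1 x = n.H1 (m.H1 x) := by
  obtain ⟨x, rfl⟩ := H1.mk_surjective x
  rfl

theorem H2_comp (x : LC.H2 ρ L) : (n.comp m).H2 x = n.H2 (m.H2 x) := by
  obtain ⟨x, rfl⟩ := H2.mk_surjective x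
  rfl

@[ext] theorem ext' {m m' : Mor ρ L σ LH} (h1 : m.f = m'.f) (h2 : m.φ = m'.φ) : m = m' := by
  cases m
  cases m'
  cases h1
  cases h2
  rfl

/-- additivity in the coefficient map -/
theorem H1_add_of {m₁ m₂ m₃ : Mor ρ L σ LH} (h1 : m₁.f = m₃.f) (h2 : m₂.f = m₃.f)
    (h : m₁.φ + m₂.φ = m₃.φ) (x : LC.H1 ρ L) : m₁.H1 x + m₂.H1 x = m₃.H1 x := by
  obtain ⟨x, rfl⟩ := H1.mk_surjective x
  simp only [H1_mk, ← map_add]
  congr 1
  ext g
  simp only [Submodule.coe_add, coe_z1, Pi.add_apply, c1_apply, h1, h2, ← h, LinearMap.add_apply]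

theorem H2_add_of {m₁ m₂ m₃ : Mor ρ L σ LH} (h1 : m₁.f = m₃.f) (h2 : m₂.f = m₃.f)
    (h : m₁.φ + m₂.φ = m₃.φ) (x : LC.H2 ρ L) : m₁.H2 x + m₂.H2 x = m₃.H2 x := by
  obtain ⟨x, rfl⟩ := H2.mk_surjective x
  simp only [H2_mk, ← map_add]
  congr 1
  ext g
  simp only [Submodule.coe_add, coe_z2, Pi.add_apply, c2_apply, h1, h2, ← h, LinearMap.add_apply]

theorem H1_smul_of {m₁ m₂ : Mor ρ L σ LH} (c : k) (h1 : m₁.f = m₂.f)
    (h : c • m₁.φ = m₂.φ) (x : LC.H1 ρ L) : c • m₁.H1 x = m₂.H1 x := by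
  obtain ⟨x, rfl⟩ := H1.mk_surjective x
  simp only [H1_mk, ← map_smul]
  congr 1
  ext g
  simp only [Submodule.coe_smul, coe_z1, Pi.smul_apply, c1_apply, h1, ← h, LinearMap.smul_apply,
    map_smul]

theorem H2_smul_of {m₁ m₂ : Mor ρ L σ LH} (c : k) (h1 : m₁.f = m₂.f)
    (h : c • m₁.φ = m₂.φ) (x : LC.H2 ρ L) : c • m₁.H2 x = m₂.H2 x := by
  obtain ⟨x, rfl⟩ := H2.mk_surjective x
  simp only [H2_mk, ← map_smul]
  congr 1
  ext g
  simp only [Submodule.coe_smul, coe_z2, Pi.smul_apply, c2_apply, h1, ← h, LinearMap.smul_apply,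
    map_smul]

theorem H1_zero_of (h : m.φ = 0) (x : LC.H1 ρ L) : m.H1 x = 0 := by
  obtain ⟨x, rfl⟩ := H1.mk_surjective x
  rw [H1_mk, H1.mk_eq_zero_iff]
  exact ⟨0, fun g => by simp [h]⟩

theorem H2_zero_of (h : m.φ = 0) (x : LC.H2 ρ L) : m.H2 x = 0 := by
  obtain ⟨x, rfl⟩ := H2.mk_surjective x
  rw [H2_mk, H2.mk_eq_zero_iff]
  exact ⟨0, isLC₁_const 0, by ext p; simp [h]⟩

/-- If `n ∘ m` and `m ∘ n` induce the identity we get a linear equivalence on `H⁰`. -/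
def H0Equiv (m : Mor ρ L σ LH) (n : Mor σ LH ρ L) (h1 : ∀ x, n.H0 (m.H0 x) = x)
    (h2 : ∀ x, m.H0 (n.H0 x) = x) : LC.H0 ρ ≃ₗ[k] LC.H0 σ :=
  { m.H0 with invFun := n.H0, left_inv := h1, right_inv := h2 }

/-- If `n ∘ m` and `m ∘ n` induce the identity we get a linear equivalence on `H¹`. -/
def H1Equiv (m : Mor ρ L σ LH) (n : Mor σ LH ρ L) (h1 : ∀ x, n.H1 (m.H1 x) = x)
    (h2 : ∀ x, m.H1 (n.H1 x) = x) : LC.H1 ρ L ≃ₗ[k] LC.H1 σ LH :=
  { m.H1 with invFun := n.H1, left_inv := h1, right_inv := h2 }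

/-- If `n ∘ m` and `m ∘ n` induce the identity we get a linear equivalence on `H²`. -/
def H2Equiv (m : Mor ρ L σ LH) (n : Mor σ LH ρ L) (h1 : ∀ x, n.H2 (m.H2 x) = x)
    (h2 : ∀ x, m.H2 (n.H2 x) = x) : LC.H2 ρ L ≃ₗ[k] LC.H2 σ LH :=
  { m.H2 with invFun := n.H2, left_inv := h1, right_inv := h2 }

end Mor

section Conj

variable {ρ : Representation k G V} {L : Lvl G}

/-- conjugation by `g` : the pair (`h ↦ g⁻¹ h g`, `v ↦ g v`) -/
def Mor.conj (ρ : Representation k G V) (L : Lvl G) (g : G) : Mor ρ L ρ L where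
  f := (MulAut.conj g⁻¹).toMonoidHom
  φ := ρ g
  cont := by
    intro N hN
    have := L.normal N hN
    refine ⟨N, hN, fun x hx => ?_⟩
    rw [Subgroup.mem_comap]
    exact this.conj_mem x hx g⁻¹
  comm h v := by
    have h1 : g * (g⁻¹ * h * g) = h * g := by group
    simp only [MulEquiv.coe_toMonoidHom, MulAut.conj_apply, inv_inv]
    rw [← Module.End.mul_apply, ← map_mul, h1, map_mul, Module.End.mul_apply]

theorem Mor.conj_H0 (g : G) (x : LC.H0 ρ) : (Mor.conj ρ L g).H0 x = x := by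
  ext
  exact (mem_H0 ρ).mp x.2 g

/-- Conjugation acts trivially on `H¹`. -/
theorem Mor.conj_H1 (g : G) (x : LC.H1 ρ L) : (Mor.conj ρ L g).H1 x = x := by
  obtain ⟨x, rfl⟩ := H1.mk_surjective x
  rw [← sub_eq_zero, Mor.H1_mk, ← map_sub, H1.mk_eq_zero_iff]
  refine ⟨x.1 g, fun h => ?_⟩
  have hx := ((mem_Z1 ρ L).mp x.2).1
  have h1 := hx g (g⁻¹ * h * g)
  have h2 := hx h g
  have h3 : g * (g⁻¹ * h * g) = h * g := by group
  rw [h3] at h1
  show ρ g (x.1 (g⁻¹ * h * g⁻¹⁻¹)) - x.1 h = ρ h (x.1 g) - x.1 g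
  rw [inv_inv, sub_eq_sub_iff_add_eq_add, ← h1, h2]

/-- Conjugation acts trivially on `H²`. -/
theorem Mor.conj_H2 (g : G) (x : LC.H2 ρ L) : (Mor.conj ρ L g).H2 x = x := by
  obtain ⟨x, rfl⟩ := H2.mk_surjective x
  rw [← sub_eq_zero, Mor.H2_mk, ← map_sub, H2.mk_eq_zero_iff]
  have hx := ((mem_Z2 ρ L).mp x.2).1
  have hlc := ((mem_Z2 ρ L).mp x.2).2
  -- the cochain `h ↦ x(g, g⁻¹ h g) - x(h, g)`
  refine ⟨fun h => x.1 (g, g⁻¹ * h * g) - x.1 (h, g), ?_, ?_⟩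
  · obtain ⟨N, hN, h1⟩ := hlc
    have hnorm := L.normal N hN
    refine ⟨N, hN, fun h s hs => ?_⟩
    have e1 : g⁻¹ * (h * s) * g = (g⁻¹ * h * g) * (g⁻¹ * s * g) := by group
    have e2 := h1 g (g⁻¹ * h * g) 1 N.one_mem (g⁻¹ * s * g) (by
      simpa using hnorm.conj_mem s hs g⁻¹)
    have e3 := h1 h g s hs 1 N.one_mem
    simp only [mul_one] at e2 e3
    simp only [e1, e2, e3]
  · ext ⟨a, b⟩
    show ρ a (x.1 (g, g⁻¹ * b * g) - x.1 (b, g)) - (x.1 (g, g⁻¹ * (a * b) * g) - x.1 (a * b, g))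
      + (x.1 (g, g⁻¹ * a * g) - x.1 (a, g)) = ρ g (x.1 (g⁻¹ * a * g⁻¹⁻¹, g⁻¹ * b * g⁻¹⁻¹)) -
        x.1 (a, b)
    rw [inv_inv]
    have e1 := hx g (g⁻¹ * a * g) (g⁻¹ * b * g)
    have e2 := hx a g (g⁻¹ * b * g)
    have e3 := hx a b g
    have s1 : g * (g⁻¹ * a * g) = a * g := by group
    have s2 : g⁻¹ * a * g * (g⁻¹ * b * g) = g⁻¹ * (a * b) * g := by group
    have s3 : g * (g⁻¹ * b * g) = b * g := by group
    rw [s1, s2] at e1
    rw [s3] at e2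
    rw [map_sub]
    have e1' : ρ g (x.1 (g⁻¹ * a * g, g⁻¹ * b * g)) =
      x.1 (a * g, g⁻¹ * b * g) + x.1 (g, g⁻¹ * a * g) - x.1 (g, g⁻¹ * (a * b) * g) := by
      rw [e1]; abel
    have e2' : ρ a (x.1 (g, g⁻¹ * b * g)) =
      x.1 (a * g, g⁻¹ * b * g) + x.1 (a, g) - x.1 (a, b * g) := by
      rw [e2]; abel
    have e3' : ρ a (x.1 (b, g)) = x.1 (a * b, g) + x.1 (a, b) - x.1 (a, b * g) := by
      rw [e3]; abel
    rw [e1', e2', e3']
    abel

end Conj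

end Fermat.Agent.CFT.LC
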