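import Mathlib
import Fermat.Agent.CFT.LC.Basic

/-!
# Cup products on the cohomology of level-constant cochains

For an equivariant bilinear pairing `B : V × W → X` we define the cup products
`H⁰ × H² → H²`, `H¹ × H¹ → H²`, `H² × H⁰ → H²`, `H⁰ × H¹ → H¹`, `H¹ × H⁰ → H¹`,
prove graded commutativity and the compatibility with connecting homomorphisms (in terms of
explicit cochains).
-/

set_option autoImplicit false

namespace Fermat.Agent.CFT.LC

section LiftQ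

variable {R M N P : Type*} [CommRing R] [AddCommGroup M] [AddCommGroup N] [AddCommGroup P]
  [Module R M] [Module R N] [Module R P]

/-- lift a bilinear map to quotients in both variables -/
def liftQ₂ (p : Submodule R M) (q : Submodule R N) (f : M →ₗ[R] N →ₗ[R] P)
    (hp : ∀ m ∈ p, ∀ n, f m n = 0) (hq : ∀ n ∈ q, ∀ m, f m n = 0) :
    (M ⧸ p) →ₗ[R] (N ⧸ q) →ₗ[R] P :=
  p.liftQ (q.liftQ f.flip fun n hn => by
      rw [LinearMap.mem_ker]; ext m; exact hq n hn m).flip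
    fun m hm => by
      rw [LinearMap.mem_ker]
      refine LinearMap.ext fun n => ?_
      obtain ⟨n, rfl⟩ := Submodule.mkQ_surjective _ n
      exact hp m hm n

@[simp] theorem liftQ₂_mkQ (p : Submodule R M) (q : Submodule R N) (f : M →ₗ[R] N →ₗ[R] P)
    (hp : ∀ m ∈ p, ∀ n, f m n = 0) (hq : ∀ n ∈ q, ∀ m, f m n = 0) (m : M) (n : N) :
    liftQ₂ p q f hp hq (p.mkQ m) (q.mkQ n) = f m n := rfl

end LiftQ

section Cup

variable {k : Type*} [CommRing k] {G : Type*} [Group G]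
variable {V W X : Type*} [AddCommGroup V] [Module k V] [AddCommGroup W] [Module k W]
  [AddCommGroup X] [Module k X]

/-- A bilinear map is equivariant. -/
def IsPairing (ρV : Representation k G V) (ρW : Representation k G W)
    (ρX : Representation k G X) (B : V →ₗ[k] W →ₗ[k] X) : Prop :=
  ∀ g v w, B (ρV g v) (ρW g w) = ρX g (B v w)

variable {ρV : Representation k G V} {ρW : Representation k G W} {ρX : Representation k G X}
  {B : V →ₗ[k] W →ₗ[k] X} {L : Lvl G}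

theorem IsPairing.map (hB : IsPairing ρV ρW ρX B) (g : G) (v : V) (w : W) :
    ρX g (B v w) = B (ρV g v) (ρW g w) := (hB g v w).symm

theorem IsPairing.flip (hB : IsPairing ρV ρW ρX B) : IsPairing ρW ρV ρX B.flip :=
  fun g v w => hB g w v

theorem IsPairing.comp {H : Type*} [Group H] (hB : IsPairing ρV ρW ρX B) (f : H →* G) :
    IsPairing (ρV.comp f) (ρW.comp f) (ρX.comp f) B :=
  fun g v w => hB (f g) v w

/-! ### cochain level formulas -/

/-- the 2-cochain `(g, h) ↦ B (a g) (g b(h))` -/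
def cupC11 (ρW : Representation k G W) (B : V →ₗ[k] W →ₗ[k] X) (a : G → V) (b : G → W) :
    G × G → X := fun p => B (a p.1) (ρW p.1 (b p.2))

@[simp] theorem cupC11_apply (a : G → V) (b : G → W) (p : G × G) :
    cupC11 ρW B a b p = B (a p.1) (ρW p.1 (b p.2)) := rfl

theorem cupC11_isLC₂ (hW : Smooth L ρW) {a : G → V} {b : G → W} (ha : IsLC₁ L a)
    (hb : IsLC₁ L b) : IsLC₂ L (cupC11 ρW B a b) :=
  (ha.fst.prod (hW.isLC₂_apply hb)).comp fun p => B p.1 p.2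

theorem cupC11_mem_Z2 (hB : IsPairing ρV ρW ρX B) (hW : Smooth L ρW) {a : G → V} {b : G → W}
    (ha : a ∈ Z1 ρV L) (hb : b ∈ Z1 ρW L) : cupC11 ρW B a b ∈ Z2 ρX L := by
  rw [mem_Z1] at ha hb
  rw [mem_Z2]
  refine ⟨fun g h j => ?_, cupC11_isLC₂ hW ha.2 hb.2⟩
  simp only [cupC11_apply, ha.1 g h, hb.1 h j, map_add, LinearMap.add_apply, hB.map, map_mul,
    Module.End.mul_apply]
  abel

/-- The cup product on the level of cocycles in degree `(1,1)`. -/
def cupZ11 (hB : IsPairing ρV ρW ρX B) (hW : Smooth L ρW) :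
    Z1 ρV L →ₗ[k] Z1 ρW L →ₗ[k] Z2 ρX L :=
  LinearMap.mk₂ k (fun a b => ⟨cupC11 ρW B a.1 b.1, cupC11_mem_Z2 hB hW a.2 b.2⟩)
    (fun a a' b => Subtype.ext (funext fun p => by simp))
    (fun c a b => Subtype.ext (funext fun p => by simp))
    (fun a b b' => Subtype.ext (funext fun p => by simp))
    (fun c a b => Subtype.ext (funext fun p => by simp))

@[simp] theorem cupZ11_apply_coe (hB : IsPairing ρV ρW ρX B) (hW : Smooth L ρW) (a : Z1 ρV L)
    (b : Z1 ρW L) : (cupZ11 hB hW a b).1 = cupC11 ρW B a.1 b.1 := rfl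

/-- `d0 v ∪ b = d (g ↦ B v (b g))` for a cocycle `b`. -/
theorem cupC11_d0_left (hB : IsPairing ρV ρW ρX B) (v : V) {b : G → W}
    (hb : b ∈ Z1 ρW L) : cupC11 ρW B (d0 ρV v) b = d1 ρX (fun g => B v (b g)) := by
  rw [mem_Z1] at hb
  funext p
  simp only [cupC11_apply, d0_apply, d1_apply, map_sub, LinearMap.sub_apply, hB.map, hb.1,
    map_add]
  abel

/-- `a ∪ d0 w = - d (g ↦ B (a g) (g w))` for a cocycle `a`. -/
theorem cupC11_d0_right (hB : IsPairing ρV ρW ρX B) {a : G → V} (ha : a ∈ Z1 ρV L) (w : W) :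
    cupC11 ρW B a (d0 ρW w) = - d1 ρX (fun g => B (a g) (ρW g w)) := by
  rw [mem_Z1] at ha
  funext p
  simp only [cupC11_apply, d0_apply, d1_apply, map_sub, Pi.neg_apply, ha.1, map_add,
    LinearMap.add_apply, hB.map, map_mul, Module.End.mul_apply]
  abel

/-- The cup product in degree `(1,1)`. -/
def cup11 (hB : IsPairing ρV ρW ρX B) (hW : Smooth L ρW) :
    H1 ρV L →ₗ[k] H1 ρW L →ₗ[k] H2 ρX L :=
  liftQ₂ _ _ ((cupZ11 hB hW).compr₂ (H2.mk ρX L))
    (by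
      rintro a ha b
      obtain ⟨v, hv⟩ := (mem_B1 ρV).mp (Submodule.mem_comap.mp ha)
      have ha' : a.1 = d0 ρV v := funext fun g => hv g
      refine H2.mk_eq_zero_iff.mpr ⟨fun g => B v (b.1 g), ?_, ?_⟩
      · exact ((mem_Z1 _ _).mp b.2).2.comp fun w => B v w
      · rw [cupZ11_apply_coe, ha']
        exact (cupC11_d0_left hB v b.2).symm)
    (by
      rintro b hb a
      obtain ⟨w, hw⟩ := (mem_B1 ρW).mp (Submodule.mem_comap.mp hb)
      have hb' : b.1 = d0 ρW w := funext fun g => hw g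
      refine H2.mk_eq_zero_iff.mpr ⟨- fun g => B (a.1 g) (ρW g w), ?_, ?_⟩
      · exact ((((mem_Z1 _ _).mp a.2).2.prod (hW.isLC₁_apply w)).comp fun q => B q.1 q.2).comp
          fun x => -x
      · rw [cupZ11_apply_coe, hb', map_neg]
        exact (cupC11_d0_right hB a.2 w).symm)

@[simp] theorem cup11_mk (hB : IsPairing ρV ρW ρX B) (hW : Smooth L ρW) (a : Z1 ρV L)
    (b : Z1 ρW L) : cup11 hB hW (H1.mk ρV L a) (H1.mk ρW L b) = H2.mk ρX L (cupZ11 hB hW a b) :=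
  rfl

/-! ### degree `(0,2)` -/

theorem cup02_aux (hB : IsPairing ρV ρW ρX B) {v : V} (hv : v ∈ H0 ρV) {c : G × G → W}
    (hc : c ∈ Z2 ρW L) : (fun p => B v (c p)) ∈ Z2 ρX L := by
  rw [mem_Z2] at hc ⊢
  rw [mem_H0] at hv
  refine ⟨fun g h j => ?_, hc.2.comp fun w => B v w⟩
  rw [← hB g v, hv g, ← map_add, hc.1, map_add]

/-- The cup product on the level of cocycles in degree `(0,2)`. -/
def cupZ02 (hB : IsPairing ρV ρW ρX B) : H0 ρV →ₗ[k] Z2 ρW L →ₗ[k] Z2 ρX L :=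
  LinearMap.mk₂ k (fun v c => ⟨fun p => B v.1 (c.1 p), cup02_aux hB v.2 c.2⟩)
    (fun a a' b => Subtype.ext (funext fun p => by simp))
    (fun c a b => Subtype.ext (funext fun p => by simp))
    (fun a b b' => Subtype.ext (funext fun p => by simp))
    (fun c a b => Subtype.ext (funext fun p => by simp))

@[simp] theorem cupZ02_apply_coe (hB : IsPairing ρV ρW ρX B) (v : H0 ρV) (c : Z2 ρW L)
    (p : G × G) : (cupZ02 hB v c).1 p = B v.1 (c.1 p) := rfl

/-- The cup product in degree `(0,2)`. -/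
def cup02 (hB : IsPairing ρV ρW ρX B) (L : Lvl G) : H0 ρV →ₗ[k] H2 ρW L →ₗ[k] H2 ρX L :=
  (Submodule.liftQ _ (((cupZ02 (L := L) hB).compr₂ (H2.mk ρX L)).flip) (by
      intro c hc
      rw [LinearMap.mem_ker]
      ext v : 1
      obtain ⟨x, hx, hx'⟩ := (mem_B2 ρW L).mp (Submodule.mem_comap.mp hc)
      refine H2.mk_eq_zero_iff.mpr ⟨fun g => B v.1 (x g), hx.comp fun w => B v.1 w, ?_⟩
      funext p
      have hv := (mem_H0 ρV).mp v.2
      have h1 : c.1 p = d1 ρW x p := by rw [hx']; rfl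
      rw [cupZ02_apply_coe, h1, d1_apply, d1_apply, ← hB, hv, map_add, map_sub])).flip

@[simp] theorem cup02_mk (hB : IsPairing ρV ρW ρX B) (v : H0 ρV) (c : Z2 ρW L) :
    cup02 hB L v (H2.mk ρW L c) = H2.mk ρX L (cupZ02 hB v c) := rfl

/-! ### degree `(2,0)` -/

theorem cup20_aux (hB : IsPairing ρV ρW ρX B) {w : W} (hw : w ∈ H0 ρW) {c : G × G → V}
    (hc : c ∈ Z2 ρV L) : (fun p => B (c p) w) ∈ Z2 ρX L := cup02_aux hB.flip hw hc

/-- The cup product on the level of cocycles in degree `(2,0)`. -/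
def cupZ20 (hB : IsPairing ρV ρW ρX B) : Z2 ρV L →ₗ[k] H0 ρW →ₗ[k] Z2 ρX L :=
  (cupZ02 hB.flip).flip

@[simp] theorem cupZ20_apply_coe (hB : IsPairing ρV ρW ρX B) (c : Z2 ρV L) (w : H0 ρW)
    (p : G × G) : (cupZ20 hB c w).1 p = B (c.1 p) w.1 := rfl

/-- The cup product in degree `(2,0)`. -/
def cup20 (hB : IsPairing ρV ρW ρX B) (L : Lvl G) : H2 ρV L →ₗ[k] H0 ρW →ₗ[k] H2 ρX L :=
  (cup02 hB.flip L).flip

@[simp] theorem cup20_mk (hB : IsPairing ρV ρW ρX B) (w : H0 ρW) (c : Z2 ρV L) :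
    cup20 hB L (H2.mk ρV L c) w = H2.mk ρX L (cupZ20 hB c w) := rfl

theorem cup20_eq_flip (hB : IsPairing ρV ρW ρX B) (x : H2 ρV L) (w : H0 ρW) :
    cup20 hB L x w = cup02 hB.flip L w x := rfl

/-! ### degree `(0,1)` and `(1,0)` -/

theorem cup01_aux (hB : IsPairing ρV ρW ρX B) {v : V} (hv : v ∈ H0 ρV) {c : G → W}
    (hc : c ∈ Z1 ρW L) : (fun p => B v (c p)) ∈ Z1 ρX L := by
  rw [mem_Z1] at hc ⊢
  rw [mem_H0] at hv
  refine ⟨fun g h => ?_, hc.2.comp fun w => B v w⟩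
  rw [← hB g v, hv g, ← map_add, hc.1]

/-- The cup product on the level of cocycles in degree `(0,1)`. -/
def cupZ01 (hB : IsPairing ρV ρW ρX B) : H0 ρV →ₗ[k] Z1 ρW L →ₗ[k] Z1 ρX L :=
  LinearMap.mk₂ k (fun v c => ⟨fun p => B v.1 (c.1 p), cup01_aux hB v.2 c.2⟩)
    (fun a a' b => Subtype.ext (funext fun p => by simp))
    (fun c a b => Subtype.ext (funext fun p => by simp))
    (fun a b b' => Subtype.ext (funext fun p => by simp))
    (fun c a b => Subtype.ext (funext fun p => by simp))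

@[simp] theorem cupZ01_apply_coe (hB : IsPairing ρV ρW ρX B) (v : H0 ρV) (c : Z1 ρW L)
    (p : G) : (cupZ01 hB v c).1 p = B v.1 (c.1 p) := rfl

/-- The cup product in degree `(0,1)`. -/
def cup01 (hB : IsPairing ρV ρW ρX B) (L : Lvl G) : H0 ρV →ₗ[k] H1 ρW L →ₗ[k] H1 ρX L :=
  (Submodule.liftQ _ (((cupZ01 (L := L) hB).compr₂ (H1.mk ρX L)).flip) (by
      intro c hc
      rw [LinearMap.mem_ker]
      ext v : 1
      obtain ⟨x, hx⟩ := (mem_B1 ρW).mp (Submodule.mem_comap.mp hc)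
      refine H1.mk_eq_zero_iff.mpr ⟨B v.1 x, fun g => ?_⟩
      have hv := (mem_H0 ρV).mp v.2
      have h1 : c.1 g = ρW g x - x := hx g
      rw [cupZ01_apply_coe, h1, ← hB, hv, map_sub])).flip

@[simp] theorem cup01_mk (hB : IsPairing ρV ρW ρX B) (v : H0 ρV) (c : Z1 ρW L) :
    cup01 hB L v (H1.mk ρW L c) = H1.mk ρX L (cupZ01 hB v c) := rfl

/-- The cup product in degree `(1,0)`. -/
def cup10 (hB : IsPairing ρV ρW ρX B) (L : Lvl G) : H1 ρV L →ₗ[k] H0 ρW →ₗ[k] H1 ρX L :=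
  (cup01 hB.flip L).flip

/-- The cup product on the level of cocycles in degree `(1,0)`. -/
def cupZ10 (hB : IsPairing ρV ρW ρX B) : Z1 ρV L →ₗ[k] H0 ρW →ₗ[k] Z1 ρX L :=
  (cupZ01 hB.flip).flip

@[simp] theorem cupZ10_apply_coe (hB : IsPairing ρV ρW ρX B) (c : Z1 ρV L) (w : H0 ρW)
    (p : G) : (cupZ10 hB c w).1 p = B (c.1 p) w.1 := rfl

@[simp] theorem cup10_mk (hB : IsPairing ρV ρW ρX B) (w : H0 ρW) (c : Z1 ρV L) :
    cup10 hB L (H1.mk ρV L c) w = H1.mk ρX L (cupZ10 hB c w) := rfl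

/-! ### Graded commutativity -/

theorem cupC11_comm (hB : IsPairing ρV ρW ρX B) {a : G → V} {b : G → W}
    (ha : a ∈ Z1 ρV L) (hb : b ∈ Z1 ρW L) :
    cupC11 ρW B a b + cupC11 ρV B.flip b a = d1 ρX (-fun g => B (a g) (b g)) := by
  rw [mem_Z1] at ha hb
  funext p
  simp only [cupC11_apply, Pi.add_apply, map_neg, Pi.neg_apply, d1_apply, LinearMap.flip_apply,
    ha.1, hb.1, map_add, LinearMap.add_apply, hB.map]
  abel

theorem cup11_comm (hB : IsPairing ρV ρW ρX B) (hV : Smooth L ρV) (hW : Smooth L ρW)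
    (x : H1 ρV L) (y : H1 ρW L) : cup11 hB hW x y = - cup11 hB.flip hV y x := by
  obtain ⟨a, rfl⟩ := H1.mk_surjective x
  obtain ⟨b, rfl⟩ := H1.mk_surjective y
  rw [← add_eq_zero_iff_eq_neg, cup11_mk, cup11_mk, ← map_add]
  refine H2.mk_eq_zero_iff.mpr ⟨-fun g => B (a.1 g) (b.1 g), ?_, ?_⟩
  · exact ((((mem_Z1 _ _).mp a.2).2.prod ((mem_Z1 _ _).mp b.2).2).comp
      fun q => B q.1 q.2).comp fun x => -x
  · exact (cupC11_comm hB a.2 b.2).symm

end Cup

/-! ### Compatibility with connecting homomorphisms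

`0 → A → B → C → 0` and `0 → C' → B' → A' → 0` are "adjoint" exact sequences for pairings
`A × A' → X`, `B × B' → X`, `C × C' → X`. -/

section Delta

variable {k : Type*} [CommRing k] {G : Type*} [Group G] {L : Lvl G}
variable {A B C A' B' C' X : Type*} [AddCommGroup A] [Module k A] [AddCommGroup B] [Module k B]
  [AddCommGroup C] [Module k C] [AddCommGroup A'] [Module k A'] [AddCommGroup B'] [Module k B']
  [AddCommGroup C'] [Module k C'] [AddCommGroup X] [Module k X]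
  {ρA : Representation k G A} {ρB : Representation k G B} {ρC : Representation k G C}
  {ρA' : Representation k G A'} {ρB' : Representation k G B'} {ρC' : Representation k G C'}
  {ρX : Representation k G X}
  {PA : A →ₗ[k] A' →ₗ[k] X} {PB : B →ₗ[k] B' →ₗ[k] X} {PC : C →ₗ[k] C' →ₗ[k] X}
  (hPA : IsPairing ρA ρA' ρX PA) (hPB : IsPairing ρB ρB' ρX PB) (hPC : IsPairing ρC ρC' ρX PC)
  {i : A →ₗ[k] B} {q : B →ₗ[k] C} {i' : C' →ₗ[k] B'} {q' : B' →ₗ[k] A'}

include hPB in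
/-- `δ⁰ w ∪ y = - w ∪ δ¹ y` for `w ∈ H⁰(C)`, `y ∈ H¹(A')`. -/
theorem cup_delta_01 (hA' : Smooth L ρA')
    (hadj1 : ∀ a b', PB (i a) b' = PA a (q' b')) (hadj2 : ∀ b c', PC (q b) c' = PB b (i' c'))
    (hq' : ∀ g b', q' (ρB' g b') = ρA' g (q' b'))
    {w : B} (hw : q w ∈ H0 ρC) (a : Z1 ρA L) (ha : ∀ g, i (a.1 g) = d0 ρB w g)
    {y : G → B'} (hy : IsLC₁ L y) (y' : Z1 ρA' L) (hy' : ∀ g, y'.1 g = q' (y g))
    (z : Z2 ρC' L) (hz : ∀ p, i' (z.1 p) = d1 ρB' y p) :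
    cup11 hPA hA' (H1.mk ρA L a) (H1.mk ρA' L y') +
      cup02 hPC L ⟨q w, hw⟩ (H2.mk ρC' L z) = 0 := by
  rw [cup11_mk, cup02_mk, ← map_add]
  refine H2.mk_eq_zero_iff.mpr ⟨fun g => PB w (y g), hy.comp fun b => PB w b, ?_⟩
  funext p
  show _ = PA (a.1 p.1) (ρA' p.1 (y'.1 p.2)) + PC (q w) (z.1 p)
  rw [hy', ← hq', ← hadj1, ha, hadj2, hz, d1_apply, d1_apply, d0_apply, map_sub,
    LinearMap.sub_apply, hPB, map_add, map_sub]
  abel

include hPB in
/-- `δ¹ x ∪ z = x ∪ δ⁰ z` for `x ∈ H¹(C)`, `z ∈ H⁰(A')`. -/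
theorem cup_delta_10 (hC' : Smooth L ρC') (hB' : Smooth L ρB')
    (hadj1 : ∀ a b', PB (i a) b' = PA a (q' b')) (hadj2 : ∀ b c', PC (q b) c' = PB b (i' c'))
    (hq' : ∀ g b', q' (ρB' g b') = ρA' g (q' b'))
    (hi' : ∀ g c', i' (ρC' g c') = ρB' g (i' c'))
    {x : G → B} (hx : IsLC₁ L x) (x' : Z1 ρC L) (hx' : ∀ g, x'.1 g = q (x g))
    (c : Z2 ρA L) (hc : ∀ p, i (c.1 p) = d1 ρB x p)
    {w : B'} (hw : q' w ∈ H0 ρA') (z : Z1 ρC' L) (hz : ∀ g, i' (z.1 g) = d0 ρB' w g) :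
    cup20 hPA L (H2.mk ρA L c) ⟨q' w, hw⟩ =
      cup11 hPC hC' (H1.mk ρC L x') (H1.mk ρC' L z) := by
  rw [← sub_eq_zero, cup11_mk, cup20_mk, ← map_sub]
  refine H2.mk_eq_zero_iff.mpr ⟨fun g => PB (x g) (ρB' g w), ?_, ?_⟩
  · exact (hx.prod (hB'.isLC₁_apply w)).comp fun q => PB q.1 q.2
  funext p
  show _ = PA (c.1 p) (q' w) - PC (x'.1 p.1) (ρC' p.1 (z.1 p.2))
  have h1 : q' w = q' (ρB' (p.1 * p.2) w) := by rw [hq', (mem_H0 _).mp hw]
  rw [h1, ← hadj1, hc, hx', hadj2, hi', hz]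
  simp only [d1_apply, d0_apply, map_sub, map_add, LinearMap.sub_apply, LinearMap.add_apply,
    map_mul, Module.End.mul_apply, hPB.map]
  abel

end Delta

end Fermat.Agent.CFT.LC
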