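import Fermat.Agent.CFT.LC.Levels

/-!
# Openness criteria

* an open subgroup of a Galois group is the fixing subgroup of its fixed field;
* `U` is open for `unram S` iff it is open and contains all inertia groups outside `S`;
* the kernel of the mod `p` cyclotomic character is open for `unram S` if `p ∈ S`.
-/

set_option autoImplicit false

open ExtCitation

namespace Fermat.Agent.CFT.LC

section Krull

variable {K Ω : Type*} [Field K] [Field Ω] [Algebra K Ω] [IsGalois K Ω]

theorem isOpen_coe_iff {U : Subgroup (Ω ≃ₐ[K] Ω)} :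
    (krull K Ω).IsOpen U ↔ IsOpen (U : Set (Ω ≃ₐ[K] Ω)) := by
  rw [isOpen_krull_iff]
  constructor
  · rintro ⟨F, hF, h⟩
    have : FiniteDimensional K F := hF
    exact Subgroup.isOpen_mono h F.fixingSubgroup_isOpen
  · intro h
    obtain ⟨F, hF, h⟩ := (krullTopology_mem_nhds_one_iff K Ω _).mp (h.mem_nhds U.one_mem)
    exact ⟨F, hF, h⟩

/-- An open subgroup is the fixing subgroup of its fixed field. -/
theorem fixingSubgroup_fixedField_of_isOpen {U : Subgroup (Ω ≃ₐ[K] Ω)}
    (hU : (krull K Ω).IsOpen U) : (IntermediateField.fixedField U).fixingSubgroup = U :=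
  InfiniteGalois.fixingSubgroup_fixedField
    ⟨U, Subgroup.isClosed_of_isOpen U (isOpen_coe_iff.mp hU)⟩

/-- The fixed field of an open subgroup is finite. -/
theorem isFin_fixedField {U : Subgroup (Ω ≃ₐ[K] Ω)}
    (hU : (krull K Ω).IsOpen U) : IsFin (IntermediateField.fixedField U) := by
  obtain ⟨F, hF, h⟩ := isOpen_krull_iff.mp hU
  have : FiniteDimensional K F := hF
  have h1 : IntermediateField.fixedField U ≤ F := by
    rw [← InfiniteGalois.fixedField_fixingSubgroup F]
    exact IntermediateField.fixedField_antitone h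
  exact FiniteDimensional.of_injective (IntermediateField.inclusion h1).toLinearMap
      (IntermediateField.inclusion_injective h1)

/-- A normal open subgroup has normal fixed field. -/
theorem isNorm_fixedField {U : Subgroup (Ω ≃ₐ[K] Ω)}
    (hU : (krull K Ω).IsOpen U) (hn : U.Normal) : IsNorm (IntermediateField.fixedField U) := by
  have h1 := fixingSubgroup_fixedField_of_isOpen hU
  have h2 : (IntermediateField.fixedField U).fixingSubgroup.Normal := by rwa [h1]
  have := (InfiniteGalois.normal_iff_isGalois (IntermediateField.fixedField U)).mp h2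
  exact inferInstanceAs (Normal K (IntermediateField.fixedField U))

end Krull

section Unram

local notation "ℚbar" => AlgebraicClosure ℚ
local notation "ΓQ" => (AlgebraicClosure ℚ ≃ₐ[ℚ] AlgebraicClosure ℚ)

/-- Openness for the `S`-levels: open and containing all inertia groups outside `S`. -/
theorem isOpen_unram_iff_inertia {S : Finset Nat.Primes} {U : Subgroup ΓQ} :
    (unram S).IsOpen U ↔ (krull ℚ ℚbar).IsOpen U ∧
      ∀ q : Nat.Primes, q ∉ S → ∀ A : ValuationSubring ℚbar,
        A.LiesOverPrime (q : ℕ) → A.inertiaSubgroupIn ℚ ≤ U := by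
  constructor
  · rintro ⟨_, ⟨F, hF, hF', rfl⟩, h⟩
    exact ⟨⟨_, ⟨F, hF.1, hF', rfl⟩, h⟩, fun q hq A hA => (hF.2 q hq A hA).trans h⟩
  · rintro ⟨hU, h⟩
    rw [isOpen_unram_iff]
    refine ⟨IntermediateField.fixedField U, ⟨isFin_fixedField hU, fun q hq A hA => ?_⟩, ?_⟩
    · rw [fixingSubgroup_fixedField_of_isOpen hU]
      exact h q hq A hA
    · rw [fixingSubgroup_fixedField_of_isOpen hU]

/-- Smoothness for the `S`-levels of a finite-dimensional representation over a finite field. -/
theorem smooth_unram {S : Finset Nat.Primes} {k : Type*} [CommRing k] {V : Type*}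
    [AddCommGroup V] [Module k V] {ρ : Representation k ΓQ V}
    (hsm : ∀ m : V, ∃ F : IntermediateField ℚ ℚbar, FiniteDimensional ℚ F ∧
      ∀ s ∈ F.fixingSubgroup, ρ s m = m)
    (hur : ∀ q : Nat.Primes, q ∉ S → ∀ A : ValuationSubring ℚbar,
      A.LiesOverPrime (q : ℕ) → ∀ g ∈ A.inertiaSubgroupIn ℚ, ρ g = 1) :
    Smooth (unram S) ρ := by
  intro v
  let U : Subgroup ΓQ :=
    { carrier := {g | ρ g v = v}
      one_mem' := by simp
      mul_mem' := by
        intro a b ha hb
        simp only [Set.mem_ofPred_eq] at ha hb ⊢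
        rw [map_mul, Module.End.mul_apply, hb, ha]
      inv_mem' := by
        intro a ha
        simp only [Set.mem_ofPred_eq] at ha ⊢
        conv_lhs => rw [← ha]
        rw [← Module.End.mul_apply, ← map_mul, inv_mul_cancel, map_one, Module.End.one_apply] }
  have hU : (unram S).IsOpen U := by
    rw [isOpen_unram_iff_inertia]
    refine ⟨?_, fun q hq A hA g hg => ?_⟩
    · obtain ⟨F, hF, h⟩ := hsm v
      exact isOpen_krull_iff.mpr ⟨F, hF, h⟩
    · show ρ g v = v
      rw [hur q hq A hA g hg]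
      rfl
  obtain ⟨N, hN, h⟩ := hU
  exact ⟨N, hN, h⟩

/-- The kernel of the mod `p` cyclotomic character is open. -/
theorem isOpen_ker_cycloChar {p : ℕ} [Fact p.Prime] :
    (krull ℚ ℚbar).IsOpen (cycloChar p).ker := by
  have : NeZero p := ⟨(Fact.out : p.Prime).ne_zero⟩
  have : NeZero (p : ℚbar) := ⟨Nat.cast_ne_zero.mpr (Fact.out : p.Prime).ne_zero⟩
  rw [isOpen_krull_iff]
  obtain ⟨ζ, hζ⟩ := HasEnoughRootsOfUnity.exists_primitiveRoot ℚbar p
  refine ⟨IntermediateField.adjoin ℚ {ζ}, ?_, fun g hg => ?_⟩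
  · exact IntermediateField.adjoin.finiteDimensional (Algebra.IsIntegral.isIntegral ζ)
  · rw [MonoidHom.mem_ker]
    have h1 : g ζ = ζ := (IntermediateField.mem_fixingSubgroup_iff _ _).mp hg ζ
      (IntermediateField.mem_adjoin_simple_self ℚ ζ)
    have h2 := modularCyclotomicCharacter.spec ℚbar (card_rootsOfUnity_eq_self p)
      (g : ℚbar ≃+* ℚbar) (t := hζ.toRootsOfUnity.1) hζ.toRootsOfUnity.2
    have h3 : ζ = ζ ^ ((cycloChar p g : ZMod p)).val := by
      have h4 : g ζ = ζ ^ ((cycloChar p g : ZMod p)).val := h2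
      rwa [h1] at h4
    have h4 : ((cycloChar p g : ZMod p)).val = 1 := by
      have h5 := hζ.pow_inj (i := 1) (j := ((cycloChar p g : ZMod p)).val)
        (Fact.out : p.Prime).one_lt (ZMod.val_lt _) (by rw [pow_one]; exact h3)
      exact h5.symm
    apply Units.ext
    rw [Units.val_one]
    apply ZMod.val_injective p
    rw [h4, ZMod.val_one]

/-- Inertia at `q ≠ p` acts trivially on `p`-th roots of unity. -/
theorem inertia_le_ker_cycloChar {p : ℕ} [Fact p.Prime] {q : Nat.Primes} (hq : (q : ℕ) ≠ p)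
    {A : ValuationSubring ℚbar} (hA : A.LiesOverPrime (q : ℕ)) :
    A.inertiaSubgroupIn ℚ ≤ (cycloChar p).ker := by
  have : NeZero p := ⟨(Fact.out : p.Prime).ne_zero⟩
  have : NeZero (p : ℚbar) := ⟨Nat.cast_ne_zero.mpr (Fact.out : p.Prime).ne_zero⟩
  intro g hg
  rw [MonoidHom.mem_ker]
  obtain ⟨ζ, hζ⟩ := HasEnoughRootsOfUnity.exists_primitiveRoot ℚbar p
  have hζA : ζ ∈ A := by
    rw [← A.valuation_le_one_iff]
    have h1 : A.valuation ζ ^ p = 1 := by rw [← map_pow, hζ.pow_eq_one, map_one]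
    exact (pow_le_one_iff_of_nonneg zero_le (NeZero.ne p)).mp h1.le
  have h1 := ((Fermat.Agent.TWP.Place.mem_inertiaSubgroupIn_iff A g).mp hg).2 ζ hζA
  have h2 := modularCyclotomicCharacter.spec ℚbar (card_rootsOfUnity_eq_self p)
      (g : ℚbar ≃+* ℚbar) (t := hζ.toRootsOfUnity.1) hζ.toRootsOfUnity.2
  have h3 : g ζ = ζ ^ ((cycloChar p g : ZMod p)).val := h2
  by_contra hne
  have hval : ((cycloChar p g : ZMod p)).val ≠ 1 := by
    intro h4
    apply hne
    apply Units.ext
    rw [Units.val_one]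
    apply ZMod.val_injective p
    rw [h4, ZMod.val_one]
  -- `ζ^j ≠ ζ`
  set j := ((cycloChar p g : ZMod p)).val with hj
  have hjlt : j < p := ZMod.val_lt _
  have hj0 : j ≠ 0 := by
    intro h0
    have : (cycloChar p g : ZMod p) = 0 := (ZMod.val_eq_zero _).mp h0
    exact (cycloChar p g).ne_zero this
  have hj2 : 2 ≤ j := by omega
  -- `ζ^j - ζ = ζ (ζ^(j-1) - 1)`
  have h5 : ζ ^ j - ζ = ζ * (ζ ^ (j - 1) - 1) := by
    rw [mul_sub, mul_one, ← pow_succ', Nat.sub_add_cancel (by omega)]
  have hprim : IsPrimitiveRoot (ζ ^ (j - 1)) p :=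
    hζ.pow_of_coprime _ ((Nat.Coprime.symm ((Nat.Prime.coprime_iff_not_dvd Fact.out).mpr
      (fun hdvd => by have := Nat.le_of_dvd (by omega) hdvd; omega))))
  have hvζ : A.valuation ζ = 1 := by
    have h1 : A.valuation ζ ^ p = 1 := by rw [← map_pow, hζ.pow_eq_one, map_one]
    exact (pow_eq_one_iff.mp h1).resolve_right (NeZero.ne p)
  have h6 : A.valuation (ζ ^ (j - 1) - 1) < 1 := by
    rwa [h3, h5, ValuationSubring.mem_nonunits_iff, map_mul, hvζ, one_mul] at h1
  have hvζ' : A.valuation (ζ ^ (j - 1)) ≤ 1 := by rw [map_pow, hvζ, one_pow]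
  have h7 : ∀ i : ℕ, A.valuation (1 - (ζ ^ (j - 1)) ^ i) < 1 := by
    intro i
    have h8 : 1 - (ζ ^ (j - 1)) ^ i =
        -((ζ ^ (j - 1) - 1) * ∑ m ∈ Finset.range i, (ζ ^ (j - 1)) ^ m) := by
      rw [mul_comm, geom_sum_mul]
      ring
    rw [h8, Valuation.map_neg, map_mul]
    refine mul_lt_one_of_lt_of_le h6 (A.valuation.map_sum_le fun m _ => ?_)
    rw [map_pow]
    exact pow_le_one' hvζ' m
  have h8 : A.valuation (p : ℚbar) < 1 := by
    have h9 : (p : ℚbar) = ∑ i ∈ Finset.range p, (1 - (ζ ^ (j - 1)) ^ i) := by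
      rw [Finset.sum_sub_distrib, hprim.geom_sum_eq_zero (Fact.out : p.Prime).one_lt]
      simp
    rw [h9]
    exact A.valuation.map_sum_lt one_ne_zero fun i _ => h7 i
  have h9 : A.valuation ((q : ℕ) : ℚbar) < 1 := A.mem_nonunits_iff.mp hA
  have hcop : IsCoprime (p : ℤ) ((q : ℕ) : ℤ) :=
    Nat.isCoprime_iff_coprime.mpr ((Nat.coprime_primes Fact.out q.2).mpr (Ne.symm hq))
  obtain ⟨a, b, hab⟩ := hcop
  have h10 : (1 : ℚbar) = (a : ℚbar) * (p : ℚbar) + (b : ℚbar) * ((q : ℕ) : ℚbar) := by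
    have := congrArg (Int.cast : ℤ → ℚbar) hab
    push_cast at this
    exact this.symm
  have hint : ∀ n : ℤ, A.valuation (n : ℚbar) ≤ 1 := fun n =>
    (A.valuation_le_one_iff _).mpr (intCast_mem A n)
  have h11 : A.valuation (1 : ℚbar) < 1 := by
    rw [h10]
    refine A.valuation.map_add_lt ?_ ?_
    · rw [map_mul, mul_comm]
      exact mul_lt_one_of_lt_of_le h8 (hint a)
    · rw [map_mul, mul_comm]
      exact mul_lt_one_of_lt_of_le h9 (hint b)
  rw [map_one] at h11
  exact lt_irrefl _ h11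

/-- The kernel of the mod `p` cyclotomic character is open for the `S`-levels if `p ∈ S`. -/
theorem isOpen_unram_ker_cycloChar {p : ℕ} [Fact p.Prime] {S : Finset Nat.Primes}
    (hpS : pPrime p ∈ S) : (unram S).IsOpen (cycloChar p).ker := by
  rw [isOpen_unram_iff_inertia]
  refine ⟨isOpen_ker_cycloChar, fun q hq A hA => inertia_le_ker_cycloChar ?_ hA⟩
  intro h
  apply hq
  have : q = pPrime p := Subtype.ext h
  rwa [this]

end Unram

end Fermat.Agent.CFT.LC
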