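import Fermat.Agent.CFT.LC.LES

/-!
# Permutation-type induced modules, Shapiro's lemma, corestriction

For `π : G →* Equiv.Perm X` and a representation `ρ` of `G` on `V`, `funRep π ρ` is the
representation of `G` on `X → V` given by `(g f) x = ρ g (f ((π g)⁻¹ x))`.
-/

set_option autoImplicit false

namespace Fermat.Agent.CFT.LC

variable {k : Type*} [CommRing k] {G H : Type*} [Group G] [Group H]
variable {V W : Type*} [AddCommGroup V] [Module k V] [AddCommGroup W] [Module k W]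
variable {X Y : Type*}

/-- the representation on functions `X → V` -/
def funRep (π : G →* Equiv.Perm X) (ρ : Representation k G V) : Representation k G (X → V) where
  toFun g :=
    { toFun := fun f x => ρ g (f ((π g)⁻¹ x))
      map_add' := fun f f' => by ext x; simp
      map_smul' := fun c f => by ext x; simp }
  map_one' := by
    ext f x
    simp
  map_mul' g h := by
    refine LinearMap.ext fun f => ?_
    ext x
    simp [mul_inv_rev, Equiv.Perm.mul_apply]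

@[simp] theorem funRep_apply (π : G →* Equiv.Perm X) (ρ : Representation k G V) (g : G) (f : X → V)
    (x : X) : funRep π ρ g f x = ρ g (f ((π g)⁻¹ x)) := rfl

theorem funRep_comp (π : G →* Equiv.Perm X) (ρ : Representation k G V) (r : H →* G) :
    (funRep π ρ).comp r = funRep (π.comp r) (ρ.comp r) := rfl

/-- the stabiliser of a point -/
def stab (π : G →* Equiv.Perm X) (x₀ : X) : Subgroup G :=
  (MulAction.stabilizer (Equiv.Perm X) x₀).comap π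

theorem mem_stab {π : G →* Equiv.Perm X} {x₀ : X} {g : G} : g ∈ stab π x₀ ↔ π g x₀ = x₀ := Iff.rfl

theorem ker_le_stab (π : G →* Equiv.Perm X) (x₀ : X) : π.ker ≤ stab π x₀ := by
  intro g hg
  rw [mem_stab, MonoidHom.mem_ker.mp hg]
  rfl

variable {L : Lvl G} {π : G →* Equiv.Perm X} {ρ : Representation k G V}

theorem smooth_funRep [Finite X] (hπ : L.IsOpen π.ker) (hρ : Smooth L ρ) :
    Smooth L (funRep π ρ) := by
  intro f
  obtain ⟨N, hN, h1⟩ := hρ.exists_level_of_finite (Set.finite_range f)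
  obtain ⟨N', hN', h2⟩ := hπ
  obtain ⟨W, hW, h3, h4⟩ := L.directed N hN N' hN'
  refine ⟨W, hW, fun g hg => ?_⟩
  ext x
  have h5 : π g = 1 := MonoidHom.mem_ker.mp (h2 (h4 hg))
  rw [funRep_apply, h5, inv_one]
  exact h1 g (h3 hg) _ ⟨x, rfl⟩

/-- The Shapiro morphism: restriction to the stabiliser of `x₀` and evaluation at `x₀`. -/
def shMor (π : G →* Equiv.Perm X) (ρ : Representation k G V) (L : Lvl G) (x₀ : X) :
    Mor (funRep π ρ) L (ρ.comp (stab π x₀).subtype) (L.restrict (stab π x₀)) where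
  f := (stab π x₀).subtype
  φ := LinearMap.proj x₀
  cont := L.cont_comap _
  comm h v := by
    have h1 : (π (h : G))⁻¹ x₀ = x₀ := by
      rw [Equiv.Perm.inv_eq_iff_eq]
      exact (mem_stab.mp h.2).symm
    simp [h1]

@[simp] theorem shMor_f (x₀ : X) : (shMor π ρ L x₀).f = (stab π x₀).subtype := rfl

@[simp] theorem shMor_φ (x₀ : X) (f : X → V) : (shMor π ρ L x₀).φ f = f x₀ := rfl

section Section

variable (π)

/-- A section of the orbit map. -/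
structure Sec (x₀ : X) where
  /-- the section -/
  t : X → G
  spec : ∀ x, π (t x) x₀ = x
  one : t x₀ = 1

theorem Sec.exists {x₀ : X} (h : ∀ x, ∃ g, π g x₀ = x) : Nonempty (Sec π x₀) := by
  classical
  choose t ht using h
  refine ⟨⟨fun x => if x = x₀ then 1 else t x, fun x => ?_, by simp⟩⟩
  by_cases hx : x = x₀
  · simp [hx]
  · simp [hx, ht]

variable {π} {x₀ : X} (s : Sec π x₀)

/-- the `U`-component of `g` at `x` -/
def Sec.u (g : G) (x : X) : stab π x₀ :=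
  ⟨(s.t x)⁻¹ * g * s.t ((π g)⁻¹ x), by
    rw [mem_stab, map_mul, map_mul, Equiv.Perm.mul_apply, Equiv.Perm.mul_apply, s.spec,
      map_inv, Equiv.Perm.inv_eq_iff_eq, s.spec, ← Equiv.Perm.mul_apply, mul_inv_cancel,
      Equiv.Perm.one_apply]⟩

theorem Sec.coe_u (g : G) (x : X) : (s.u g x : G) = (s.t x)⁻¹ * g * s.t ((π g)⁻¹ x) := rfl

theorem Sec.t_mul_u (g : G) (x : X) : s.t x * s.u g x = g * s.t ((π g)⁻¹ x) := by
  rw [s.coe_u]
  group

theorem Sec.u_mul (g h : G) (x : X) : s.u (g * h) x = s.u g x * s.u h ((π g)⁻¹ x) := by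
  apply Subtype.ext
  rw [Subgroup.coe_mul, s.coe_u, s.coe_u, s.coe_u, map_mul, mul_inv_rev, Equiv.Perm.mul_apply]
  group

theorem Sec.u_self (g : stab π x₀) : s.u g x₀ = g := by
  apply Subtype.ext
  have h1 : (π (g : G))⁻¹ x₀ = x₀ := by
    rw [Equiv.Perm.inv_eq_iff_eq]
    exact (mem_stab.mp g.2).symm
  rw [s.coe_u, h1, s.one]
  simp

/-- the cochain-level inverse of the Shapiro map in degree 1 -/
def Sec.c1 (c : stab π x₀ → V) (ρ : Representation k G V) : G → (X → V) :=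
  fun g x => ρ (s.t x) (c (s.u g x))

/-- the cochain-level inverse of the Shapiro map in degree 2 -/
def Sec.c2 (c : stab π x₀ × stab π x₀ → V) (ρ : Representation k G V) : G × G → (X → V) :=
  fun p x => ρ (s.t x) (c (s.u p.1 x, s.u p.2 ((π p.1)⁻¹ x)))

theorem Sec.d1_c1 (c : stab π x₀ → V) :
    d1 (funRep π ρ) (s.c1 c ρ) = s.c2 (d1 (ρ.comp (stab π x₀).subtype) c) ρ := by
  ext ⟨g, h⟩ x
  show ρ g (ρ (s.t ((π g)⁻¹ x)) (c (s.u h ((π g)⁻¹ x)))) - ρ (s.t x) (c (s.u (g * h) x)) +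
      ρ (s.t x) (c (s.u g x)) = ρ (s.t x) (ρ (s.u g x) (c (s.u h ((π g)⁻¹ x))) -
        c (s.u g x * s.u h ((π g)⁻¹ x)) + c (s.u g x))
  rw [s.u_mul, map_add, map_sub, ← Module.End.mul_apply, ← Module.End.mul_apply, ← map_mul,
    ← map_mul, s.t_mul_u]

theorem Sec.isLC₁_u (hπ : L.IsOpen π.ker) {Z : Type*} {c : stab π x₀ → Z}
    (hc : IsLC₁ (L.restrict (stab π x₀)) c) (x : X) : IsLC₁ L (fun g => c (s.u g x)) := by
  obtain ⟨_, ⟨N, hN, rfl⟩, h⟩ := hc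
  obtain ⟨N', hN', h2⟩ := hπ
  obtain ⟨W, hW, h3, h4⟩ := L.directed N hN N' hN'
  have hnorm := L.normal W hW
  refine ⟨W, hW, fun g r hr => ?_⟩
  have h5 : π r = 1 := MonoidHom.mem_ker.mp (h2 (h4 hr))
  have h6 : s.u r ((π g)⁻¹ x) ∈ N.comap (stab π x₀).subtype := by
    rw [Subgroup.mem_comap]
    show (s.t ((π g)⁻¹ x))⁻¹ * r * s.t ((π r)⁻¹ ((π g)⁻¹ x)) ∈ N
    rw [h5, inv_one, Equiv.Perm.one_apply]
    apply h3
    simpa using hnorm.conj_mem r hr (s.t ((π g)⁻¹ x))⁻¹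
  show c (s.u (g * r) x) = c (s.u g x)
  rw [s.u_mul]
  exact h _ _ h6

theorem isLC₁_pi [Finite X] {Z : Type*} {c : G → X → Z} (h : ∀ x, IsLC₁ L (fun g => c g x)) :
    IsLC₁ L c := by
  choose N hN h1 using h
  obtain ⟨W, hW, h2⟩ := L.exists_level_le_finite N hN
  exact ⟨W, hW, fun g s hs => funext fun x => h1 x g s (h2 x hs)⟩

theorem isLC₂_pi [Finite X] {Z : Type*} {c : G × G → X → Z} (h : ∀ x, IsLC₂ L (fun g => c g x)) :
    IsLC₂ L c := by
  choose N hN h1 using h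
  obtain ⟨W, hW, h2⟩ := L.exists_level_le_finite N hN
  exact ⟨W, hW, fun g g' s hs s' hs' => funext fun x => h1 x g g' s (h2 x hs) s' (h2 x hs')⟩

theorem Sec.isLC₁_c1 [Finite X] (hπ : L.IsOpen π.ker) {c : stab π x₀ → V}
    (hc : IsLC₁ (L.restrict (stab π x₀)) c) : IsLC₁ L (s.c1 c ρ) :=
  isLC₁_pi fun x => (s.isLC₁_u hπ hc x).comp (ρ (s.t x))

theorem isLC₁_perm_inv (hπ : L.IsOpen π.ker) (x : X) : IsLC₁ L (fun g => (π g)⁻¹ x) := by
  obtain ⟨N', hN', h2⟩ := hπ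
  have hnorm := L.normal N' hN'
  refine ⟨N', hN', fun g r hr => ?_⟩
  have h5 : π r = 1 := MonoidHom.mem_ker.mp (h2 hr)
  simp only [map_mul, h5, mul_one]

theorem Sec.isLC₂_c2 [Finite X] (hπ : L.IsOpen π.ker) {c : stab π x₀ × stab π x₀ → V}
    (hc : IsLC₂ (L.restrict (stab π x₀)) c) : IsLC₂ L (s.c2 c ρ) := by
  refine isLC₂_pi fun x => ?_
  have key : IsLC₂ L (fun p : G × G => c (s.u p.1 x, s.u p.2 ((π p.1)⁻¹ x))) := by
    obtain ⟨_, ⟨N, hN, rfl⟩, h⟩ := hc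
    obtain ⟨N', hN', h2⟩ := hπ
    obtain ⟨W, hW, h3, h4⟩ := L.directed N hN N' hN'
    have hnorm := L.normal W hW
    have aux : ∀ r ∈ W, ∀ y, s.u r y ∈ N.comap (stab π x₀).subtype := by
      intro r hr y
      have h5 : π r = 1 := MonoidHom.mem_ker.mp (h2 (h4 hr))
      rw [Subgroup.mem_comap]
      show (s.t y)⁻¹ * r * s.t ((π r)⁻¹ y) ∈ N
      rw [h5, inv_one, Equiv.Perm.one_apply]
      apply h3
      simpa using hnorm.conj_mem r hr (s.t y)⁻¹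
    refine ⟨W, hW, fun g g' r hr r' hr' => ?_⟩
    have h5 : π r = 1 := MonoidHom.mem_ker.mp (h2 (h4 hr))
    have h6 : (π (g * r))⁻¹ x = (π g)⁻¹ x := by rw [map_mul, h5, mul_one]
    show c (s.u (g * r) x, s.u (g' * r') ((π (g * r))⁻¹ x)) = c (s.u g x, s.u g' ((π g)⁻¹ x))
    rw [h6, s.u_mul, s.u_mul]
    exact h _ _ _ (aux r hr _) _ (aux r' hr' _)
  exact key.comp (ρ (s.t x))

theorem Sec.c1_mem_Z1 [Finite X] (hπ : L.IsOpen π.ker) {c : stab π x₀ → V}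
    (hc : c ∈ Z1 (ρ.comp (stab π x₀).subtype) (L.restrict (stab π x₀))) :
    s.c1 c ρ ∈ Z1 (funRep π ρ) L := by
  refine ⟨LinearMap.mem_ker.mpr ?_, s.isLC₁_c1 hπ hc.2⟩
  rw [s.d1_c1, LinearMap.mem_ker.mp hc.1]
  ext p x
  simp [Sec.c2]

theorem Sec.c2_mem_Z2 [Finite X] (hπ : L.IsOpen π.ker) {c : stab π x₀ × stab π x₀ → V}
    (hc : c ∈ Z2 (ρ.comp (stab π x₀).subtype) (L.restrict (stab π x₀))) :
    s.c2 c ρ ∈ Z2 (funRep π ρ) L := by
  rw [mem_Z2] at hc ⊢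
  refine ⟨fun g h j => ?_, s.isLC₂_c2 hπ hc.2⟩
  ext x
  show ρ (s.t x) (c (s.u (g * h) x, s.u j ((π (g * h))⁻¹ x))) +
      ρ (s.t x) (c (s.u g x, s.u h ((π g)⁻¹ x))) =
    ρ g (ρ (s.t ((π g)⁻¹ x)) (c (s.u h ((π g)⁻¹ x), s.u j ((π h)⁻¹ ((π g)⁻¹ x))))) +
      ρ (s.t x) (c (s.u g x, s.u (h * j) ((π g)⁻¹ x)))
  have h1 : (π (g * h))⁻¹ x = (π h)⁻¹ ((π g)⁻¹ x) := by
    rw [map_mul, mul_inv_rev, Equiv.Perm.mul_apply]
  have h2 := hc.1 (s.u g x) (s.u h ((π g)⁻¹ x)) (s.u j ((π h)⁻¹ ((π g)⁻¹ x)))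
  rw [h1, ← map_add, s.u_mul, s.u_mul, h2, map_add]
  congr 1
  rw [← Module.End.mul_apply (ρ g), ← map_mul, ← s.t_mul_u, map_mul]
  rfl

end Section

section Shapiro

variable [Finite X] (hπ : L.IsOpen π.ker) {x₀ : X} (hx₀ : ∀ x, ∃ g, π g x₀ = x)

include hx₀ in
omit [Finite X] in
theorem shapiro_H0_injective : Function.Injective (shMor π ρ L x₀).H0 := by
  obtain ⟨s⟩ := Sec.exists π hx₀
  rw [injective_iff_map_eq_zero]
  intro f hf
  have h0 : f.1 x₀ = 0 := congrArg Subtype.val hf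
  ext x
  have h1 := congrFun ((mem_H0 _).mp f.2 (s.t x)) x
  rw [← h1, funRep_apply]
  have h2 : (π (s.t x))⁻¹ x = x₀ := by
    rw [Equiv.Perm.inv_eq_iff_eq, s.spec]
  rw [h2, h0, map_zero]
  rfl

include hx₀ in
omit [Finite X] in
theorem shapiro_H0_surjective : Function.Surjective (shMor π ρ L x₀).H0 := by
  obtain ⟨s⟩ := Sec.exists π hx₀
  intro v
  refine ⟨⟨fun x => ρ (s.t x) v.1, ?_⟩, ?_⟩
  · rw [mem_H0]
    intro g
    ext x
    rw [funRep_apply, ← Module.End.mul_apply, ← map_mul, ← s.t_mul_u, map_mul,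
      Module.End.mul_apply]
    congr 1
    exact (mem_H0 _).mp v.2 (s.u g x)
  · apply Subtype.ext
    show ρ (s.t x₀) v.1 = v.1
    rw [s.one, map_one]
    rfl

include hx₀ in
omit [Finite X] in
theorem shapiro_H1_injective : Function.Injective (shMor π ρ L x₀).H1 := by
  obtain ⟨s⟩ := Sec.exists π hx₀
  rw [injective_iff_map_eq_zero]
  intro y hy
  obtain ⟨C, rfl⟩ := H1.mk_surjective y
  rw [Mor.H1_mk, H1.mk_eq_zero_iff] at hy
  obtain ⟨v, hv⟩ := hy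
  have hv' : ∀ g : stab π x₀, C.1 g x₀ = ρ g v - v := hv
  have hC := ((mem_Z1 _ _).mp C.2).1
  rw [H1.mk_eq_zero_iff]
  refine ⟨fun x => ρ (s.t x) v - C.1 (s.t x) x, fun g => ?_⟩
  ext x
  rw [Pi.sub_apply, funRep_apply]
  have h1 := congrFun (hC g (s.t ((π g)⁻¹ x))) x
  have h2 := congrFun (hC (s.t x) (s.u g x)) x
  rw [s.t_mul_u, h1] at h2
  simp only [Pi.add_apply, funRep_apply] at h2
  have h3 : (π (s.t x))⁻¹ x = x₀ := by
    rw [Equiv.Perm.inv_eq_iff_eq, s.spec]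
  rw [h3, hv', map_sub, ← Module.End.mul_apply, ← map_mul, s.t_mul_u, map_mul,
    Module.End.mul_apply] at h2
  rw [map_sub, ← sub_eq_zero]
  rw [← sub_eq_zero] at h2
  rw [← h2]
  abel

include hπ hx₀ in
theorem shapiro_H1_surjective : Function.Surjective (shMor π ρ L x₀).H1 := by
  obtain ⟨s⟩ := Sec.exists π hx₀
  intro y
  obtain ⟨c, rfl⟩ := H1.mk_surjective y
  refine ⟨H1.mk (funRep π ρ) L ⟨s.c1 c.1 ρ, s.c1_mem_Z1 hπ c.2⟩, ?_⟩
  rw [Mor.H1_mk]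
  congr 1
  ext g
  show ρ (s.t x₀) (c.1 (s.u g x₀)) = c.1 g
  rw [s.u_self, s.one, map_one]
  rfl

include hπ hx₀ in
theorem shapiro_H2_surjective : Function.Surjective (shMor π ρ L x₀).H2 := by
  obtain ⟨s⟩ := Sec.exists π hx₀
  intro y
  obtain ⟨c, rfl⟩ := H2.mk_surjective y
  refine ⟨H2.mk (funRep π ρ) L ⟨s.c2 c.1 ρ, s.c2_mem_Z2 hπ c.2⟩, ?_⟩
  rw [Mor.H2_mk]
  congr 1
  ext ⟨g, h⟩
  show ρ (s.t x₀) (c.1 (s.u g x₀, s.u h ((π (g : G))⁻¹ x₀))) = c.1 (g, h)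
  have h1 : (π (g : G))⁻¹ x₀ = x₀ := by
    rw [Equiv.Perm.inv_eq_iff_eq]
    exact (mem_stab.mp g.2).symm
  rw [h1, s.u_self, s.u_self, s.one, map_one]
  rfl

include hπ hx₀ in
theorem shapiro_H2_injective : Function.Injective (shMor π ρ L x₀).H2 := by
  obtain ⟨s⟩ := Sec.exists π hx₀
  rw [injective_iff_map_eq_zero]
  intro y hy
  obtain ⟨C, rfl⟩ := H2.mk_surjective y
  rw [Mor.H2_mk, H2.mk_eq_zero_iff] at hy
  obtain ⟨c, hc, hc'⟩ := hy
  have hc2 : ∀ g h : stab π x₀, d1 (ρ.comp (stab π x₀).subtype) c (g, h) = C.1 (g, h) x₀ :=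
    fun g h => congrFun hc' (g, h)
  have hC := ((mem_Z2 _ _).mp C.2).1
  have hClc := ((mem_Z2 _ _).mp C.2).2
  rw [H2.mk_eq_zero_iff]
  -- the homotopy
  let S : G → X → V := fun g x => C.1 (s.t x, s.u g x) x - C.1 (g, s.t ((π g)⁻¹ x)) x
  have hS : IsLC₁ L S := by
    refine isLC₁_pi fun x => ?_
    refine IsLC₁.sub ?_ ?_
    · have hr : IsLC₁ (L.restrict (stab π x₀)) (fun u : stab π x₀ => C.1 (s.t x, u) x) := by
        obtain ⟨N, hN, h⟩ := hClc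
        refine ⟨_, Lvl.comap_mem_levels _ hN, fun g r hr => ?_⟩
        have := h (s.t x) g 1 N.one_mem r hr
        rw [mul_one] at this
        exact congrFun this x
      exact s.isLC₁_u hπ hr x
    · obtain ⟨N, hN, h⟩ := hClc
      obtain ⟨N', hN', h'⟩ := isLC₁_perm_inv hπ x
      obtain ⟨W, hW, h3, h4⟩ := L.directed N hN N' hN'
      refine ⟨W, hW, fun g r hr => ?_⟩
      have e1 : (π (g * r))⁻¹ x = (π g)⁻¹ x := h' g r (h4 hr)
      have e2 := h g (s.t ((π g)⁻¹ x)) r (h3 hr) 1 N.one_mem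
      rw [mul_one] at e2
      show C.1 (g * r, s.t ((π (g * r))⁻¹ x)) x = _
      rw [e1, e2]
  refine ⟨s.c1 c ρ - S, (s.isLC₁_c1 hπ hc).sub hS, ?_⟩
  rw [map_sub, s.d1_c1]
  ext ⟨g, h⟩ x
  show ρ (s.t x) (d1 (ρ.comp (stab π x₀).subtype) c (s.u g x, s.u h ((π g)⁻¹ x))) -
    (ρ g (S h ((π g)⁻¹ x)) - S (g * h) x + S g x) = C.1 (g, h) x
  rw [hc2]
  simp only [S]
  have hinv : (π (g * h))⁻¹ x = (π h)⁻¹ ((π g)⁻¹ x) := by
    rw [map_mul, mul_inv_rev, Equiv.Perm.mul_apply]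
  rw [hinv, s.u_mul]
  set t := s.t x with ht
  set t' := s.t ((π g)⁻¹ x) with ht'
  set t'' := s.t ((π h)⁻¹ ((π g)⁻¹ x)) with ht''
  set u := s.u g x with hu
  set v := s.u h ((π g)⁻¹ x) with hv
  have h1 : g * t' = t * u := (s.t_mul_u g x).symm
  have h2 : h * t'' = t' * v := (s.t_mul_u h ((π g)⁻¹ x)).symm
  have e1 := congrFun (hC g t' v) x
  have e2 := congrFun (hC g h t'') x
  have e3 := congrFun (hC t u v) x
  simp only [Pi.add_apply, funRep_apply] at e1 e2 e3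
  rw [h2] at e2
  rw [h1] at e1
  have h3 : (π t)⁻¹ x = x₀ := by
    rw [Equiv.Perm.inv_eq_iff_eq, ht, s.spec]
  rw [h3] at e3
  rw [map_sub]
  have e1' : ρ g (C.1 (t', v) ((π g)⁻¹ x)) =
    C.1 (t * u, v) x + C.1 (g, t') x - C.1 (g, t' * v) x := by rw [e1]; abel
  have e2' : ρ g (C.1 (h, t'') ((π g)⁻¹ x)) =
    C.1 (g * h, t'') x + C.1 (g, h) x - C.1 (g, t' * v) x := by rw [e2]; abel
  have e3' : ρ t (C.1 (u, v) x₀) = C.1 (t * u, v) x + C.1 (t, u) x - C.1 (t, u * v) x := by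
    rw [e3]; abel
  rw [e1', e2', e3']
  push_cast
  abel

/-- Shapiro's lemma in degree 0. -/
noncomputable def shapiro0 (ρ : Representation k G V) (L : Lvl G) {x₀ : X} (hx₀ : ∀ x, ∃ g, π g x₀ = x) :
    H0 (funRep π ρ) ≃ₗ[k] H0 (ρ.comp (stab π x₀).subtype) :=
  LinearEquiv.ofBijective (shMor π ρ L x₀).H0
    ⟨shapiro_H0_injective hx₀, shapiro_H0_surjective hx₀⟩

/-- Shapiro's lemma in degree 1. -/
noncomputable def shapiro1 (ρ : Representation k G V) (hπ : L.IsOpen π.ker) {x₀ : X} (hx₀ : ∀ x, ∃ g, π g x₀ = x) :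
    H1 (funRep π ρ) L ≃ₗ[k] H1 (ρ.comp (stab π x₀).subtype) (L.restrict (stab π x₀)) :=
  LinearEquiv.ofBijective (shMor π ρ L x₀).H1
    ⟨shapiro_H1_injective hx₀, shapiro_H1_surjective hπ hx₀⟩

/-- Shapiro's lemma in degree 2. -/
noncomputable def shapiro2 (ρ : Representation k G V) (hπ : L.IsOpen π.ker) {x₀ : X} (hx₀ : ∀ x, ∃ g, π g x₀ = x) :
    H2 (funRep π ρ) L ≃ₗ[k] H2 (ρ.comp (stab π x₀).subtype) (L.restrict (stab π x₀)) :=
  LinearEquiv.ofBijective (shMor π ρ L x₀).H2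
    ⟨shapiro_H2_injective hπ hx₀, shapiro_H2_surjective hπ hx₀⟩

end Shapiro

section ConstSum

/-- constant functions -/
def constMor (π : G →* Equiv.Perm X) (ρ : Representation k G V) (L : Lvl G) :
    Mor ρ L (funRep π ρ) L :=
  Mor.coeff L (LinearMap.pi fun _ => LinearMap.id) fun g v => by
    ext x
    simp

/-- summation over `X` -/
def sumMor [Fintype X] (π : G →* Equiv.Perm X) (ρ : Representation k G V) (L : Lvl G) :
    Mor (funRep π ρ) L ρ L :=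
  Mor.coeff L (∑ x, LinearMap.proj x) fun g v => by
    simp only [LinearMap.coe_sum, Finset.sum_apply, LinearMap.coe_proj, Function.eval,
      funRep_apply, map_sum]
    exact Equiv.sum_comp (π g)⁻¹ fun x => ρ g (v x)

theorem sum_comp_const_φ [Fintype X] :
    (sumMor π ρ L).φ ∘ₗ (constMor π ρ L).φ = (Fintype.card X : k) • LinearMap.id := by
  ext v
  simp [sumMor, constMor, Nat.cast_smul_eq_nsmul]

theorem shMor_comp_const (x₀ : X) :
    (shMor π ρ L x₀).comp (constMor π ρ L) = Mor.resSub ρ L (stab π x₀) := by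
  ext1
  · rfl
  · rfl

variable [Fintype X]

/-- corestriction in degree 0 -/
noncomputable def cor0 (ρ : Representation k G V) (L : Lvl G) {x₀ : X} (hx₀ : ∀ x, ∃ g, π g x₀ = x) :
    H0 (ρ.comp (stab π x₀).subtype) →ₗ[k] H0 ρ :=
  (sumMor π ρ L).H0 ∘ₗ (shapiro0 ρ L hx₀).symm.toLinearMap

/-- corestriction in degree 1 -/
noncomputable def cor1 (ρ : Representation k G V) (hπ : L.IsOpen π.ker) {x₀ : X} (hx₀ : ∀ x, ∃ g, π g x₀ = x) :
    H1 (ρ.comp (stab π x₀).subtype) (L.restrict (stab π x₀)) →ₗ[k] H1 ρ L :=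
  (sumMor π ρ L).H1 ∘ₗ (shapiro1 ρ hπ hx₀).symm.toLinearMap

/-- corestriction in degree 2 -/
noncomputable def cor2 (ρ : Representation k G V) (hπ : L.IsOpen π.ker) {x₀ : X} (hx₀ : ∀ x, ∃ g, π g x₀ = x) :
    H2 (ρ.comp (stab π x₀).subtype) (L.restrict (stab π x₀)) →ₗ[k] H2 ρ L :=
  (sumMor π ρ L).H2 ∘ₗ (shapiro2 ρ hπ hx₀).symm.toLinearMap

theorem cor0_res {x₀ : X} (hx₀ : ∀ x, ∃ g, π g x₀ = x) (x : H0 ρ) :
    cor0 ρ L hx₀ ((Mor.resSub ρ L (stab π x₀)).H0 x) = (Fintype.card X : k) • x := by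
  have h1 : (shapiro0 ρ L hx₀).symm ((Mor.resSub ρ L (stab π x₀)).H0 x) = (constMor π ρ L).H0 x := by
    rw [LinearEquiv.symm_apply_eq, ← shMor_comp_const, Mor.H0_comp]
    rfl
  rw [cor0, LinearMap.comp_apply, LinearEquiv.coe_coe, h1]
  ext
  exact LinearMap.congr_fun (sum_comp_const_φ (π := π) (ρ := ρ) (L := L)) x.1

theorem cor1_res (hπ : L.IsOpen π.ker) {x₀ : X} (hx₀ : ∀ x, ∃ g, π g x₀ = x) (x : H1 ρ L) :
    cor1 ρ hπ hx₀ ((Mor.resSub ρ L (stab π x₀)).H1 x) = (Fintype.card X : k) • x := by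
  have h1 : (shapiro1 ρ hπ hx₀).symm ((Mor.resSub ρ L (stab π x₀)).H1 x) = (constMor π ρ L).H1 x := by
    rw [LinearEquiv.symm_apply_eq, ← shMor_comp_const, Mor.H1_comp]
    rfl
  rw [cor1, LinearMap.comp_apply, LinearEquiv.coe_coe, h1, ← Mor.H1_comp]
  have h2 := Mor.H1_smul_of (m₁ := Mor.id ρ L) (m₂ := (sumMor π ρ L).comp (constMor π ρ L))
    (Fintype.card X : k) rfl (sum_comp_const_φ (π := π) (ρ := ρ) (L := L)).symm x
  rw [← h2, Mor.H1_id]

theorem cor2_res (hπ : L.IsOpen π.ker) {x₀ : X} (hx₀ : ∀ x, ∃ g, π g x₀ = x) (x : H2 ρ L) :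
    cor2 ρ hπ hx₀ ((Mor.resSub ρ L (stab π x₀)).H2 x) = (Fintype.card X : k) • x := by
  have h1 : (shapiro2 ρ hπ hx₀).symm ((Mor.resSub ρ L (stab π x₀)).H2 x) = (constMor π ρ L).H2 x := by
    rw [LinearEquiv.symm_apply_eq, ← shMor_comp_const, Mor.H2_comp]
    rfl
  rw [cor2, LinearMap.comp_apply, LinearEquiv.coe_coe, h1, ← Mor.H2_comp]
  have h2 := Mor.H2_smul_of (m₁ := Mor.id ρ L) (m₂ := (sumMor π ρ L).comp (constMor π ρ L))
    (Fintype.card X : k) rfl (sum_comp_const_φ (π := π) (ρ := ρ) (L := L)).symm x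
  rw [← h2, Mor.H2_id]

end ConstSum

end Fermat.Agent.CFT.LC
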