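import Fermat.Agent.CFT.LC.PrimeTo
import Fermat.Agent.CFT.EC.Frame

/-!
# Cohomology of `U` in terms of a normal subgroup `N` of index prime to `p`

* `exists_equiv_EqH` : `H¹(U, ρ) ≃ EqH ρ L U N`;
* `eq_zero_of_funcMor_H2` : a class in `H²(U, ρ)` is zero if all its images under
  `H²(U, ρ) → H²(N, k)` are zero.
-/

set_option autoImplicit false

namespace Fermat.Agent.CFT.LC

open Module Fermat.Agent.CFT.EC

variable {k : Type} [Field k] {G : Type} [Group G] {V : Type} [AddCommGroup V] [Module k V]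

section

variable (ρ : Representation k G V) (L : Lvl G) {U N : Subgroup G} (hNU : N ≤ U)
    (hn : ∀ u ∈ U, ∀ n ∈ N, u⁻¹ * n * u ∈ N) (hN : L.IsOpen N)
    (hidx : IsUnit ((N.relIndex U : ℕ) : k)) (hρ : ∀ n ∈ N, ρ n = 1)

include hn in
theorem normal_subgroupOf : (N.subgroupOf U).Normal := by
  refine ⟨fun n hn' g => ?_⟩
  rw [Subgroup.mem_subgroupOf] at hn' ⊢
  have h1 := hn (g⁻¹ : U) (g⁻¹ : U).2 n hn'
  rw [Subgroup.coe_mul, Subgroup.coe_mul]
  rwa [Subgroup.coe_inv, inv_inv] at h1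

theorem isOpen_subgroupOf (hN : L.IsOpen N) : (L.restrict U).IsOpen (N.subgroupOf U) := by
  obtain ⟨M, hM, h⟩ := hN
  exact ⟨_, Lvl.comap_mem_levels _ hM, fun x hx => h hx⟩

/-- from `N` to `N.subgroupOf U` -/
def toSub (hNU : N ≤ U) : N →* N.subgroupOf U where
  toFun n := ⟨⟨n, hNU n.2⟩, n.2⟩
  map_one' := rfl
  map_mul' _ _ := rfl

include hNU hidx hρ hn hN in
/-- (A2) -/
theorem eq_zero_of_funcMor_H2 [FiniteDimensional k V]
    (z : LC.H2 (ρ.comp U.subtype) (L.restrict U))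
    (hz : ∀ φ : Dual k V, (funcMor ρ L hNU hρ φ).H2 z = 0) : z = 0 := by
  have := normal_subgroupOf hn
  have hinj := res_injective_H2 (ρ.comp U.subtype) (isOpen_subgroupOf L (U := U) hN) hidx
  apply hinj
  rw [map_zero]
  -- the restriction to `N'`, decomposed along a basis
  let b := Module.finBasis k V
  let m : Fin (finrank k V) →
      Mor ((ρ.comp U.subtype).comp (N.subgroupOf U).subtype)
        ((L.restrict U).restrict (N.subgroupOf U))
        (Representation.trivial k N k) (L.restrict N) := fun i =>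
    { f := toSub hNU
      φ := b.coord i
      cont := by
        rintro _ ⟨_, ⟨M, hM, rfl⟩, rfl⟩
        exact ⟨_, Lvl.comap_mem_levels _ hM, fun x hx => hx⟩
      comm := fun n v => by
        show b.coord i (ρ (n : G) v) = b.coord i v
        rw [hρ n n.2]
        rfl }
  let m' : Fin (finrank k V) →
      Mor (Representation.trivial k N k) (L.restrict N)
        ((ρ.comp U.subtype).comp (N.subgroupOf U).subtype)
        ((L.restrict U).restrict (N.subgroupOf U)) := fun i =>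
    { f := { toFun := fun n => ⟨n.1.1, n.2⟩, map_one' := rfl, map_mul' := fun _ _ => rfl }
      φ := LinearMap.toSpanSingleton k V (b i)
      cont := by
        rintro _ ⟨M, hM, rfl⟩
        exact ⟨_, ⟨_, ⟨M, hM, rfl⟩, rfl⟩, fun x hx => hx⟩
      comm := fun n a => by
        have h := hρ ((n : U) : G) n.2
        show a • b i = ρ ((n : U) : G) (a • b i)
        rw [h]
        rfl }
  have h1 := Mor.H2_sum_of Finset.univ (fun i => (m' i).comp (m i)) (Mor.id _ _)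
    (fun _ _ => rfl) (by
      refine LinearMap.ext fun w => ?_
      rw [LinearMap.sum_apply]
      exact b.sum_repr w) ((Mor.resSub (ρ.comp U.subtype) (L.restrict U) (N.subgroupOf U)).H2 z)
  rw [Mor.H2_id] at h1
  rw [← h1]
  refine Finset.sum_eq_zero fun i _ => ?_
  have h2 : (m i).comp (Mor.resSub (ρ.comp U.subtype) (L.restrict U) (N.subgroupOf U)) =
      funcMor ρ L hNU hρ (b.coord i) := by
    ext1 <;> rfl
  have h3 : (m i).H2 ((Mor.resSub (ρ.comp U.subtype) (L.restrict U) (N.subgroupOf U)).H2 z) =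
      0 := by
    rw [← Mor.H2_comp, h2, hz]
  rw [Mor.H2_comp, h3, map_zero]

/-- the map attached to a cocycle -/
noncomputable def evZ (c : Z1 (ρ.comp U.subtype) (L.restrict U)) :
    Dual k V →ₗ[k] Z1 (Representation.trivial k N k) (L.restrict N) where
  toFun φ := (funcMor ρ L hNU hρ φ).z1 c
  map_add' _ _ := rfl
  map_smul' _ _ := rfl

theorem evZ_apply (c : Z1 (ρ.comp U.subtype) (L.restrict U)) (φ : Dual k V) (n : N) :
    (evZ ρ L hNU hρ c φ).1 n = φ (c.1 ⟨n, hNU n.2⟩) := rfl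

theorem evZ_mem (c : Z1 (ρ.comp U.subtype) (L.restrict U)) :
    evZ ρ L hNU hρ c ∈ EqH ρ L U N := by
  intro φ u hu n n' hn'
  have hc := ((mem_Z1 _ _).mp c.2).1
  have h1 := hc ⟨n, hNU n.2⟩ ⟨u, hu⟩
  have h2 := hc ⟨u, hu⟩ ⟨n', hNU n'.2⟩
  have h3 : (⟨n, hNU n.2⟩ : U) * ⟨u, hu⟩ = ⟨u, hu⟩ * ⟨n', hNU n'.2⟩ := by
    apply Subtype.ext
    show (n : G) * u = u * n'
    rw [hn']
    group
  have h4 : ρ (n : G) (c.1 ⟨u, hu⟩) = c.1 ⟨u, hu⟩ := by
    rw [hρ n n.2]
    rfl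
  have h5 : c.1 ⟨n, hNU n.2⟩ = ρ u (c.1 ⟨n', hNU n'.2⟩) := by
    have h7 : c.1 (⟨n, hNU n.2⟩ * ⟨u, hu⟩) = c.1 ⟨u, hu⟩ + c.1 ⟨n, hNU n.2⟩ :=
      h1.trans (congrArg (· + c.1 ⟨n, hNU n.2⟩) h4)
    have h8 : c.1 (⟨u, hu⟩ * ⟨n', hNU n'.2⟩) =
      ρ u (c.1 ⟨n', hNU n'.2⟩) + c.1 ⟨u, hu⟩ := h2
    rw [h3, h8, add_comm] at h7
    exact (add_left_cancel h7).symm
  rw [evZ_apply, evZ_apply]
  show φ (ρ u⁻¹ (c.1 ⟨n, hNU n.2⟩)) = φ (c.1 ⟨n', hNU n'.2⟩)
  rw [h5, ← Module.End.mul_apply, ← map_mul, inv_mul_cancel, map_one,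
    Module.End.one_apply]

/-- the map on cocycles -/
noncomputable def preEqH : Z1 (ρ.comp U.subtype) (L.restrict U) →ₗ[k] EqH ρ L U N where
  toFun c := ⟨evZ ρ L hNU hρ c, evZ_mem ρ L hNU hρ c⟩
  map_add' c c' := by
    apply Subtype.ext
    refine LinearMap.ext fun φ => Subtype.ext (funext fun n => ?_)
    exact map_add φ (c.1 ⟨n, hNU n.2⟩) (c'.1 ⟨n, hNU n.2⟩)
  map_smul' a c := by
    apply Subtype.ext
    refine LinearMap.ext fun φ => Subtype.ext (funext fun n => ?_)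
    exact map_smul φ a (c.1 ⟨n, hNU n.2⟩)

theorem preEqH_congr (c c' : Z1 (ρ.comp U.subtype) (L.restrict U))
    (h : H1.mk (ρ.comp U.subtype) (L.restrict U) c =
      H1.mk (ρ.comp U.subtype) (L.restrict U) c') :
    preEqH ρ L hNU hρ c = preEqH ρ L hNU hρ c' := by
  rw [← sub_eq_zero, ← map_sub, H1.mk_eq_zero_iff] at h
  obtain ⟨v, hv⟩ := h
  apply Subtype.ext
  refine LinearMap.ext fun φ => Subtype.ext (funext fun n => ?_)
  show φ (c.1 ⟨n, hNU n.2⟩) = φ (c'.1 ⟨n, hNU n.2⟩)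
  have h1 : c.1 ⟨n, hNU n.2⟩ - c'.1 ⟨n, hNU n.2⟩ = ρ (n : G) v - v := hv ⟨n, hNU n.2⟩
  rw [hρ n n.2, Module.End.one_apply, sub_self, sub_eq_zero] at h1
  rw [h1]

/-- The map `H¹(U, ρ) → EqH`. -/
noncomputable def toEqH : LC.H1 (ρ.comp U.subtype) (L.restrict U) →ₗ[k] EqH ρ L U N where
  toFun x := preEqH ρ L hNU hρ (H1.mk_surjective x).choose
  map_add' x y := by
    rw [← map_add]
    apply preEqH_congr
    rw [(H1.mk_surjective (x + y)).choose_spec, map_add, (H1.mk_surjective x).choose_spec,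
      (H1.mk_surjective y).choose_spec]
  map_smul' a x := by
    rw [RingHom.id_apply, ← map_smul]
    apply preEqH_congr
    rw [(H1.mk_surjective (a • x)).choose_spec, map_smul, (H1.mk_surjective x).choose_spec]

theorem toEqH_mk' (c : Z1 (ρ.comp U.subtype) (L.restrict U)) :
    toEqH ρ L hNU hρ (H1.mk (ρ.comp U.subtype) (L.restrict U) c) = preEqH ρ L hNU hρ c :=
  preEqH_congr ρ L hNU hρ _ _ (H1.mk_surjective _).choose_spec

theorem toEqH_mk (c : Z1 (ρ.comp U.subtype) (L.restrict U)) (φ : Dual k V) (n : N) :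
    ((toEqH ρ L hNU hρ (H1.mk (ρ.comp U.subtype) (L.restrict U) c) : EqH ρ L U N).1 φ).1 n =
      φ (c.1 ⟨n, hNU n.2⟩) := by
  rw [toEqH_mk']
  rfl

include hn hN hidx in
theorem toEqH_injective : Function.Injective (toEqH ρ L hNU hρ) := by
  have := normal_subgroupOf hn
  have hinj := res_injective_H1 (ρ.comp U.subtype) (isOpen_subgroupOf L (U := U) hN) hidx
  rw [injective_iff_map_eq_zero]
  intro x hx
  obtain ⟨c, rfl⟩ := H1.mk_surjective x
  apply hinj
  rw [map_zero, Mor.H1_mk, H1.mk_eq_zero_iff]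
  refine ⟨0, fun n => ?_⟩
  rw [map_zero, sub_zero]
  show c.1 (n : U) = 0
  rw [← forall_dual_apply_eq_zero_iff k]
  intro φ
  have h1 := congrArg (fun Ψ : EqH ρ L U N => (Ψ.1 φ).1 ⟨((n : U) : G), n.2⟩) hx
  have h2 := toEqH_mk ρ L hNU hρ c φ ⟨((n : U) : G), n.2⟩
  exact h2.symm.trans h1

include hn hN hidx in
theorem toEqH_surjective [FiniteDimensional k V] : Function.Surjective (toEqH ρ L hNU hρ) := by
  have hnorm := normal_subgroupOf hn
  intro Ψ
  let b := Module.finBasis k V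
  -- the homomorphism on `N'`
  let c : (N.subgroupOf U) → V := fun n => ∑ i, (Ψ.1 (b.coord i)).1 ⟨((n : U) : G), n.2⟩ • b i
  have hcφ : ∀ (φ : Dual k V) (n : N.subgroupOf U), φ (c n) = (Ψ.1 φ).1 ⟨((n : U) : G), n.2⟩ := by
    intro φ n
    have h1 : φ = ∑ i, φ (b i) • b.coord i := by
      refine b.ext fun j => ?_
      rw [LinearMap.sum_apply, Finset.sum_eq_single j]
      · simp
      · intro i _ hij
        simp [Finsupp.single_eq_of_ne, hij]
      · intro h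
        exact absurd (Finset.mem_univ j) h
    conv_rhs => rw [h1, map_sum]
    show φ (∑ i, (Ψ.1 (b.coord i)).1 ⟨((n : U) : G), n.2⟩ • b i) = _
    rw [map_sum, AddSubmonoidClass.coe_finsetSum, Finset.sum_apply]
    refine Finset.sum_congr rfl fun i _ => ?_
    rw [map_smul, map_smul]
    exact mul_comm _ _
  have hc : c ∈ Z1 ((ρ.comp U.subtype).comp (N.subgroupOf U).subtype)
      ((L.restrict U).restrict (N.subgroupOf U)) := by
    rw [mem_Z1]
    constructor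
    · intro g h
      rw [← sub_eq_zero, ← forall_dual_apply_eq_zero_iff k]
      intro φ
      have h0 : ρ ((g : U) : G) = 1 := hρ _ g.2
      have h1 : ρ ((g : U) : G) (c h) = c h := by
        rw [h0]
        rfl
      show φ (c (g * h) - (ρ ((g : U) : G) (c h) + c g)) = 0
      rw [h1, map_sub, map_add, hcφ, hcφ, hcφ]
      have h2 := ((mem_Z1 _ _).mp (Ψ.1 φ).2).1 ⟨((g : U) : G), g.2⟩ ⟨((h : U) : G), h.2⟩
      have h3 : (Ψ.1 φ).1 (⟨((g : U) : G), g.2⟩ * ⟨((h : U) : G), h.2⟩) =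
        (Ψ.1 φ).1 ⟨((h : U) : G), h.2⟩ + (Ψ.1 φ).1 ⟨((g : U) : G), g.2⟩ := h2
      rw [sub_eq_zero, ← h3]
      rfl
    · have h1 : ∀ i, ∃ M ∈ L.levels, ∀ g : N, ∀ s : N, (s : G) ∈ M →
          (Ψ.1 (b.coord i)).1 (g * s) = (Ψ.1 (b.coord i)).1 g := by
        intro i
        obtain ⟨_, ⟨M, hM, rfl⟩, h⟩ := ((mem_Z1 _ _).mp (Ψ.1 (b.coord i)).2).2
        exact ⟨M, hM, fun g s hs => h g s hs⟩
      choose M hM h1 using h1
      obtain ⟨W, hW, h2⟩ := L.exists_level_le_finite M hM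
      refine ⟨_, ⟨_, ⟨W, hW, rfl⟩, rfl⟩, fun g s hs => ?_⟩
      refine Finset.sum_congr rfl fun i _ => ?_
      congr 1
      exact h1 i ⟨((g : U) : G), g.2⟩ ⟨((s : U) : G), s.2⟩ (h2 i hs)
  -- invariance
  have hinv : ∀ g : U, conjRep1 (ρ.comp U.subtype) (L.restrict U) (N.subgroupOf U) g
      (H1.mk ((ρ.comp U.subtype).comp (N.subgroupOf U).subtype)
        ((L.restrict U).restrict (N.subgroupOf U)) ⟨c, hc⟩) =
      H1.mk ((ρ.comp U.subtype).comp (N.subgroupOf U).subtype)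
        ((L.restrict U).restrict (N.subgroupOf U)) ⟨c, hc⟩ := by
    intro g
    rw [conjRep1_apply, Mor.H1_mk]
    congr 1
    apply Subtype.ext
    funext n
    show ρ (g : G) (c ((conjN (ρ.comp U.subtype) (L.restrict U) (N.subgroupOf U) g).f n)) = c n
    set n' := (conjN (ρ.comp U.subtype) (L.restrict U) (N.subgroupOf U) g).f n with hn'
    have hn'' : ((n' : U) : G) = (g : G)⁻¹ * ((n : U) : G) * g := by
      have := coe_conjN_f (ρ.comp U.subtype) (L.restrict U) (N.subgroupOf U) g n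
      exact congrArg (fun x : U => (x : G)) this
    rw [← sub_eq_zero, ← forall_dual_apply_eq_zero_iff k]
    intro φ
    have h1 := Ψ.2 (φ ∘ₗ ρ (g : G)) (g : G) g.2 ⟨((n : U) : G), n.2⟩ ⟨((n' : U) : G), n'.2⟩ hn''
    have h2 : (φ ∘ₗ ρ (g : G)) ∘ₗ ρ (g : G)⁻¹ = φ := by
      refine LinearMap.ext fun v => ?_
      show φ (ρ (g : G) (ρ (g : G)⁻¹ v)) = φ v
      rw [← Module.End.mul_apply, ← map_mul, mul_inv_cancel, map_one, Module.End.one_apply]
    rw [h2] at h1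
    rw [map_sub, hcφ, h1, sub_eq_zero]
    exact hcφ (φ ∘ₗ ρ (g : G)) n'
  obtain ⟨x, hx⟩ := exists_res_eq_index1 (ρ.comp U.subtype) (L.restrict U)
    (isOpen_subgroupOf L (U := U) hN) _ hinv
  obtain ⟨u, hu⟩ := hidx
  have hu' : (((N.subgroupOf U).index : ℕ) : k) = ↑u := hu.symm
  refine ⟨(↑u⁻¹ : k) • x, ?_⟩
  obtain ⟨d, hd⟩ := H1.mk_surjective ((↑u⁻¹ : k) • x)
  have h3 : (Mor.resSub (ρ.comp U.subtype) (L.restrict U) (N.subgroupOf U)).H1
      ((↑u⁻¹ : k) • x) = H1.mk ((ρ.comp U.subtype).comp (N.subgroupOf U).subtype)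
        ((L.restrict U).restrict (N.subgroupOf U)) ⟨c, hc⟩ := by
    rw [map_smul, hx, hu', smul_smul, Units.inv_mul, one_smul]
  rw [← hd] at h3 ⊢
  rw [Mor.H1_mk, ← sub_eq_zero, ← map_sub, H1.mk_eq_zero_iff] at h3
  obtain ⟨v, hv⟩ := h3
  have h4 : ∀ n : N.subgroupOf U, d.1 (n : U) = c n := by
    intro n
    have h0 : ρ ((n : U) : G) = 1 := hρ _ n.2
    have h5 : d.1 (n : U) - c n = ρ ((n : U) : G) v - v := hv n
    rw [h0, Module.End.one_apply, sub_self, sub_eq_zero] at h5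
    exact h5
  apply Subtype.ext
  refine LinearMap.ext fun φ => Subtype.ext (funext fun n => ?_)
  rw [toEqH_mk]
  have h6 := h4 ⟨⟨n, hNU n.2⟩, n.2⟩
  rw [h6]
  exact hcφ φ ⟨⟨n, hNU n.2⟩, n.2⟩

/-- (A1), as an equivalence. -/
noncomputable def equivEqH [FiniteDimensional k V] :
    LC.H1 (ρ.comp U.subtype) (L.restrict U) ≃ₗ[k] EqH ρ L U N :=
  LinearEquiv.ofBijective (toEqH ρ L hNU hρ)
    ⟨toEqH_injective ρ L hNU hn hN hidx hρ, toEqH_surjective ρ L hNU hn hN hidx hρ⟩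

include hNU hidx hρ hn hN in
/-- (A1) -/
theorem exists_equiv_EqH [FiniteDimensional k V] :
    Nonempty (LC.H1 (ρ.comp U.subtype) (L.restrict U) ≃ₗ[k] EqH ρ L U N) :=
  ⟨equivEqH ρ L hNU hn hN hidx hρ⟩

end

end Fermat.Agent.CFT.LC
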