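import Fermat.Agent.CFT.LC.Criterion
import Fermat.Agent.CFT.LC.Frozen
import Fermat.Agent.CFT.PT.Loc

/-!
# From the equality of dimensions to the nondegenerate pairing of S55
-/

set_option autoImplicit false

open CategoryTheory Module groupCohomology ExtCitation

namespace Fermat.Agent.CFT.LC

/-- A nondegenerate pairing between finite-dimensional spaces of the same dimension. -/
theorem exists_pairing_of_finrank_eq {k X Y : Type*} [Field k] [AddCommGroup X] [Module k X]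
    [AddCommGroup Y] [Module k Y] [FiniteDimensional k X] [FiniteDimensional k Y]
    (h : finrank k X = finrank k Y) :
    ∃ B : X →ₗ[k] Y →ₗ[k] k, (∀ y, (∀ x, B y x = 0) → y = 0) ∧
      (∀ x, (∀ y, B y x = 0) → x = 0) := by
  have h1 : finrank k X = finrank k (Dual k Y) := by rw [h, Subspace.dual_finrank_eq]
  obtain ⟨e⟩ := FiniteDimensional.nonempty_linearEquiv_of_finrank_eq h1
  refine ⟨e.toLinearMap, fun y hy => ?_, fun x hx => ?_⟩
  · have : e y = 0 := LinearMap.ext hy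
    exact (LinearEquiv.map_eq_zero_iff e).mp this
  · rw [← forall_dual_apply_eq_zero_iff k]
    intro f
    have := hx (e.symm f)
    rwa [LinearEquiv.coe_coe, LinearEquiv.apply_symm_apply] at this

local notation "ΓQ" => (AlgebraicClosure ℚ ≃ₐ[ℚ] AlgebraicClosure ℚ)

theorem two_ne_zero_zmod {p : ℕ} [hp : Fact p.Prime] (hp2 : p ≠ 2) : (2 : ZMod p) ≠ 0 := by
  have : ((2 : ℕ) : ZMod p) ≠ 0 := by
    rw [Ne, ZMod.natCast_eq_zero_iff]
    intro h
    exact hp2 ((Nat.prime_dvd_prime_iff_eq hp.out Nat.prime_two).mp h)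
  exact_mod_cast this

/-- The data of the frozen statements: `Ш¹` in the form of `PT.Sha1`. -/
noncomputable def sha₁Equiv' {p : ℕ} [Fact p.Prime] (hp2 : p ≠ 2) (S : Finset Nat.Primes)
    (M : Rep (ZMod p) ΓQ) :
    ↥(sha₁ S M) ≃ₗ[ZMod p] ↥(PT.Sha1 (unram S)
      (fun q : ↥S => lvlOver (primeLocalToGlobal q.1)) (fun q => primeLocalToGlobal q.1)
      (cont_locS S) M.ρ) :=
  sha₁Equiv S M (two_ne_zero_zmod hp2)

/-- The data of the frozen statements: `Ш²` in the form of `PT.Sha2`. -/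
noncomputable def sha₂Equiv' {p : ℕ} [Fact p.Prime] (hp2 : p ≠ 2) (S : Finset Nat.Primes)
    (M : Rep (ZMod p) ΓQ) :
    ↥(sha₂ S M) ≃ₗ[ZMod p] ↥(PT.Sha2 (unram S)
      (fun q : ↥S => lvlOver (primeLocalToGlobal q.1)) (fun q => primeLocalToGlobal q.1)
      (cont_locS S) M.ρ) :=
  sha₂Equiv S M (two_ne_zero_zmod hp2)

/-- `Ш¹` of the twisted dual. -/
noncomputable def dualTwistEquiv {p : ℕ} [Fact p.Prime] (hp2 : p ≠ 2) (S : Finset Nat.Primes)
    (M : Rep (ZMod p) ΓQ) :
    ↥(sha₁ S (M.dualTwist (cycloChar p))) ≃ₗ[ZMod p] ↥(PT.Sha1 (unram S)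
      (fun q : ↥S => lvlOver (primeLocalToGlobal q.1)) (fun q => primeLocalToGlobal q.1)
      (cont_locS S) (PT.dtw M.ρ (cycloChar p))) :=
  sha₁Equiv S (M.dualTwist (cycloChar p)) (two_ne_zero_zmod hp2)

/-- **S55** from the equality of dimensions. -/
theorem S55_of_finrank {p : ℕ} [Fact p.Prime] (hp2 : p ≠ 2) (S : Finset Nat.Primes)
    (H : ∀ {V : Type} [AddCommGroup V] [Module (ZMod p) V] [FiniteDimensional (ZMod p) V]
      (ρ : Representation (ZMod p) ΓQ V), Smooth (unram S) ρ →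
      FiniteDimensional (ZMod p) (PT.Sha2 (unram S)
        (fun q : ↥S => lvlOver (primeLocalToGlobal q.1)) (fun q => primeLocalToGlobal q.1)
        (cont_locS S) ρ) ∧
      FiniteDimensional (ZMod p) (PT.Sha1 (unram S)
        (fun q : ↥S => lvlOver (primeLocalToGlobal q.1)) (fun q => primeLocalToGlobal q.1)
        (cont_locS S) (PT.dtw ρ (cycloChar p))) ∧
      finrank (ZMod p) (PT.Sha2 (unram S)
        (fun q : ↥S => lvlOver (primeLocalToGlobal q.1)) (fun q => primeLocalToGlobal q.1)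
        (cont_locS S) ρ) =
      finrank (ZMod p) (PT.Sha1 (unram S)
        (fun q : ↥S => lvlOver (primeLocalToGlobal q.1)) (fun q => primeLocalToGlobal q.1)
        (cont_locS S) (PT.dtw ρ (cycloChar p))))
    (M : Rep (ZMod p) ΓQ) [FiniteDimensional (ZMod p) M]
    (hsm : ∀ m : M, ∃ F : IntermediateField ℚ (AlgebraicClosure ℚ), FiniteDimensional ℚ F ∧
      ∀ s ∈ F.fixingSubgroup, M.ρ s m = m)
    (hMur : ∀ q : Nat.Primes, q ∉ S → ∀ A : ValuationSubring (AlgebraicClosure ℚ),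
      A.LiesOverPrime (q : ℕ) → ∀ g ∈ A.inertiaSubgroupIn ℚ, M.ρ g = 1) :
    ∃ B : sha₁ S (M.dualTwist (cycloChar p)) →ₗ[ZMod p] sha₂ S M →ₗ[ZMod p] ZMod p,
      (∀ y, (∀ x, B y x = 0) → y = 0) ∧ (∀ x, (∀ y, B y x = 0) → x = 0) := by
  have h := H M.ρ (smooth_unram hsm hMur)
  have h1 := h.2.1
  have h2 := h.1
  have h3 := h.2.2
  have e1 := dualTwistEquiv hp2 S M
  have e2 := sha₂Equiv' hp2 S M
  have f1 : FiniteDimensional (ZMod p) (sha₁ S (M.dualTwist (cycloChar p))) := e1.symm.finiteDimensional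
  have f2 : FiniteDimensional (ZMod p) (sha₂ S M) := e2.symm.finiteDimensional
  have h4 : finrank (ZMod p) (sha₁ S (M.dualTwist (cycloChar p))) = finrank (ZMod p) (sha₂ S M) :=
    (e1.finrank_eq.trans h3.symm).trans e2.finrank_eq.symm
  exact exists_pairing_of_finrank_eq h4

end Fermat.Agent.CFT.LC
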