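import Fermat.Agent.CFT.LC.Map

/-!
# The long exact sequence for the cohomology of level-constant cochains

`0 → H⁰A → H⁰B → H⁰C → H¹A → H¹B → H¹C → H²A → H²B → H²C`.
-/

set_option autoImplicit false

namespace Fermat.Agent.CFT.LC

variable {k : Type*} [CommRing k] {G H : Type*} [Group G] [Group H]
variable {A B C : Type*} [AddCommGroup A] [Module k A] [AddCommGroup B] [Module k B]
  [AddCommGroup C] [Module k C]

/-- Short exact sequences of smooth representations. -/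
structure SES (L : Lvl G) (ρA : Representation k G A) (ρB : Representation k G B)
    (ρC : Representation k G C) where
  /-- the injection -/
  i : A →ₗ[k] B
  /-- the surjection -/
  q : B →ₗ[k] C
  i_comm : ∀ g a, i (ρA g a) = ρB g (i a)
  q_comm : ∀ g b, q (ρB g b) = ρC g (q b)
  inj : Function.Injective i
  surj : Function.Surjective q
  exact : ∀ b, q b = 0 → ∃ a, i a = b
  q_i : ∀ a, q (i a) = 0
  smooth : Smooth L ρB

namespace SES

variable {L : Lvl G} {ρA : Representation k G A} {ρB : Representation k G B}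
  {ρC : Representation k G C} (s : SES L ρA ρB ρC)

include s in
theorem smoothA : Smooth L ρA := by
  intro a
  obtain ⟨N, hN, h⟩ := s.smooth (s.i a)
  refine ⟨N, hN, fun g hg => s.inj ?_⟩
  rw [s.i_comm, h g hg]

include s in
theorem smoothC : Smooth L ρC := by
  intro c
  obtain ⟨b, rfl⟩ := s.surj c
  obtain ⟨N, hN, h⟩ := s.smooth b
  refine ⟨N, hN, fun g hg => ?_⟩
  rw [← s.q_comm, h g hg]

include s in
theorem smooth' : Smooth L ρA ∧ Smooth L ρB ∧ Smooth L ρC := ⟨s.smoothA, s.smooth, s.smoothC⟩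

/-- the morphism given by the injection -/
abbrev mi : Mor ρA L ρB L := Mor.coeff L s.i s.i_comm

/-- the morphism given by the surjection -/
abbrev mq : Mor ρB L ρC L := Mor.coeff L s.q s.q_comm

open Classical in
/-- a left inverse of the injection -/
noncomputable def pre (b : B) : A := if h : ∃ a, s.i a = b then h.choose else 0

theorem i_pre {b : B} (h : s.q b = 0) : s.i (s.pre b) = b := by
  have h' := s.exact b h
  rw [pre, dif_pos h']
  exact h'.choose_spec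

/-- the space of lifts of invariants -/
def E0 : Submodule k B := (LC.H0 ρC).comap s.q

/-- the space of lifts of 1-cocycles -/
def E1 : Submodule k (G → B) := C1 k L B ⊓ (Z1 ρC L).comap (s.q.compLeft G)

theorem mem_E0 {b : B} : b ∈ s.E0 ↔ ∀ g, s.q (d0 ρB b g) = 0 := by
  rw [E0, Submodule.mem_comap, mem_H0]
  refine forall_congr' fun g => ?_
  rw [d0_apply, map_sub, s.q_comm, sub_eq_zero]

theorem mem_E1 {b : G → B} : b ∈ s.E1 ↔ IsLC₁ L b ∧ ∀ p, s.q (d1 ρB b p) = 0 := by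
  rw [E1, Submodule.mem_inf, mem_C1, Submodule.mem_comap]
  refine and_congr_right fun hb => ?_
  have h1 : ∀ p, s.q (d1 ρB b p) = d1 ρC (s.q.compLeft G b) p := fun p => by
    simp [s.q_comm]
  simp only [h1]
  rw [Z1, Submodule.mem_inf, LinearMap.mem_ker, funext_iff]
  refine ⟨fun h p => h.1 p, fun h => ⟨h, ?_⟩⟩
  exact hb.comp s.q

/-- cochain-level connecting map in degree 0 -/
noncomputable def D0 : s.E0 →ₗ[k] ↥(Z1 ρA L) where
  toFun b := ⟨fun g => s.pre (d0 ρB b.1 g), by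
    have hb := s.mem_E0.mp b.2
    have hi : ∀ g, s.i (s.pre (d0 ρB b.1 g)) = d0 ρB b.1 g := fun g => s.i_pre (hb g)
    rw [mem_Z1]
    refine ⟨fun g h => s.inj ?_, ?_⟩
    · rw [map_add, s.i_comm, hi, hi, hi]
      simp
    · exact ((s.smooth.isLC₁_apply b.1).sub (isLC₁_const b.1)).comp s.pre⟩
  map_add' b b' := by
    ext g
    apply s.inj
    have h1 := s.i_pre (s.mem_E0.mp b.2 g)
    have h2 := s.i_pre (s.mem_E0.mp b'.2 g)
    have h3 := s.i_pre (s.mem_E0.mp (b + b').2 g)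
    simp only [Submodule.coe_add, Pi.add_apply, map_add] at h3 ⊢
    rw [h1, h2, h3]
  map_smul' c b := by
    ext g
    apply s.inj
    have h1 := s.i_pre (s.mem_E0.mp b.2 g)
    have h3 := s.i_pre (s.mem_E0.mp (c • b).2 g)
    simp only [Submodule.coe_smul, map_smul, Pi.smul_apply, RingHom.id_apply] at h3 ⊢
    rw [h1, h3]

theorem i_D0 (b : s.E0) (g : G) : s.i ((s.D0 b).1 g) = d0 ρB b.1 g :=
  s.i_pre (s.mem_E0.mp b.2 g)

/-- cochain-level connecting map in degree 1 -/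
noncomputable def D1 : s.E1 →ₗ[k] ↥(Z2 ρA L) where
  toFun b := ⟨fun g => s.pre (d1 ρB b.1 g), by
    have hb := (s.mem_E1.mp b.2).2
    have hi : ∀ g, s.i (s.pre (d1 ρB b.1 g)) = d1 ρB b.1 g := fun g => s.i_pre (hb g)
    rw [mem_Z2]
    refine ⟨fun g h j => s.inj ?_, ?_⟩
    · rw [map_add, map_add, s.i_comm, hi, hi, hi, hi]
      have := ((mem_Z2 ρB L).mp (d1_mem_Z2 s.smooth (s.mem_E1.mp b.2).1)).1 g h j
      exact this
    · exact (d1_mem_C2 s.smooth (s.mem_E1.mp b.2).1).comp s.pre⟩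
  map_add' b b' := by
    ext g
    apply s.inj
    have h1 := s.i_pre ((s.mem_E1.mp b.2).2 g)
    have h2 := s.i_pre ((s.mem_E1.mp b'.2).2 g)
    have h3 := s.i_pre ((s.mem_E1.mp (b + b').2).2 g)
    simp only [Submodule.coe_add, Pi.add_apply, map_add] at h3 ⊢
    rw [h1, h2, h3]
  map_smul' c b := by
    ext g
    apply s.inj
    have h1 := s.i_pre ((s.mem_E1.mp b.2).2 g)
    have h3 := s.i_pre ((s.mem_E1.mp (c • b).2).2 g)
    simp only [Submodule.coe_smul, map_smul, Pi.smul_apply, RingHom.id_apply] at h3 ⊢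
    rw [h1, h3]

theorem i_D1 (b : s.E1) (p : G × G) : s.i ((s.D1 b).1 p) = d1 ρB b.1 p :=
  s.i_pre ((s.mem_E1.mp b.2).2 p)

/-- projection of `E0` to `H⁰ C` -/
def P0 : s.E0 →ₗ[k] LC.H0 ρC := s.q.restrict fun _ h => h

/-- projection of `E1` to `H¹ C` -/
def P1 : s.E1 →ₗ[k] LC.H1 ρC L :=
  H1.mk ρC L ∘ₗ ((s.q.compLeft G).restrict fun _ h => h.2)

theorem P1_apply (b : s.E1) (c : Z1 ρC L) (h : ∀ g, c.1 g = s.q (b.1 g)) :
    s.P1 b = H1.mk ρC L c := by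
  rw [P1, LinearMap.comp_apply]
  congr 1
  ext g
  exact (h g).symm

theorem P0_surjective : Function.Surjective s.P0 := by
  rintro ⟨c, hc⟩
  obtain ⟨b, rfl⟩ := s.surj c
  exact ⟨⟨b, hc⟩, rfl⟩

theorem exists_lift (c : Z1 ρC L) : ∃ b : s.E1, ∀ g, s.q (b.1 g) = c.1 g := by
  refine ⟨⟨Function.surjInv s.surj ∘ c.1, ?_⟩, fun g => Function.surjInv_eq s.surj _⟩
  refine ⟨IsLC₁.comp c.2.2 _, ?_⟩
  show s.q.compLeft G (Function.surjInv s.surj ∘ c.1) ∈ Z1 ρC L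
  convert c.2
  ext g
  exact Function.surjInv_eq s.surj _

theorem P1_surjective : Function.Surjective s.P1 := by
  intro x
  obtain ⟨c, rfl⟩ := H1.mk_surjective x
  obtain ⟨b, hb⟩ := s.exists_lift c
  exact ⟨b, s.P1_apply b c fun g => (hb g).symm⟩

theorem ker_P0_le : LinearMap.ker s.P0 ≤ LinearMap.ker (H1.mk ρA L ∘ₗ s.D0) := by
  intro b hb
  rw [LinearMap.mem_ker] at hb ⊢
  have hb' : s.q b.1 = 0 := congrArg Subtype.val hb
  obtain ⟨a, ha⟩ := s.exact _ hb'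
  rw [LinearMap.comp_apply, H1.mk_eq_zero_iff]
  refine ⟨a, fun g => s.inj ?_⟩
  rw [i_D0, ← ha, map_sub, s.i_comm]
  rfl

theorem ker_P1_le : LinearMap.ker s.P1 ≤ LinearMap.ker (H2.mk ρA L ∘ₗ s.D1) := by
  intro b hb
  rw [LinearMap.mem_ker] at hb ⊢
  rw [P1, LinearMap.comp_apply, H1.mk_eq_zero_iff] at hb
  obtain ⟨c, hc⟩ := hb
  obtain ⟨b₀, rfl⟩ := s.surj c
  have h1 : ∀ g, s.q (b.1 g - d0 ρB b₀ g) = 0 := fun g => by
    have := hc g
    rw [map_sub, d0_apply, map_sub, s.q_comm, sub_eq_zero]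
    exact this
  have h2 : ∀ g, s.i (s.pre (b.1 g - d0 ρB b₀ g)) = b.1 g - d0 ρB b₀ g := fun g => s.i_pre (h1 g)
  rw [LinearMap.comp_apply, H2.mk_eq_zero_iff]
  refine ⟨fun g => s.pre (b.1 g - d0 ρB b₀ g), ?_, ?_⟩
  · exact IsLC₁.comp ((s.mem_E1.mp b.2).1.sub (d0_mem_Z1 s.smooth b₀).2) s.pre
  · ext p
    apply s.inj
    rw [i_D1, d1_apply, map_add, map_sub, s.i_comm, h2, h2, h2]
    have := congrFun (d1_d0 ρB b₀) p
    simp only [d1_apply, Pi.zero_apply] at this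
    rw [d1_apply, map_sub]
    rw [← sub_eq_zero] at this ⊢
    rw [← neg_eq_zero, ← this]
    abel

/-- the connecting homomorphism `H⁰ C → H¹ A` -/
noncomputable def δ0 : LC.H0 ρC →ₗ[k] LC.H1 ρA L :=
  (LinearMap.ker s.P0).liftQ (H1.mk ρA L ∘ₗ s.D0) s.ker_P0_le ∘ₗ
    (s.P0.quotKerEquivOfSurjective s.P0_surjective).symm.toLinearMap

/-- the connecting homomorphism `H¹ C → H² A` -/
noncomputable def δ1 : LC.H1 ρC L →ₗ[k] LC.H2 ρA L :=
  (LinearMap.ker s.P1).liftQ (H2.mk ρA L ∘ₗ s.D1) s.ker_P1_le ∘ₗ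
    (s.P1.quotKerEquivOfSurjective s.P1_surjective).symm.toLinearMap

theorem δ0_P0 (b : s.E0) : s.δ0 (s.P0 b) = H1.mk ρA L (s.D0 b) := by
  rw [δ0, LinearMap.comp_apply]
  have h : (s.P0.quotKerEquivOfSurjective s.P0_surjective).symm (s.P0 b) =
      (LinearMap.ker s.P0).mkQ b := by
    rw [LinearEquiv.symm_apply_eq]
    rfl
  erw [h]
  rfl

theorem δ1_P1 (b : s.E1) : s.δ1 (s.P1 b) = H2.mk ρA L (s.D1 b) := by
  rw [δ1, LinearMap.comp_apply]
  have h : (s.P1.quotKerEquivOfSurjective s.P1_surjective).symm (s.P1 b) =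
      (LinearMap.ker s.P1).mkQ b := by
    rw [LinearEquiv.symm_apply_eq]
    rfl
  erw [h]
  rfl

/-- Characterisation of `δ0`. -/
theorem δ0_eq (c : LC.H0 ρC) (b : B) (hb : s.q b = c) (a : Z1 ρA L)
    (ha : ∀ g, s.i (a.1 g) = ρB g b - b) : s.δ0 c = H1.mk ρA L a := by
  have hbE : b ∈ s.E0 := by
    rw [E0, Submodule.mem_comap, hb]
    exact c.2
  have h1 : s.P0 ⟨b, hbE⟩ = c := Subtype.ext hb
  rw [← h1, δ0_P0]
  congr 1
  ext g
  apply s.inj
  rw [i_D0, ha]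
  rfl

/-- Characterisation of `δ1`. -/
theorem δ1_eq (c : Z1 ρC L) (b : G → B) (hb : IsLC₁ L b) (hbc : ∀ g, s.q (b g) = c.1 g)
    (a : Z2 ρA L) (ha : ∀ p, s.i (a.1 p) = d1 ρB b p) :
    s.δ1 (H1.mk ρC L c) = H2.mk ρA L a := by
  have hbE : b ∈ s.E1 := by
    refine ⟨hb, ?_⟩
    show s.q.compLeft G b ∈ Z1 ρC L
    convert c.2
    ext g
    exact hbc g
  have h1 : s.P1 ⟨b, hbE⟩ = H1.mk ρC L c := s.P1_apply _ _ fun g => (hbc g).symm
  rw [← h1, δ1_P1]
  congr 1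
  ext p
  apply s.inj
  rw [i_D1, ha]

theorem H0_injective : Function.Injective s.mi.H0 := by
  intro x y h
  have := congrArg Subtype.val h
  exact Subtype.ext (s.inj this)

theorem exact_H0 : Function.Exact s.mi.H0 s.mq.H0 := by
  intro x
  constructor
  · intro h
    have h1 : s.q x.1 = 0 := congrArg Subtype.val h
    obtain ⟨a, ha⟩ := s.exact _ h1
    refine ⟨⟨a, ?_⟩, Subtype.ext ha⟩
    rw [mem_H0]
    intro g
    apply s.inj
    rw [s.i_comm, ha]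
    exact (mem_H0 ρB).mp x.2 g
  · rintro ⟨a, rfl⟩
    exact Subtype.ext (s.q_i a.1)

theorem exact_H0_δ0 : Function.Exact s.mq.H0 s.δ0 := by
  intro c
  constructor
  · intro h
    obtain ⟨b, rfl⟩ := s.P0_surjective c
    rw [δ0_P0, H1.mk_eq_zero_iff] at h
    obtain ⟨a, ha⟩ := h
    refine ⟨⟨b.1 - s.i a, ?_⟩, ?_⟩
    · rw [mem_H0]
      intro g
      have h1 := s.i_D0 b g
      rw [ha g, map_sub, s.i_comm, d0_apply] at h1
      rw [map_sub, sub_eq_sub_iff_sub_eq_sub, ← h1]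
    · apply Subtype.ext
      show s.q (b.1 - s.i a) = s.q b.1
      rw [map_sub, s.q_i, sub_zero]
  · rintro ⟨b, rfl⟩
    rw [s.δ0_eq _ b.1 rfl 0]
    · exact map_zero _
    · intro g
      rw [(mem_H0 ρB).mp b.2 g, sub_self]
      exact map_zero _

theorem exact_δ0_H1 : Function.Exact s.δ0 s.mi.H1 := by
  intro x
  obtain ⟨a, rfl⟩ := H1.mk_surjective x
  constructor
  · intro h
    rw [Mor.H1_mk, H1.mk_eq_zero_iff] at h
    obtain ⟨b, hb⟩ := h
    have hb' : ∀ g, s.i (a.1 g) = ρB g b - b := hb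
    refine ⟨⟨s.q b, ?_⟩, s.δ0_eq _ b rfl a hb'⟩
    rw [mem_H0]
    intro g
    rw [← s.q_comm, ← sub_eq_zero, ← map_sub, ← hb', s.q_i]
  · rintro ⟨c, hc⟩
    obtain ⟨b, rfl⟩ := s.P0_surjective c
    rw [← hc, δ0_P0, Mor.H1_mk, H1.mk_eq_zero_iff]
    exact ⟨b.1, fun g => s.i_D0 b g⟩

theorem exact_H1 : Function.Exact s.mi.H1 s.mq.H1 := by
  intro x
  obtain ⟨b, rfl⟩ := H1.mk_surjective x
  constructor
  · intro h
    rw [Mor.H1_mk, H1.mk_eq_zero_iff] at h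
    obtain ⟨c, hc⟩ := h
    obtain ⟨b₀, rfl⟩ := s.surj c
    have h1 : ∀ g, s.q (b.1 g - d0 ρB b₀ g) = 0 := fun g => by
      have := hc g
      rw [map_sub, d0_apply, map_sub, s.q_comm, sub_eq_zero]
      exact this
    have h2 : ∀ g, s.i (s.pre (b.1 g - d0 ρB b₀ g)) = b.1 g - d0 ρB b₀ g :=
      fun g => s.i_pre (h1 g)
    have hb := (mem_Z1 ρB L).mp b.2
    have h0 := (mem_Z1 ρB L).mp (d0_mem_Z1 s.smooth b₀)
    refine ⟨H1.mk ρA L ⟨fun g => s.pre (b.1 g - d0 ρB b₀ g), ?_⟩, ?_⟩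
    · rw [mem_Z1]
      refine ⟨fun g h => s.inj ?_, (hb.2.sub h0.2).comp s.pre⟩
      rw [map_add, s.i_comm, h2, h2, h2, hb.1, h0.1, map_sub]
      abel
    · rw [Mor.H1_mk, ← sub_eq_zero, ← map_sub, H1.mk_eq_zero_iff]
      refine ⟨-b₀, fun g => ?_⟩
      show s.i (s.pre (b.1 g - d0 ρB b₀ g)) - b.1 g = _
      rw [h2, d0_apply, map_neg]
      abel
  · rintro ⟨y, hy⟩
    rw [← hy, ← Mor.H1_comp]
    apply Mor.H1_zero_of
    ext a
    exact s.q_i a

theorem exact_H1_δ1 : Function.Exact s.mq.H1 s.δ1 := by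
  intro x
  constructor
  · intro h
    obtain ⟨b, rfl⟩ := s.P1_surjective x
    rw [δ1_P1, H2.mk_eq_zero_iff] at h
    obtain ⟨a, ha, ha'⟩ := h
    have h1 : ∀ p, d1 ρB (fun g => s.i (a g)) p = d1 ρB b.1 p := by
      intro p
      rw [← s.i_D1 b p, ← ha']
      simp [s.i_comm]
    have h2 : d1 ρB (fun g => b.1 g - s.i (a g)) = 0 := by
      have : (fun g => b.1 g - s.i (a g)) = b.1 - fun g => s.i (a g) := rfl
      rw [this, map_sub, sub_eq_zero]
      ext p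
      exact (h1 p).symm
    refine ⟨H1.mk ρB L ⟨fun g => b.1 g - s.i (a g), LinearMap.mem_ker.mpr h2,
      (s.mem_E1.mp b.2).1.sub (ha.comp s.i)⟩, ?_⟩
    rw [Mor.H1_mk]
    refine (s.P1_apply b _ fun g => ?_).symm
    show s.q (b.1 g - s.i (a g)) = s.q (b.1 g)
    rw [map_sub, s.q_i, sub_zero]
  · rintro ⟨y, rfl⟩
    obtain ⟨b, rfl⟩ := H1.mk_surjective y
    rw [Mor.H1_mk, s.δ1_eq _ b.1 b.2.2 (fun g => rfl) 0]
    · exact map_zero _
    · intro p
      have := LinearMap.mem_ker.mp b.2.1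
      rw [this]
      exact map_zero _

theorem exact_δ1_H2 : Function.Exact s.δ1 s.mi.H2 := by
  intro x
  obtain ⟨a, rfl⟩ := H2.mk_surjective x
  constructor
  · intro h
    rw [Mor.H2_mk, H2.mk_eq_zero_iff] at h
    obtain ⟨b, hb, hb'⟩ := h
    have hb2 : ∀ p, s.i (a.1 p) = d1 ρB b p := fun p => (congrFun hb' p).symm
    have hE : b ∈ s.E1 := by
      rw [mem_E1]
      exact ⟨hb, fun p => by rw [← hb2, s.q_i]⟩
    refine ⟨H1.mk ρC L ⟨fun g => s.q (b g), hE.2⟩, s.δ1_eq _ b hb (fun g => rfl) a hb2⟩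
  · rintro ⟨c, hc⟩
    obtain ⟨b, rfl⟩ := s.P1_surjective c
    rw [← hc, δ1_P1, Mor.H2_mk, H2.mk_eq_zero_iff]
    refine ⟨b.1, (s.mem_E1.mp b.2).1, ?_⟩
    ext p
    exact (s.i_D1 b p).symm

theorem exact_H2 : Function.Exact s.mi.H2 s.mq.H2 := by
  intro x
  obtain ⟨b, rfl⟩ := H2.mk_surjective x
  constructor
  · intro h
    rw [Mor.H2_mk, H2.mk_eq_zero_iff] at h
    obtain ⟨c, hc, hc'⟩ := h
    -- lift `c`
    set b₀ : G → B := Function.surjInv s.surj ∘ c with hb₀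
    have hb₀lc : IsLC₁ L b₀ := hc.comp _
    have hqb₀ : ∀ g, s.q (b₀ g) = c g := fun g => Function.surjInv_eq s.surj _
    have h1 : ∀ p, s.q (b.1 p - d1 ρB b₀ p) = 0 := fun p => by
      have := congrFun hc' p
      rw [map_sub, sub_eq_zero, d1_apply, map_add, map_sub, s.q_comm, hqb₀, hqb₀, hqb₀]
      exact this.symm
    have h2 : ∀ p, s.i (s.pre (b.1 p - d1 ρB b₀ p)) = b.1 p - d1 ρB b₀ p :=
      fun p => s.i_pre (h1 p)
    have hb := (mem_Z2 ρB L).mp b.2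
    have h0 := (mem_Z2 ρB L).mp (d1_mem_Z2 s.smooth hb₀lc)
    refine ⟨H2.mk ρA L ⟨fun p => s.pre (b.1 p - d1 ρB b₀ p), ?_⟩, ?_⟩
    · rw [mem_Z2]
      refine ⟨fun g h j => s.inj ?_, (hb.2.sub h0.2).comp s.pre⟩
      rw [map_add, map_add, s.i_comm, h2, h2, h2, h2, map_sub]
      have e1 := hb.1 g h j
      have e2 := h0.1 g h j
      calc b.1 (g * h, j) - d1 ρB b₀ (g * h, j) + (b.1 (g, h) - d1 ρB b₀ (g, h))
          = (b.1 (g * h, j) + b.1 (g, h)) - (d1 ρB b₀ (g * h, j) + d1 ρB b₀ (g, h)) := by abel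
        _ = _ := by rw [e1, e2]; abel
    · rw [Mor.H2_mk, ← sub_eq_zero, ← map_sub, H2.mk_eq_zero_iff]
      refine ⟨-b₀, ?_, ?_⟩
      · exact hb₀lc.comp fun x => -x
      · ext p
        show _ = s.i (s.pre (b.1 p - d1 ρB b₀ p)) - b.1 p
        rw [h2, map_neg, Pi.neg_apply]
        abel
  · rintro ⟨y, hy⟩
    rw [← hy, ← Mor.H2_comp]
    apply Mor.H2_zero_of
    ext a
    exact s.q_i a

section Natural

variable {A' B' C' : Type*} [AddCommGroup A'] [Module k A'] [AddCommGroup B'] [Module k B']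
  [AddCommGroup C'] [Module k C'] {LH : Lvl H} {σA : Representation k H A'}
  {σB : Representation k H B'} {σC : Representation k H C'} (s' : SES LH σA σB σC)
  (mA : Mor ρA L σA LH) (mB : Mor ρB L σB LH) (mC : Mor ρC L σC LH)
  (hfA : mA.f = mB.f) (hfC : mC.f = mB.f) (hi : ∀ a, s'.i (mA.φ a) = mB.φ (s.i a))
  (hq : ∀ b, s'.q (mB.φ b) = mC.φ (s.q b))

include hfA hi hq in
theorem δ0_natural (x : LC.H0 ρC) : s'.δ0 (mC.H0 x) = mA.H1 (s.δ0 x) := by
  obtain ⟨b, rfl⟩ := s.P0_surjective x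
  rw [δ0_P0, Mor.H1_mk]
  refine s'.δ0_eq _ (mB.φ b.1) (hq b.1) _ fun g => ?_
  rw [Mor.coe_z1, Mor.c1_apply, hi, hfA, i_D0, d0_apply, map_sub, mB.comm]

include hfA hfC hi hq in
theorem δ1_natural (x : LC.H1 ρC L) : s'.δ1 (mC.H1 x) = mA.H2 (s.δ1 x) := by
  obtain ⟨c, rfl⟩ := H1.mk_surjective x
  obtain ⟨b, hb⟩ := s.exists_lift c
  rw [← s.P1_apply b c fun g => (hb g).symm, δ1_P1, Mor.H2_mk,
    s.P1_apply b c fun g => (hb g).symm, Mor.H1_mk]
  refine s'.δ1_eq _ (mB.c1 b.1) (mB.isLC₁_c1 (s.mem_E1.mp b.2).1) (fun g => ?_) _ fun p => ?_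
  · rw [Mor.c1_apply, hq, hb, Mor.coe_z1, Mor.c1_apply, hfC]
  · rw [Mor.coe_z2, Mor.c2_apply, hi, hfA, i_D1, ← mB.c2_d1, Mor.c2_apply]

end Natural

/-- Pull-back of a short exact sequence along a continuous homomorphism. -/
def res {LH : Lvl H} (f : H →* G) (hf : LH.Cont L f) :
    SES LH (ρA.comp f) (ρB.comp f) (ρC.comp f) where
  i := s.i
  q := s.q
  i_comm g a := s.i_comm (f g) a
  q_comm g b := s.q_comm (f g) b
  inj := s.inj
  surj := s.surj
  exact := s.exact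
  q_i := s.q_i
  smooth := s.smooth.comp hf

theorem δ0_res {LH : Lvl H} (f : H →* G) (hf : LH.Cont L f) (x : LC.H0 ρC) :
    (s.res f hf).δ0 ((Mor.res ρC f hf).H0 x) = (Mor.res ρA f hf).H1 (s.δ0 x) :=
  s.δ0_natural (s.res f hf) (Mor.res ρA f hf) (Mor.res ρB f hf) (Mor.res ρC f hf) rfl
    (fun _ => rfl) (fun _ => rfl) x

theorem δ1_res {LH : Lvl H} (f : H →* G) (hf : LH.Cont L f) (x : LC.H1 ρC L) :
    (s.res f hf).δ1 ((Mor.res ρC f hf).H1 x) = (Mor.res ρA f hf).H2 (s.δ1 x) :=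
  s.δ1_natural (s.res f hf) (Mor.res ρA f hf) (Mor.res ρB f hf) (Mor.res ρC f hf) rfl rfl
    (fun _ => rfl) (fun _ => rfl) x

end SES

end Fermat.Agent.CFT.LC
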