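import Fermat.Agent.CFT.LC.Tools

/-!
# Normal open subgroups of index prime to the characteristic

`N` is a normal subgroup of `G`, open for the levels `L`.

* `conjN ρ L N g` : the action of `g ∈ G` on the pair `(N, ρ|_N)`;
* `conjRep1 / conjRep2` : the induced representations of `G` on `Hⁱ(N, ρ|_N)`, trivial on `N`;
* `res_cor1 / res_cor2` : `res ∘ cor` is the sum of the conjugates;
* `resInv1 / resInv2` : if `[G : N]` is invertible then `Hⁱ(G, ρ) ≃ Hⁱ(N, ρ|_N)^G`;
* `tens1 / tens2` : if `ρ` is trivial on `N` then `Hⁱ(N, ρ₀ ⊗ ρ) ≃ Hⁱ(N, ρ₀) ⊗ V` equivariantly;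
* `invEquiv1 / invEquiv2` : the combination.
-/

set_option autoImplicit false

namespace Fermat.Agent.CFT.LC

open Module TensorProduct

variable {k : Type*} [CommRing k] {G : Type*} [Group G]
variable {V W V₀ : Type*} [AddCommGroup V] [Module k V] [AddCommGroup W] [Module k W]
  [AddCommGroup V₀] [Module k V₀]

section ConjN

variable (ρ : Representation k G V) (L : Lvl G) (N : Subgroup G) [N.Normal]

/-- the action of `g` on the pair `(N, ρ|_N)` : `n ↦ g⁻¹ n g`, `v ↦ g v` -/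
def conjN (g : G) : Mor (ρ.comp N.subtype) (L.restrict N) (ρ.comp N.subtype) (L.restrict N) where
  f := (MulAut.conjNormal (H := N) g⁻¹).toMonoidHom
  φ := ρ g
  cont := by
    rintro _ ⟨N', hN', rfl⟩
    have := L.normal N' hN'
    refine ⟨_, Lvl.comap_mem_levels _ hN', fun x hx => ?_⟩
    rw [Subgroup.mem_comap] at hx
    rw [Subgroup.mem_comap, Subgroup.mem_comap]
    show ((MulAut.conjNormal g⁻¹ x : N) : G) ∈ N'
    rw [MulAut.conjNormal_apply]
    exact this.conj_mem _ hx g⁻¹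
  comm h v := by
    have h1 : g * (g⁻¹ * (h : G) * g) = h * g := by group
    show ρ g (ρ ((MulAut.conjNormal g⁻¹ h : N) : G) v) = ρ (h : G) (ρ g v)
    rw [MulAut.conjNormal_apply, inv_inv, ← Module.End.mul_apply, ← map_mul, h1, map_mul,
      Module.End.mul_apply]

@[simp] theorem conjN_φ (g : G) : (conjN ρ L N g).φ = ρ g := rfl

theorem coe_conjN_f (g : G) (n : N) : (((conjN ρ L N g).f n : N) : G) = g⁻¹ * n * g := by
  show ((MulAut.conjNormal g⁻¹ n : N) : G) = g⁻¹ * n * g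
  rw [MulAut.conjNormal_apply, inv_inv]

theorem conjN_one : conjN ρ L N 1 = Mor.id _ _ := by
  ext1
  · refine MonoidHom.ext fun n => Subtype.ext ?_
    rw [coe_conjN_f]
    simp
  · rw [conjN_φ, map_one]
    rfl

theorem conjN_mul (g h : G) : conjN ρ L N (g * h) = (conjN ρ L N g).comp (conjN ρ L N h) := by
  ext1
  · refine MonoidHom.ext fun n => Subtype.ext ?_
    rw [coe_conjN_f, Mor.comp_f, MonoidHom.comp_apply, coe_conjN_f, coe_conjN_f]
    group
  · rw [conjN_φ, map_mul]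
    rfl

theorem conjN_of_mem {n : G} (hn : n ∈ N) :
    conjN ρ L N n = Mor.conj (ρ.comp N.subtype) (L.restrict N) ⟨n, hn⟩ := by
  ext1
  · refine MonoidHom.ext fun m => Subtype.ext ?_
    rw [coe_conjN_f]
    show _ = ((⟨n, hn⟩⁻¹ * m * ⟨n, hn⟩⁻¹⁻¹ : N) : G)
    rw [inv_inv]
    rfl
  · rfl

theorem conjN_comp_resSub (g : G) :
    (conjN ρ L N g).comp (Mor.resSub ρ L N) = (Mor.resSub ρ L N).comp (Mor.conj ρ L g) := by
  ext1
  · refine MonoidHom.ext fun m => ?_
    show ((conjN ρ L N g).f m : G) = g⁻¹ * m * g⁻¹⁻¹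
    rw [coe_conjN_f, inv_inv]
  · rfl

/-- evaluation at a point of `G ⧸ N`, restricted to `N` -/
def evN (x : G ⧸ N) : Mor (funRep (quotPerm N) ρ) L (ρ.comp N.subtype) (L.restrict N) where
  f := N.subtype
  φ := LinearMap.proj x
  cont := L.cont_comap _
  comm h v := by
    obtain ⟨g, rfl⟩ := QuotientGroup.mk_surjective x
    have h1 : (quotPerm N (h : G))⁻¹ (g : G ⧸ N) = (g : G ⧸ N) := by
      rw [Equiv.Perm.inv_eq_iff_eq, quotPerm_apply, MulAction.Quotient.smul_coe, smul_eq_mul,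
        QuotientGroup.eq]
      have := (inferInstance : N.Normal).conj_mem h.1 h.2 g⁻¹
      rw [inv_inv] at this
      rwa [← mul_assoc]
    show ρ (h : G) (v ((quotPerm N (h : G))⁻¹ (g : G ⧸ N))) = _
    rw [h1]
    rfl

theorem evN_eq (g : G) : (conjN ρ L N g).comp ((shQ ρ L N).comp (Mor.conj _ L g⁻¹)) =
    evN ρ L N (g : G ⧸ N) := by
  ext1
  · refine MonoidHom.ext fun m => ?_
    show g⁻¹⁻¹ * (((conjN ρ L N g).f m : N) : G) * g⁻¹⁻¹⁻¹ = (m : G)
    rw [coe_conjN_f]
    group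
  · refine LinearMap.ext fun F => ?_
    show ρ g (ρ g⁻¹ (F ((quotPerm N g⁻¹)⁻¹ ((1 : G) : G ⧸ N)))) = F (g : G ⧸ N)
    rw [← Module.End.mul_apply, ← map_mul, mul_inv_cancel, map_one, Module.End.one_apply,
      ← map_inv, inv_inv, quotPerm_apply, MulAction.Quotient.smul_coe, smul_eq_mul, mul_one]

/-- the representation of `G` on `H1(N, ρ|_N)` -/
def conjRep1 : Representation k G (LC.H1 (ρ.comp N.subtype) (L.restrict N)) where
  toFun g := (conjN ρ L N g).H1
  map_one' := by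
    refine LinearMap.ext fun x => ?_
    rw [conjN_one, Mor.H1_id]
    rfl
  map_mul' g h := by
    refine LinearMap.ext fun x => ?_
    rw [conjN_mul, Mor.H1_comp]
    rfl

@[simp] theorem conjRep1_apply (g : G) (x : LC.H1 (ρ.comp N.subtype) (L.restrict N)) :
    conjRep1 ρ L N g x = (conjN ρ L N g).H1 x := rfl

theorem conjRep1_of_mem {n : G} (hn : n ∈ N) : conjRep1 ρ L N n = 1 := by
  refine LinearMap.ext fun x => ?_
  rw [conjRep1_apply, conjN_of_mem ρ L N hn, Mor.conj_H1]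
  rfl

theorem conjRep1_res (g : G) (x : LC.H1 ρ L) :
    conjRep1 ρ L N g ((Mor.resSub ρ L N).H1 x) = (Mor.resSub ρ L N).H1 x := by
  rw [conjRep1_apply, ← Mor.H1_comp, conjN_comp_resSub, Mor.H1_comp, Mor.conj_H1]

variable {N} in
/-- every class on `N` which is invariant becomes a restriction after multiplication by the
index -/
theorem exists_res_eq_sum1 (hN : L.IsOpen N) (y : LC.H1 (ρ.comp N.subtype) (L.restrict N)) :
    ∃ x : LC.H1 ρ L, ∃ _ : Fintype (G ⧸ N), (Mor.resSub ρ L N).H1 x =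
      ∑ c : G ⧸ N, conjRep1 ρ L N c.out y := by
  classical
  have hfin := finite_quot hN
  have hfin' := Fintype.ofFinite (G ⧸ N)
  obtain ⟨F, rfl⟩ := (shapiroQ1 ρ hN).surjective y
  refine ⟨(sumMor (quotPerm N) ρ L).H1 F, hfin', ?_⟩
  have h1 := Mor.H1_sum_of Finset.univ (fun x : G ⧸ N => evN ρ L N x)
    ((Mor.resSub ρ L N).comp (sumMor (quotPerm N) ρ L)) (fun _ _ => rfl) (by
      refine LinearMap.ext fun F => ?_
      rfl) F
  rw [← Mor.H1_comp, ← h1]
  refine Finset.sum_congr rfl fun x _ => ?_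
  rw [shapiroQ1_apply, conjRep1_apply]
  have h2 : evN ρ L N x = (conjN ρ L N x.out).comp ((shQ ρ L N).comp (Mor.conj _ L x.out⁻¹)) := by
    rw [evN_eq, QuotientGroup.out_eq']
  rw [h2, Mor.H1_comp, Mor.H1_comp, Mor.conj_H1]

variable {N} in
theorem exists_res_eq_index1 (hN : L.IsOpen N) (y : LC.H1 (ρ.comp N.subtype) (L.restrict N))
    (hy : ∀ g, conjRep1 ρ L N g y = y) :
    ∃ x : LC.H1 ρ L, (Mor.resSub ρ L N).H1 x = (N.index : k) • y := by
  obtain ⟨x, h, hx⟩ := exists_res_eq_sum1 ρ L hN y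
  refine ⟨x, hx.trans ?_⟩
  simp only [hy, Finset.sum_const, Finset.card_univ]
  rw [← Nat.cast_smul_eq_nsmul k, Subgroup.index, Nat.card_eq_fintype_card]

variable {N} in
/-- `H1(G, ρ) ≃ H1(N, ρ|_N)^G` if the index is invertible -/
noncomputable def resInv1 (hN : L.IsOpen N) (hidx : IsUnit (N.index : k)) :
    LC.H1 ρ L ≃ₗ[k] (conjRep1 ρ L N).invariants :=
  LinearEquiv.ofBijective
    ((Mor.resSub ρ L N).H1.codRestrict _ fun x => by
      rw [Representation.mem_invariants]
      exact fun g => conjRep1_res ρ L N g x) (by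
    constructor
    · intro x y hxy
      exact res_injective_H1 ρ hN hidx (congrArg Subtype.val hxy)
    · rintro ⟨y, hy⟩
      rw [Representation.mem_invariants] at hy
      obtain ⟨x, hx⟩ := exists_res_eq_index1 ρ L hN y hy
      obtain ⟨u, hu⟩ := hidx
      refine ⟨(↑u⁻¹ : k) • x, Subtype.ext ?_⟩
      show (Mor.resSub ρ L N).H1 ((↑u⁻¹ : k) • x) = y
      rw [map_smul, hx, ← hu, smul_smul, Units.inv_mul, one_smul])

@[simp] theorem coe_resInv1 (hN : L.IsOpen N) (hidx : IsUnit (N.index : k)) (x : LC.H1 ρ L) :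
    (resInv1 ρ L hN hidx x : LC.H1 (ρ.comp N.subtype) (L.restrict N)) =
      (Mor.resSub ρ L N).H1 x := rfl

/-- the representation of `G` on `H2(N, ρ|_N)` -/
def conjRep2 : Representation k G (LC.H2 (ρ.comp N.subtype) (L.restrict N)) where
  toFun g := (conjN ρ L N g).H2
  map_one' := by
    refine LinearMap.ext fun x => ?_
    rw [conjN_one, Mor.H2_id]
    rfl
  map_mul' g h := by
    refine LinearMap.ext fun x => ?_
    rw [conjN_mul, Mor.H2_comp]
    rfl

@[simp] theorem conjRep2_apply (g : G) (x : LC.H2 (ρ.comp N.subtype) (L.restrict N)) :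
    conjRep2 ρ L N g x = (conjN ρ L N g).H2 x := rfl

theorem conjRep2_of_mem {n : G} (hn : n ∈ N) : conjRep2 ρ L N n = 1 := by
  refine LinearMap.ext fun x => ?_
  rw [conjRep2_apply, conjN_of_mem ρ L N hn, Mor.conj_H2]
  rfl

theorem conjRep2_res (g : G) (x : LC.H2 ρ L) :
    conjRep2 ρ L N g ((Mor.resSub ρ L N).H2 x) = (Mor.resSub ρ L N).H2 x := by
  rw [conjRep2_apply, ← Mor.H2_comp, conjN_comp_resSub, Mor.H2_comp, Mor.conj_H2]

variable {N} in
/-- every class on `N` which is invariant becomes a restriction after multiplication by the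
index -/
theorem exists_res_eq_sum2 (hN : L.IsOpen N) (y : LC.H2 (ρ.comp N.subtype) (L.restrict N)) :
    ∃ x : LC.H2 ρ L, ∃ _ : Fintype (G ⧸ N), (Mor.resSub ρ L N).H2 x =
      ∑ c : G ⧸ N, conjRep2 ρ L N c.out y := by
  classical
  have hfin := finite_quot hN
  have hfin' := Fintype.ofFinite (G ⧸ N)
  obtain ⟨F, rfl⟩ := (shapiroQ2 ρ hN).surjective y
  refine ⟨(sumMor (quotPerm N) ρ L).H2 F, hfin', ?_⟩
  have h1 := Mor.H2_sum_of Finset.univ (fun x : G ⧸ N => evN ρ L N x)
    ((Mor.resSub ρ L N).comp (sumMor (quotPerm N) ρ L)) (fun _ _ => rfl) (by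
      refine LinearMap.ext fun F => ?_
      rfl) F
  rw [← Mor.H2_comp, ← h1]
  refine Finset.sum_congr rfl fun x _ => ?_
  rw [shapiroQ2_apply, conjRep2_apply]
  have h2 : evN ρ L N x = (conjN ρ L N x.out).comp ((shQ ρ L N).comp (Mor.conj _ L x.out⁻¹)) := by
    rw [evN_eq, QuotientGroup.out_eq']
  rw [h2, Mor.H2_comp, Mor.H2_comp, Mor.conj_H2]

variable {N} in
theorem exists_res_eq_index2 (hN : L.IsOpen N) (y : LC.H2 (ρ.comp N.subtype) (L.restrict N))
    (hy : ∀ g, conjRep2 ρ L N g y = y) :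
    ∃ x : LC.H2 ρ L, (Mor.resSub ρ L N).H2 x = (N.index : k) • y := by
  obtain ⟨x, h, hx⟩ := exists_res_eq_sum2 ρ L hN y
  refine ⟨x, hx.trans ?_⟩
  simp only [hy, Finset.sum_const, Finset.card_univ]
  rw [← Nat.cast_smul_eq_nsmul k, Subgroup.index, Nat.card_eq_fintype_card]

variable {N} in
/-- `H2(G, ρ) ≃ H2(N, ρ|_N)^G` if the index is invertible -/
noncomputable def resInv2 (hN : L.IsOpen N) (hidx : IsUnit (N.index : k)) :
    LC.H2 ρ L ≃ₗ[k] (conjRep2 ρ L N).invariants :=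
  LinearEquiv.ofBijective
    ((Mor.resSub ρ L N).H2.codRestrict _ fun x => by
      rw [Representation.mem_invariants]
      exact fun g => conjRep2_res ρ L N g x) (by
    constructor
    · intro x y hxy
      exact res_injective_H2 ρ hN hidx (congrArg Subtype.val hxy)
    · rintro ⟨y, hy⟩
      rw [Representation.mem_invariants] at hy
      obtain ⟨x, hx⟩ := exists_res_eq_index2 ρ L hN y hy
      obtain ⟨u, hu⟩ := hidx
      refine ⟨(↑u⁻¹ : k) • x, Subtype.ext ?_⟩
      show (Mor.resSub ρ L N).H2 ((↑u⁻¹ : k) • x) = y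
      rw [map_smul, hx, ← hu, smul_smul, Units.inv_mul, one_smul])

@[simp] theorem coe_resInv2 (hN : L.IsOpen N) (hidx : IsUnit (N.index : k)) (x : LC.H2 ρ L) :
    (resInv2 ρ L hN hidx x : LC.H2 (ρ.comp N.subtype) (L.restrict N)) =
      (Mor.resSub ρ L N).H2 x := rfl

end ConjN

section Tens

variable {ρ₀ : Representation k G V₀} {ρ : Representation k G V} {σ : Representation k G W}
  (B : V₀ →ₗ[k] V →ₗ[k] W)
  (hB : ∀ g a v, B (ρ₀ g a) (ρ g v) = σ g (B a v)) (L : Lvl G) {N : Subgroup G} [N.Normal]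
  (htriv : ∀ n ∈ N, ρ n = 1)

/-- the morphism `a ↦ B a v` of representations of `N` -/
def tensMor (v : V) :
    Mor (ρ₀.comp N.subtype) (L.restrict N) (σ.comp N.subtype) (L.restrict N) :=
  Mor.coeff _ (B.flip v) fun n a => by
    show B (ρ₀ (n : G) a) v = σ (n : G) (B a v)
    rw [← hB, htriv n n.2]
    rfl

theorem tensMor_conj (g : G) (v : V) :
    (conjN σ L N g).comp (tensMor B hB L htriv v) =
      (tensMor B hB L htriv (ρ g v)).comp (conjN ρ₀ L N g) := by
  ext1
  · rfl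
  · refine LinearMap.ext fun a => ?_
    exact (hB g a v).symm

/-- the bilinear map `H1(N, V₀) × V → H1(N, W)` -/
noncomputable def tensBil1 : LC.H1 (ρ₀.comp N.subtype) (L.restrict N) →ₗ[k] V →ₗ[k]
    LC.H1 (σ.comp N.subtype) (L.restrict N) :=
  LinearMap.mk₂ k (fun x v => (tensMor B hB L htriv v).H1 x)
    (fun _ _ _ => map_add _ _ _)
    (fun _ _ _ => map_smul _ _ _)
    (fun x v w => (Mor.H1_add_of (m₁ := tensMor B hB L htriv v) (m₂ := tensMor B hB L htriv w)
      (m₃ := tensMor B hB L htriv (v + w)) rfl rfl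
      (LinearMap.ext fun a => (map_add (B a) v w).symm) x).symm)
    (fun c x v => (Mor.H1_smul_of (m₁ := tensMor B hB L htriv v)
      (m₂ := tensMor B hB L htriv (c • v)) c rfl
      (LinearMap.ext fun a => (map_smul (B a) c v).symm) x).symm)

omit [N.Normal] in
@[simp] theorem tensBil1_apply (x : LC.H1 (ρ₀.comp N.subtype) (L.restrict N)) (v : V) :
    tensBil1 B hB L htriv x v = (tensMor B hB L htriv v).H1 x := rfl

theorem tensBil1_conj (g : G) (x : LC.H1 (ρ₀.comp N.subtype) (L.restrict N)) (v : V) :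
    tensBil1 B hB L htriv (conjRep1 ρ₀ L N g x) (ρ g v) =
      conjRep1 σ L N g (tensBil1 B hB L htriv x v) := by
  rw [tensBil1_apply, tensBil1_apply, conjRep1_apply, conjRep1_apply, ← Mor.H1_comp,
    ← Mor.H1_comp, tensMor_conj]

/-- `H1(N, V₀) ⊗ V ≃ H1(N, W)`, given a basis of `V` and coordinates `W → V₀`. -/
noncomputable def tens1 {ι : Type*} [Fintype ι] (b : Basis ι k V) (p : ι → (W →ₗ[k] V₀))
    (hp : ∀ i w, ∀ n ∈ N, p i (σ n w) = ρ₀ n (p i w))
    (h1 : ∀ w, ∑ i, B (p i w) (b i) = w) (h2 : ∀ i a v, p i (B a v) = b.repr v i • a) :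
    LC.H1 (ρ₀.comp N.subtype) (L.restrict N) ⊗[k] V ≃ₗ[k]
      LC.H1 (σ.comp N.subtype) (L.restrict N) :=
  LinearEquiv.ofLinearMap (TensorProduct.lift (tensBil1 B hB L htriv))
    (∑ i, (TensorProduct.mk k _ V).flip (b i) ∘ₗ
      (Mor.coeff (ρ := σ.comp N.subtype) (ρ' := ρ₀.comp N.subtype) (L.restrict N) (p i)
        (fun n w => hp i w n n.2)).H1)
    (by
      refine LinearMap.ext fun y => ?_
      rw [LinearMap.comp_apply, LinearMap.sum_apply, map_sum, LinearMap.id_apply]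
      have h3 := Mor.H1_sum_of Finset.univ (fun i => (tensMor B hB L htriv (b i)).comp
        (Mor.coeff (ρ := σ.comp N.subtype) (ρ' := ρ₀.comp N.subtype) (L.restrict N) (p i)
        (fun n w => hp i w n n.2))) (Mor.id (σ.comp N.subtype) (L.restrict N)) (fun _ _ => rfl)
        (by
          refine LinearMap.ext fun w => ?_
          rw [LinearMap.sum_apply]
          exact h1 w) y
      rw [Mor.H1_id] at h3
      refine Eq.trans (Finset.sum_congr rfl fun i _ => ?_) h3
      rw [Mor.H1_comp]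
      rfl)
    (by
      refine TensorProduct.ext' fun x v => ?_
      rw [LinearMap.comp_apply, TensorProduct.lift.tmul, LinearMap.sum_apply, LinearMap.id_apply]
      have h3 : ∀ i, (Mor.coeff (ρ := σ.comp N.subtype) (ρ' := ρ₀.comp N.subtype)
          (L.restrict N) (p i) (fun n w => hp i w n n.2)).H1 (tensBil1 B hB L htriv x v) =
          b.repr v i • x := by
        intro i
        rw [tensBil1_apply, ← Mor.H1_comp]
        have h4 := Mor.H1_smul_of (m₁ := Mor.id (ρ₀.comp N.subtype) (L.restrict N))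
          (m₂ := (Mor.coeff (ρ := σ.comp N.subtype) (ρ' := ρ₀.comp N.subtype)
          (L.restrict N) (p i) (fun n w => hp i w n n.2)).comp (tensMor B hB L htriv v))
          (b.repr v i) rfl (by
            refine LinearMap.ext fun a => ?_
            exact (h2 i a v).symm) x
        rw [← h4, Mor.H1_id]
      have h5 : x ⊗ₜ[k] v = ∑ i, (b.repr v i • x) ⊗ₜ[k] (b i) := by
        conv_lhs => rw [← b.sum_repr v]
        rw [TensorProduct.tmul_sum]
        exact Finset.sum_congr rfl fun i _ => (TensorProduct.smul_tmul _ _ _).symm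
      rw [h5]
      refine Finset.sum_congr rfl fun i _ => ?_
      rw [LinearMap.comp_apply, h3]
      rfl)

omit [N.Normal] in
@[simp] theorem tens1_tmul {ι : Type*} [Fintype ι] (b : Basis ι k V) (p : ι → (W →ₗ[k] V₀))
    (hp : ∀ i w, ∀ n ∈ N, p i (σ n w) = ρ₀ n (p i w))
    (h1 : ∀ w, ∑ i, B (p i w) (b i) = w) (h2 : ∀ i a v, p i (B a v) = b.repr v i • a)
    (x : LC.H1 (ρ₀.comp N.subtype) (L.restrict N)) (v : V) :
    tens1 B hB L htriv b p hp h1 h2 (x ⊗ₜ v) = tensBil1 B hB L htriv x v := by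
  exact TensorProduct.lift.tmul x v

theorem tens1_equivariant {ι : Type*} [Fintype ι] (b : Basis ι k V) (p : ι → (W →ₗ[k] V₀))
    (hp : ∀ i w, ∀ n ∈ N, p i (σ n w) = ρ₀ n (p i w))
    (h1 : ∀ w, ∑ i, B (p i w) (b i) = w) (h2 : ∀ i a v, p i (B a v) = b.repr v i • a)
    (g : G) (z : LC.H1 (ρ₀.comp N.subtype) (L.restrict N) ⊗[k] V) :
    tens1 B hB L htriv b p hp h1 h2 ((conjRep1 ρ₀ L N).tprod ρ g z) =
      conjRep1 σ L N g (tens1 B hB L htriv b p hp h1 h2 z) := by
  induction z using TensorProduct.induction_on with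
  | zero => simp only [map_zero]
  | tmul x v =>
    rw [Representation.tprod_apply, TensorProduct.map_tmul, tens1_tmul, tens1_tmul, tensBil1_conj]
  | add x y hx hy => simp only [map_add, hx, hy]

/-- the bilinear map `H2(N, V₀) × V → H2(N, W)` -/
noncomputable def tensBil2 : LC.H2 (ρ₀.comp N.subtype) (L.restrict N) →ₗ[k] V →ₗ[k]
    LC.H2 (σ.comp N.subtype) (L.restrict N) :=
  LinearMap.mk₂ k (fun x v => (tensMor B hB L htriv v).H2 x)
    (fun _ _ _ => map_add _ _ _)
    (fun _ _ _ => map_smul _ _ _)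
    (fun x v w => (Mor.H2_add_of (m₁ := tensMor B hB L htriv v) (m₂ := tensMor B hB L htriv w)
      (m₃ := tensMor B hB L htriv (v + w)) rfl rfl
      (LinearMap.ext fun a => (map_add (B a) v w).symm) x).symm)
    (fun c x v => (Mor.H2_smul_of (m₁ := tensMor B hB L htriv v)
      (m₂ := tensMor B hB L htriv (c • v)) c rfl
      (LinearMap.ext fun a => (map_smul (B a) c v).symm) x).symm)

omit [N.Normal] in
@[simp] theorem tensBil2_apply (x : LC.H2 (ρ₀.comp N.subtype) (L.restrict N)) (v : V) :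
    tensBil2 B hB L htriv x v = (tensMor B hB L htriv v).H2 x := rfl

theorem tensBil2_conj (g : G) (x : LC.H2 (ρ₀.comp N.subtype) (L.restrict N)) (v : V) :
    tensBil2 B hB L htriv (conjRep2 ρ₀ L N g x) (ρ g v) =
      conjRep2 σ L N g (tensBil2 B hB L htriv x v) := by
  rw [tensBil2_apply, tensBil2_apply, conjRep2_apply, conjRep2_apply, ← Mor.H2_comp,
    ← Mor.H2_comp, tensMor_conj]

/-- `H2(N, V₀) ⊗ V ≃ H2(N, W)`, given a basis of `V` and coordinates `W → V₀`. -/
noncomputable def tens2 {ι : Type*} [Fintype ι] (b : Basis ι k V) (p : ι → (W →ₗ[k] V₀))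
    (hp : ∀ i w, ∀ n ∈ N, p i (σ n w) = ρ₀ n (p i w))
    (h1 : ∀ w, ∑ i, B (p i w) (b i) = w) (h2 : ∀ i a v, p i (B a v) = b.repr v i • a) :
    LC.H2 (ρ₀.comp N.subtype) (L.restrict N) ⊗[k] V ≃ₗ[k]
      LC.H2 (σ.comp N.subtype) (L.restrict N) :=
  LinearEquiv.ofLinearMap (TensorProduct.lift (tensBil2 B hB L htriv))
    (∑ i, (TensorProduct.mk k _ V).flip (b i) ∘ₗ
      (Mor.coeff (ρ := σ.comp N.subtype) (ρ' := ρ₀.comp N.subtype) (L.restrict N) (p i)
        (fun n w => hp i w n n.2)).H2)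
    (by
      refine LinearMap.ext fun y => ?_
      rw [LinearMap.comp_apply, LinearMap.sum_apply, map_sum, LinearMap.id_apply]
      have h3 := Mor.H2_sum_of Finset.univ (fun i => (tensMor B hB L htriv (b i)).comp
        (Mor.coeff (ρ := σ.comp N.subtype) (ρ' := ρ₀.comp N.subtype) (L.restrict N) (p i)
        (fun n w => hp i w n n.2))) (Mor.id (σ.comp N.subtype) (L.restrict N)) (fun _ _ => rfl)
        (by
          refine LinearMap.ext fun w => ?_
          rw [LinearMap.sum_apply]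
          exact h1 w) y
      rw [Mor.H2_id] at h3
      refine Eq.trans (Finset.sum_congr rfl fun i _ => ?_) h3
      rw [Mor.H2_comp]
      rfl)
    (by
      refine TensorProduct.ext' fun x v => ?_
      rw [LinearMap.comp_apply, TensorProduct.lift.tmul, LinearMap.sum_apply, LinearMap.id_apply]
      have h3 : ∀ i, (Mor.coeff (ρ := σ.comp N.subtype) (ρ' := ρ₀.comp N.subtype)
          (L.restrict N) (p i) (fun n w => hp i w n n.2)).H2 (tensBil2 B hB L htriv x v) =
          b.repr v i • x := by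
        intro i
        rw [tensBil2_apply, ← Mor.H2_comp]
        have h4 := Mor.H2_smul_of (m₁ := Mor.id (ρ₀.comp N.subtype) (L.restrict N))
          (m₂ := (Mor.coeff (ρ := σ.comp N.subtype) (ρ' := ρ₀.comp N.subtype)
          (L.restrict N) (p i) (fun n w => hp i w n n.2)).comp (tensMor B hB L htriv v))
          (b.repr v i) rfl (by
            refine LinearMap.ext fun a => ?_
            exact (h2 i a v).symm) x
        rw [← h4, Mor.H2_id]
      have h5 : x ⊗ₜ[k] v = ∑ i, (b.repr v i • x) ⊗ₜ[k] (b i) := by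
        conv_lhs => rw [← b.sum_repr v]
        rw [TensorProduct.tmul_sum]
        exact Finset.sum_congr rfl fun i _ => (TensorProduct.smul_tmul _ _ _).symm
      rw [h5]
      refine Finset.sum_congr rfl fun i _ => ?_
      rw [LinearMap.comp_apply, h3]
      rfl)

omit [N.Normal] in
@[simp] theorem tens2_tmul {ι : Type*} [Fintype ι] (b : Basis ι k V) (p : ι → (W →ₗ[k] V₀))
    (hp : ∀ i w, ∀ n ∈ N, p i (σ n w) = ρ₀ n (p i w))
    (h1 : ∀ w, ∑ i, B (p i w) (b i) = w) (h2 : ∀ i a v, p i (B a v) = b.repr v i • a)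
    (x : LC.H2 (ρ₀.comp N.subtype) (L.restrict N)) (v : V) :
    tens2 B hB L htriv b p hp h1 h2 (x ⊗ₜ v) = tensBil2 B hB L htriv x v := by
  exact TensorProduct.lift.tmul x v

theorem tens2_equivariant {ι : Type*} [Fintype ι] (b : Basis ι k V) (p : ι → (W →ₗ[k] V₀))
    (hp : ∀ i w, ∀ n ∈ N, p i (σ n w) = ρ₀ n (p i w))
    (h1 : ∀ w, ∑ i, B (p i w) (b i) = w) (h2 : ∀ i a v, p i (B a v) = b.repr v i • a)
    (g : G) (z : LC.H2 (ρ₀.comp N.subtype) (L.restrict N) ⊗[k] V) :
    tens2 B hB L htriv b p hp h1 h2 ((conjRep2 ρ₀ L N).tprod ρ g z) =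
      conjRep2 σ L N g (tens2 B hB L htriv b p hp h1 h2 z) := by
  induction z using TensorProduct.induction_on with
  | zero => simp only [map_zero]
  | tmul x v =>
    rw [Representation.tprod_apply, TensorProduct.map_tmul, tens2_tmul, tens2_tmul, tensBil2_conj]
  | add x y hx hy => simp only [map_add, hx, hy]

end Tens

section Character

variable (ρ₀ : Representation k G k) (ρ σ : Representation k G V)
  (hσ : ∀ g v, σ g v = ρ₀ g 1 • ρ g v) (L : Lvl G) {N : Subgroup G} [N.Normal]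
  (htriv : ∀ n ∈ N, ρ n = 1)

/-- a linear equivalence intertwining two representations identifies the invariants -/
noncomputable def invariantsEquiv {ρ : Representation k G V} {σ : Representation k G W} (e : V ≃ₗ[k] W)
    (he : ∀ g v, e (ρ g v) = σ g (e v)) : ρ.invariants ≃ₗ[k] σ.invariants :=
  LinearEquiv.ofSubmodules e _ _ (by
    ext w
    rw [Submodule.mem_map, Representation.mem_invariants]
    constructor
    · rintro ⟨v, hv, rfl⟩ g
      rw [LinearEquiv.coe_coe, ← he, (Representation.mem_invariants ρ v).mp hv g]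
    · intro h
      refine ⟨e.symm w, ?_, e.apply_symm_apply w⟩
      rw [Representation.mem_invariants]
      intro g
      apply e.injective
      rw [he, LinearEquiv.apply_symm_apply, h])

@[simp] theorem coe_invariantsEquiv {ρ : Representation k G V} {σ : Representation k G W}
    (e : V ≃ₗ[k] W) (he : ∀ g v, e (ρ g v) = σ g (e v)) (x : ρ.invariants) :
    (invariantsEquiv e he x : W) = e x := rfl

include hσ in
theorem char_hB (g : G) (a : k) (v : V) :
    (LinearMap.lsmul k V) (ρ₀ g a) (ρ g v) = σ g ((LinearMap.lsmul k V) a v) := by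
  have h1 : ρ₀ g a = a * ρ₀ g 1 := by
    rw [← smul_eq_mul, ← map_smul, smul_eq_mul, mul_one]
  rw [LinearMap.lsmul_apply, LinearMap.lsmul_apply, map_smul, hσ, h1, mul_smul]

include hσ in
omit [N.Normal] in
theorem char_hp {ι : Type*} (b : Basis ι k V) (htriv : ∀ n ∈ N, ρ n = 1) (i : ι) (w : V) :
    ∀ n ∈ N, b.coord i (σ n w) = ρ₀ n (b.coord i w) := by
  intro n hn
  have h1 : ∀ a, ρ₀ n a = a * ρ₀ n 1 := fun a => by
    rw [← smul_eq_mul, ← map_smul, smul_eq_mul, mul_one]
  rw [hσ, htriv n hn, h1 (b.coord i w), map_smul, Module.End.one_apply, smul_eq_mul, mul_comm]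

/-- `H1(N, σ|_N) ≃ H1(N, ρ₀|_N) ⊗ V` where `σ = ρ ⊗ ρ₀`, `ρ₀` a character and `ρ` trivial on
`N`. -/
noncomputable def charTens1 {ι : Type*} [Fintype ι] (b : Basis ι k V) :
    LC.H1 (ρ₀.comp N.subtype) (L.restrict N) ⊗[k] V ≃ₗ[k]
      LC.H1 (σ.comp N.subtype) (L.restrict N) :=
  tens1 (LinearMap.lsmul k V) (char_hB ρ₀ ρ σ hσ) L htriv b b.coord
    (fun i w n hn => char_hp ρ₀ ρ σ hσ b htriv i w n hn) (fun w => b.sum_repr w)
    (fun i a v => by
      show b.coord i (a • v) = _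
      rw [map_smul, smul_eq_mul, smul_eq_mul, mul_comm]
      rfl)

theorem charTens1_equivariant {ι : Type*} [Fintype ι] (b : Basis ι k V) (g : G)
    (z : LC.H1 (ρ₀.comp N.subtype) (L.restrict N) ⊗[k] V) :
    charTens1 ρ₀ ρ σ hσ L htriv b ((conjRep1 ρ₀ L N).tprod ρ g z) =
      conjRep1 σ L N g (charTens1 ρ₀ ρ σ hσ L htriv b z) :=
  tens1_equivariant _ _ _ _ _ _ _ _ _ g z

/-- **The formula for `H1(G, σ)`** where `σ = ρ ⊗ ρ₀`, `ρ₀` a character, `ρ` trivial on the normal
open subgroup `N` of invertible index. -/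
noncomputable def invEquiv1 (hN : L.IsOpen N) (hidx : IsUnit (N.index : k)) {ι : Type*}
    [Fintype ι] (b : Basis ι k V) :
    LC.H1 σ L ≃ₗ[k] ((conjRep1 ρ₀ L N).tprod ρ).invariants :=
  (resInv1 σ L hN hidx).trans (invariantsEquiv (charTens1 ρ₀ ρ σ hσ L htriv b)
    (charTens1_equivariant ρ₀ ρ σ hσ L htriv b)).symm

/-- `H2(N, σ|_N) ≃ H2(N, ρ₀|_N) ⊗ V` where `σ = ρ ⊗ ρ₀`, `ρ₀` a character and `ρ` trivial on
`N`. -/
noncomputable def charTens2 {ι : Type*} [Fintype ι] (b : Basis ι k V) :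
    LC.H2 (ρ₀.comp N.subtype) (L.restrict N) ⊗[k] V ≃ₗ[k]
      LC.H2 (σ.comp N.subtype) (L.restrict N) :=
  tens2 (LinearMap.lsmul k V) (char_hB ρ₀ ρ σ hσ) L htriv b b.coord
    (fun i w n hn => char_hp ρ₀ ρ σ hσ b htriv i w n hn) (fun w => b.sum_repr w)
    (fun i a v => by
      show b.coord i (a • v) = _
      rw [map_smul, smul_eq_mul, smul_eq_mul, mul_comm]
      rfl)

theorem charTens2_equivariant {ι : Type*} [Fintype ι] (b : Basis ι k V) (g : G)
    (z : LC.H2 (ρ₀.comp N.subtype) (L.restrict N) ⊗[k] V) :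
    charTens2 ρ₀ ρ σ hσ L htriv b ((conjRep2 ρ₀ L N).tprod ρ g z) =
      conjRep2 σ L N g (charTens2 ρ₀ ρ σ hσ L htriv b z) :=
  tens2_equivariant _ _ _ _ _ _ _ _ _ g z

/-- **The formula for `H2(G, σ)`** where `σ = ρ ⊗ ρ₀`, `ρ₀` a character, `ρ` trivial on the normal
open subgroup `N` of invertible index. -/
noncomputable def invEquiv2 (hN : L.IsOpen N) (hidx : IsUnit (N.index : k)) {ι : Type*}
    [Fintype ι] (b : Basis ι k V) :
    LC.H2 σ L ≃ₗ[k] ((conjRep2 ρ₀ L N).tprod ρ).invariants :=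
  (resInv2 σ L hN hidx).trans (invariantsEquiv (charTens2 ρ₀ ρ σ hσ L htriv b)
    (charTens2_equivariant ρ₀ ρ σ hσ L htriv b)).symm

end Character

end Fermat.Agent.CFT.LC
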